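/-
S55 (Poitou-Tate), block F1: basic definitions of the cochain framework.

Ambient group `G` with a level system `L` (directed family of normal finite-index subgroups).
For a subgroup `V ≤ G` and a representation `ρ : Representation k G A`:
  `Xn L V ρ` = functions `f : G^(n+1) → A` (curried) which are
     * `V`-equivariant : `f (v g₀) .. (v gₙ) = ρ v (f g₀ .. gₙ)` for `v ∈ V`,
     * smooth          : right-invariant (in every variable) under some level `U ∈ L`.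
The differential is the homogeneous one (no action in the formula).
`Hn L V ρ` computes the (continuous) cohomology of `V` with coefficients in `A`.
Restriction from `V` to `V' ≤ V` is the inclusion of complexes, corestriction is a sum over cosets.
Dictionary with inhomogeneous cochains (for `V = ⊤`):
  `c g = f 1 g`, `c (g,h) = f 1 g (g*h)`, `c (g,h,j) = f 1 g (g*h) (g*h*j)`.
-/
import Mathlib

set_option autoImplicit false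
set_option linter.unusedSectionVars false
set_option linter.unusedSimpArgs false

namespace Fermat.Agent.PT

/-- A level system: a nonempty directed family of normal subgroups of finite index. -/
structure LevelSystem (G : Type*) [Group G] where
  carrier : Set (Subgroup G)
  normal' : ∀ U ∈ carrier, U.Normal
  finiteIndex' : ∀ U ∈ carrier, U.FiniteIndex
  nonempty' : carrier.Nonempty
  directed' : ∀ U ∈ carrier, ∀ U' ∈ carrier, ∃ W ∈ carrier, W ≤ U ∧ W ≤ U'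

namespace LevelSystem

variable {G : Type*} [Group G]

instance : Membership (Subgroup G) (LevelSystem G) := ⟨fun L U => U ∈ L.carrier⟩

lemma mem_def (L : LevelSystem G) (U : Subgroup G) : U ∈ L ↔ U ∈ L.carrier := Iff.rfl

/-- `L ≤ L'`: every level of `L` is a level of `L'` (so `L`-smooth implies `L'`-smooth). -/
instance : LE (LevelSystem G) := ⟨fun L L' => L.carrier ⊆ L'.carrier⟩

lemma le_def (L L' : LevelSystem G) : L ≤ L' ↔ ∀ U, U ∈ L → U ∈ L' := Iff.rfl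

/-- A subgroup is open if it contains a level. -/
def IsOpen (L : LevelSystem G) (V : Subgroup G) : Prop := ∃ U ∈ L, U ≤ V

/-- Pull-back of a level system along a group homomorphism. -/
def comap {G' : Type*} [Group G'] (L : LevelSystem G) (φ : G' →* G) : LevelSystem G' where
  carrier := {W | ∃ U ∈ L, W = U.comap φ}
  normal' := by
    rintro W ⟨U, hU, rfl⟩
    have := L.normal' U hU
    infer_instance
  finiteIndex' := by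
    rintro W ⟨U, hU, rfl⟩
    have h := L.finiteIndex' U hU
    refine ⟨?_⟩
    rw [Subgroup.index_comap]
    exact fun h0 => h.index_ne_zero (Subgroup.index_eq_zero_of_relIndex_eq_zero h0)
  nonempty' := by
    obtain ⟨U, hU⟩ := L.nonempty'
    exact ⟨U.comap φ, U, hU, rfl⟩
  directed' := by
    rintro _ ⟨U, hU, rfl⟩ _ ⟨U', hU', rfl⟩
    obtain ⟨W, hW, h1, h2⟩ := L.directed' U hU U' hU'
    exact ⟨W.comap φ, ⟨W, hW, rfl⟩, Subgroup.comap_mono h1, Subgroup.comap_mono h2⟩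

/-- The induced level system on a subgroup (as a group in its own right). -/
abbrev induced (L : LevelSystem G) (D : Subgroup G) : LevelSystem D := L.comap D.subtype

end LevelSystem

section Cochains

variable {k G A : Type*} [CommRing k] [Group G] [AddCommGroup A] [Module k A]
variable (L : LevelSystem G) (V : Subgroup G) (ρ : Representation k G A)

/-- `ρ` is smooth: every vector is fixed by some level. -/
def IsSmoothRep : Prop := ∀ a : A, ∃ U ∈ L, ∀ u ∈ U, ρ u a = a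

/-! ### smoothness -/

def Smooth0 (f : G → A) : Prop :=
  ∃ U ∈ L, ∀ g₀, ∀ u₀ ∈ U,
    f (g₀ * u₀) = f g₀

def Smooth1 (f : G → G → A) : Prop :=
  ∃ U ∈ L, ∀ g₀ g₁, ∀ u₀ ∈ U, ∀ u₁ ∈ U,
    f (g₀ * u₀) (g₁ * u₁) = f g₀ g₁

def Smooth2 (f : G → G → G → A) : Prop :=
  ∃ U ∈ L, ∀ g₀ g₁ g₂, ∀ u₀ ∈ U, ∀ u₁ ∈ U, ∀ u₂ ∈ U,
    f (g₀ * u₀) (g₁ * u₁) (g₂ * u₂) = f g₀ g₁ g₂

def Smooth3 (f : G → G → G → G → A) : Prop :=
  ∃ U ∈ L, ∀ g₀ g₁ g₂ g₃, ∀ u₀ ∈ U, ∀ u₁ ∈ U, ∀ u₂ ∈ U, ∀ u₃ ∈ U,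
    f (g₀ * u₀) (g₁ * u₁) (g₂ * u₂) (g₃ * u₃) = f g₀ g₁ g₂ g₃

/-! ### equivariance -/

def Equivariant0 (f : G → A) : Prop :=
  ∀ v ∈ V, ∀ g₀, f (v * g₀) = ρ v (f g₀)

def Equivariant1 (f : G → G → A) : Prop :=
  ∀ v ∈ V, ∀ g₀ g₁, f (v * g₀) (v * g₁) = ρ v (f g₀ g₁)

def Equivariant2 (f : G → G → G → A) : Prop :=
  ∀ v ∈ V, ∀ g₀ g₁ g₂, f (v * g₀) (v * g₁) (v * g₂) = ρ v (f g₀ g₁ g₂)

def Equivariant3 (f : G → G → G → G → A) : Prop :=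
  ∀ v ∈ V, ∀ g₀ g₁ g₂ g₃, f (v * g₀) (v * g₁) (v * g₂) (v * g₃) = ρ v (f g₀ g₁ g₂ g₃)

/-! ### the differentials (on all functions; they do not involve the action) -/

def d0 : (G → A) →ₗ[k] (G → G → A) where
  toFun f := fun g₀ g₁ => f g₁ - f g₀
  map_add' f f' := by funext g₀ g₁; simp only [Pi.add_apply]; abel
  map_smul' c f := by
    funext g₀ g₁; simp only [Pi.smul_apply, RingHom.id_apply, smul_sub, smul_add]

def d1 : (G → G → A) →ₗ[k] (G → G → G → A) where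
  toFun f := fun g₀ g₁ g₂ => f g₁ g₂ - f g₀ g₂ + f g₀ g₁
  map_add' f f' := by funext g₀ g₁ g₂; simp only [Pi.add_apply]; abel
  map_smul' c f := by
    funext g₀ g₁ g₂; simp only [Pi.smul_apply, RingHom.id_apply, smul_sub, smul_add]

def d2 : (G → G → G → A) →ₗ[k] (G → G → G → G → A) where
  toFun f := fun g₀ g₁ g₂ g₃ => f g₁ g₂ g₃ - f g₀ g₂ g₃ + f g₀ g₁ g₃ - f g₀ g₁ g₂
  map_add' f f' := by funext g₀ g₁ g₂ g₃; simp only [Pi.add_apply]; abel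
  map_smul' c f := by
    funext g₀ g₁ g₂ g₃; simp only [Pi.smul_apply, RingHom.id_apply, smul_sub, smul_add]

def d3 : (G → G → G → G → A) →ₗ[k] (G → G → G → G → G → A) where
  toFun f := fun g₀ g₁ g₂ g₃ g₄ => f g₁ g₂ g₃ g₄ - f g₀ g₂ g₃ g₄ + f g₀ g₁ g₃ g₄ - f g₀ g₁ g₂ g₄ + f g₀ g₁ g₂ g₃
  map_add' f f' := by funext g₀ g₁ g₂ g₃ g₄; simp only [Pi.add_apply]; abel
  map_smul' c f := by
    funext g₀ g₁ g₂ g₃ g₄; simp only [Pi.smul_apply, RingHom.id_apply, smul_sub, smul_add]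

@[simp] lemma d0_apply (f : G → A) (g₀ g₁ : G) :
    d0 (k := k) f g₀ g₁ = f g₁ - f g₀ := rfl

@[simp] lemma d1_apply (f : G → G → A) (g₀ g₁ g₂ : G) :
    d1 (k := k) f g₀ g₁ g₂ = f g₁ g₂ - f g₀ g₂ + f g₀ g₁ := rfl

@[simp] lemma d2_apply (f : G → G → G → A) (g₀ g₁ g₂ g₃ : G) :
    d2 (k := k) f g₀ g₁ g₂ g₃ = f g₁ g₂ g₃ - f g₀ g₂ g₃ + f g₀ g₁ g₃ - f g₀ g₁ g₂ := rfl

@[simp] lemma d3_apply (f : G → G → G → G → A) (g₀ g₁ g₂ g₃ g₄ : G) :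
    d3 (k := k) f g₀ g₁ g₂ g₃ g₄ = f g₁ g₂ g₃ g₄ - f g₀ g₂ g₃ g₄ + f g₀ g₁ g₃ g₄ - f g₀ g₁ g₂ g₄ + f g₀ g₁ g₂ g₃ := rfl

lemma d1_d0 (f : G → A) : d1 (k := k) (d0 (k := k) f) = 0 := by
  funext g₀ g₁ g₂; simp only [d1_apply, d0_apply, Pi.zero_apply]; abel

lemma d2_d1 (f : G → G → A) : d2 (k := k) (d1 (k := k) f) = 0 := by
  funext g₀ g₁ g₂ g₃; simp only [d2_apply, d1_apply, Pi.zero_apply]; abel

lemma d3_d2 (f : G → G → G → A) : d3 (k := k) (d2 (k := k) f) = 0 := by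
  funext g₀ g₁ g₂ g₃ g₄; simp only [d3_apply, d2_apply, Pi.zero_apply]; abel

/-! ### the cochain modules -/

/-- `V`-equivariant smooth functions `G^1 → A`. -/
def X0 : Submodule k (G → A) where
  carrier := {f | Equivariant0 V ρ f ∧ Smooth0 L f}
  zero_mem' := by
    obtain ⟨U, hU⟩ := L.nonempty'
    exact ⟨fun v _ g₀ => by simp, U, hU, fun _ _ _ => rfl⟩
  add_mem' := by
    rintro f f' ⟨he, U, hU, hs⟩ ⟨he', U', hU', hs'⟩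
    obtain ⟨W, hW, h1, h2⟩ := L.directed' U hU U' hU'
    refine ⟨fun v hv g₀ => by simp [he v hv, he' v hv], W, hW, fun g₀ u₀ h₀ => ?_⟩
    simp [hs g₀ u₀ (h1 h₀), hs' g₀ u₀ (h2 h₀)]
  smul_mem' := by
    rintro c f ⟨he, U, hU, hs⟩
    exact ⟨fun v hv g₀ => by simp [he v hv], U, hU,
      fun g₀ u₀ h₀ => by simp [hs g₀ u₀ h₀]⟩

/-- `V`-equivariant smooth functions `G^2 → A`. -/
def X1 : Submodule k (G → G → A) where
  carrier := {f | Equivariant1 V ρ f ∧ Smooth1 L f}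
  zero_mem' := by
    obtain ⟨U, hU⟩ := L.nonempty'
    exact ⟨fun v _ g₀ g₁ => by simp, U, hU, fun _ _ _ _ _ _ => rfl⟩
  add_mem' := by
    rintro f f' ⟨he, U, hU, hs⟩ ⟨he', U', hU', hs'⟩
    obtain ⟨W, hW, h1, h2⟩ := L.directed' U hU U' hU'
    refine ⟨fun v hv g₀ g₁ => by simp [he v hv, he' v hv], W, hW, fun g₀ g₁ u₀ h₀ u₁ h₁ => ?_⟩
    simp [hs g₀ g₁ u₀ (h1 h₀) u₁ (h1 h₁), hs' g₀ g₁ u₀ (h2 h₀) u₁ (h2 h₁)]
  smul_mem' := by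
    rintro c f ⟨he, U, hU, hs⟩
    exact ⟨fun v hv g₀ g₁ => by simp [he v hv], U, hU,
      fun g₀ g₁ u₀ h₀ u₁ h₁ => by simp [hs g₀ g₁ u₀ h₀ u₁ h₁]⟩

/-- `V`-equivariant smooth functions `G^3 → A`. -/
def X2 : Submodule k (G → G → G → A) where
  carrier := {f | Equivariant2 V ρ f ∧ Smooth2 L f}
  zero_mem' := by
    obtain ⟨U, hU⟩ := L.nonempty'
    exact ⟨fun v _ g₀ g₁ g₂ => by simp, U, hU, fun _ _ _ _ _ _ _ _ _ => rfl⟩
  add_mem' := by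
    rintro f f' ⟨he, U, hU, hs⟩ ⟨he', U', hU', hs'⟩
    obtain ⟨W, hW, h1, h2⟩ := L.directed' U hU U' hU'
    refine ⟨fun v hv g₀ g₁ g₂ => by simp [he v hv, he' v hv], W, hW, fun g₀ g₁ g₂ u₀ h₀ u₁ h₁ u₂ h₂ => ?_⟩
    simp [hs g₀ g₁ g₂ u₀ (h1 h₀) u₁ (h1 h₁) u₂ (h1 h₂), hs' g₀ g₁ g₂ u₀ (h2 h₀) u₁ (h2 h₁) u₂ (h2 h₂)]
  smul_mem' := by
    rintro c f ⟨he, U, hU, hs⟩
    exact ⟨fun v hv g₀ g₁ g₂ => by simp [he v hv], U, hU,
      fun g₀ g₁ g₂ u₀ h₀ u₁ h₁ u₂ h₂ => by simp [hs g₀ g₁ g₂ u₀ h₀ u₁ h₁ u₂ h₂]⟩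

/-- `V`-equivariant smooth functions `G^4 → A`. -/
def X3 : Submodule k (G → G → G → G → A) where
  carrier := {f | Equivariant3 V ρ f ∧ Smooth3 L f}
  zero_mem' := by
    obtain ⟨U, hU⟩ := L.nonempty'
    exact ⟨fun v _ g₀ g₁ g₂ g₃ => by simp, U, hU, fun _ _ _ _ _ _ _ _ _ _ _ _ => rfl⟩
  add_mem' := by
    rintro f f' ⟨he, U, hU, hs⟩ ⟨he', U', hU', hs'⟩
    obtain ⟨W, hW, h1, h2⟩ := L.directed' U hU U' hU'
    refine ⟨fun v hv g₀ g₁ g₂ g₃ => by simp [he v hv, he' v hv], W, hW, fun g₀ g₁ g₂ g₃ u₀ h₀ u₁ h₁ u₂ h₂ u₃ h₃ => ?_⟩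
    simp [hs g₀ g₁ g₂ g₃ u₀ (h1 h₀) u₁ (h1 h₁) u₂ (h1 h₂) u₃ (h1 h₃), hs' g₀ g₁ g₂ g₃ u₀ (h2 h₀) u₁ (h2 h₁) u₂ (h2 h₂) u₃ (h2 h₃)]
  smul_mem' := by
    rintro c f ⟨he, U, hU, hs⟩
    exact ⟨fun v hv g₀ g₁ g₂ g₃ => by simp [he v hv], U, hU,
      fun g₀ g₁ g₂ g₃ u₀ h₀ u₁ h₁ u₂ h₂ u₃ h₃ => by simp [hs g₀ g₁ g₂ g₃ u₀ h₀ u₁ h₁ u₂ h₂ u₃ h₃]⟩

variable {L V ρ}

lemma mem_X0 {f : G → A} : f ∈ X0 L V ρ ↔ Equivariant0 V ρ f ∧ Smooth0 L f := Iff.rfl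

lemma mem_X1 {f : G → G → A} : f ∈ X1 L V ρ ↔ Equivariant1 V ρ f ∧ Smooth1 L f := Iff.rfl

lemma mem_X2 {f : G → G → G → A} : f ∈ X2 L V ρ ↔ Equivariant2 V ρ f ∧ Smooth2 L f := Iff.rfl

lemma mem_X3 {f : G → G → G → G → A} : f ∈ X3 L V ρ ↔ Equivariant3 V ρ f ∧ Smooth3 L f := Iff.rfl

lemma d0_mem {f : G → A} (hf : f ∈ X0 L V ρ) : d0 (k := k) f ∈ X1 L V ρ := by
  obtain ⟨he, U, hU, hs⟩ := hf
  exact ⟨fun v hv g₀ g₁ => by simp [he v hv], U, hU,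
    fun g₀ g₁ u₀ h₀ u₁ h₁ => by simp [hs _ _ h₀, hs _ _ h₁]⟩

lemma d1_mem {f : G → G → A} (hf : f ∈ X1 L V ρ) : d1 (k := k) f ∈ X2 L V ρ := by
  obtain ⟨he, U, hU, hs⟩ := hf
  exact ⟨fun v hv g₀ g₁ g₂ => by simp [he v hv], U, hU,
    fun g₀ g₁ g₂ u₀ h₀ u₁ h₁ u₂ h₂ => by
      simp [hs _ _ _ h₀ _ h₁, hs _ _ _ h₀ _ h₂, hs _ _ _ h₁ _ h₂]⟩

lemma d2_mem {f : G → G → G → A} (hf : f ∈ X2 L V ρ) : d2 (k := k) f ∈ X3 L V ρ := by
  obtain ⟨he, U, hU, hs⟩ := hf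
  exact ⟨fun v hv g₀ g₁ g₂ g₃ => by simp [he v hv], U, hU,
    fun g₀ g₁ g₂ g₃ u₀ h₀ u₁ h₁ u₂ h₂ u₃ h₃ => by
      simp [hs _ _ _ _ h₀ _ h₁ _ h₂, hs _ _ _ _ h₀ _ h₁ _ h₃, hs _ _ _ _ h₀ _ h₂ _ h₃,
        hs _ _ _ _ h₁ _ h₂ _ h₃]⟩

variable (L V ρ)

/-! ### cocycles, coboundaries, cohomology -/

def Z0 : Submodule k (G → A) := X0 L V ρ ⊓ LinearMap.ker (d0 (k := k) (G := G) (A := A))

def Z1 : Submodule k (G → G → A) := X1 L V ρ ⊓ LinearMap.ker (d1 (k := k) (G := G) (A := A))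

def Z2 : Submodule k (G → G → G → A) := X2 L V ρ ⊓ LinearMap.ker (d2 (k := k) (G := G) (A := A))

def Z3 : Submodule k (G → G → G → G → A) := X3 L V ρ ⊓ LinearMap.ker (d3 (k := k) (G := G) (A := A))

def B1 : Submodule k (G → G → A) := (X0 L V ρ).map (d0 (k := k) (G := G) (A := A))

def B2 : Submodule k (G → G → G → A) := (X1 L V ρ).map (d1 (k := k) (G := G) (A := A))

def B3 : Submodule k (G → G → G → G → A) := (X2 L V ρ).map (d2 (k := k) (G := G) (A := A))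

/-- `H⁰(V,A)` (canonically `A^V`: constant functions with `V`-invariant value). -/
abbrev H0 : Type _ := Z0 L V ρ

/-- `H^1(V,A)`. -/
abbrev H1 : Type _ := Z1 L V ρ ⧸ (B1 L V ρ).submoduleOf (Z1 L V ρ)

/-- `H^2(V,A)`. -/
abbrev H2 : Type _ := Z2 L V ρ ⧸ (B2 L V ρ).submoduleOf (Z2 L V ρ)

/-- `H^3(V,A)`. -/
abbrev H3 : Type _ := Z3 L V ρ ⧸ (B3 L V ρ).submoduleOf (Z3 L V ρ)

variable {L V ρ}

lemma mem_Z0 {f : G → A} : f ∈ Z0 L V ρ ↔ f ∈ X0 L V ρ ∧ d0 (k := k) f = 0 := Iff.rfl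

lemma mem_Z1 {f : G → G → A} : f ∈ Z1 L V ρ ↔ f ∈ X1 L V ρ ∧ d1 (k := k) f = 0 := Iff.rfl

lemma mem_Z2 {f : G → G → G → A} : f ∈ Z2 L V ρ ↔ f ∈ X2 L V ρ ∧ d2 (k := k) f = 0 := Iff.rfl

lemma mem_Z3 {f : G → G → G → G → A} : f ∈ Z3 L V ρ ↔ f ∈ X3 L V ρ ∧ d3 (k := k) f = 0 := Iff.rfl

lemma mem_B1 {f : G → G → A} : f ∈ B1 L V ρ ↔ ∃ e ∈ X0 L V ρ, d0 (k := k) e = f := Iff.rfl

lemma mem_B2 {f : G → G → G → A} : f ∈ B2 L V ρ ↔ ∃ e ∈ X1 L V ρ, d1 (k := k) e = f := Iff.rfl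

lemma mem_B3 {f : G → G → G → G → A} : f ∈ B3 L V ρ ↔ ∃ e ∈ X2 L V ρ, d2 (k := k) e = f := Iff.rfl

lemma B1_le_Z1 : B1 L V ρ ≤ Z1 L V ρ := by
  rintro _ ⟨e, he, rfl⟩; exact ⟨d0_mem he, d1_d0 e⟩

lemma B2_le_Z2 : B2 L V ρ ≤ Z2 L V ρ := by
  rintro _ ⟨e, he, rfl⟩; exact ⟨d1_mem he, d2_d1 e⟩

lemma B3_le_Z3 : B3 L V ρ ≤ Z3 L V ρ := by
  rintro _ ⟨e, he, rfl⟩; exact ⟨d2_mem he, d3_d2 e⟩

variable (L V ρ)

/-- the class of an `1`-cocycle -/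
def H1.mk : Z1 L V ρ →ₗ[k] H1 L V ρ := Submodule.mkQ _

lemma H1.mk_surjective : Function.Surjective (H1.mk L V ρ) := Submodule.mkQ_surjective _

lemma H1.mk_eq_zero_iff (z : Z1 L V ρ) :
    H1.mk L V ρ z = 0 ↔ (z : G → G → A) ∈ B1 L V ρ := by
  simp only [H1.mk, Submodule.mkQ_apply, Submodule.Quotient.mk_eq_zero]; rfl

/-- the class of an `2`-cocycle -/
def H2.mk : Z2 L V ρ →ₗ[k] H2 L V ρ := Submodule.mkQ _

lemma H2.mk_surjective : Function.Surjective (H2.mk L V ρ) := Submodule.mkQ_surjective _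

lemma H2.mk_eq_zero_iff (z : Z2 L V ρ) :
    H2.mk L V ρ z = 0 ↔ (z : G → G → G → A) ∈ B2 L V ρ := by
  simp only [H2.mk, Submodule.mkQ_apply, Submodule.Quotient.mk_eq_zero]; rfl

/-- the class of an `3`-cocycle -/
def H3.mk : Z3 L V ρ →ₗ[k] H3 L V ρ := Submodule.mkQ _

lemma H3.mk_surjective : Function.Surjective (H3.mk L V ρ) := Submodule.mkQ_surjective _

lemma H3.mk_eq_zero_iff (z : Z3 L V ρ) :
    H3.mk L V ρ z = 0 ↔ (z : G → G → G → G → A) ∈ B3 L V ρ := by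
  simp only [H3.mk, Submodule.mkQ_apply, Submodule.Quotient.mk_eq_zero]; rfl

end Cochains

end Fermat.Agent.PT
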