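import Fermat.Agent.PT.Coh.Pair

/-!
# S55, block F1 (a)/(d): the twist (conjugation) operators `(tw c f)(g₀,..) = ρ c (f (c⁻¹ g₀, ..))`

`tw c` maps `X_n L V ρ` to `X_n L W ρ` whenever `c⁻¹ W c ≤ V`; it is the identity on `X_n L V ρ`
for `c ∈ V` (so "conjugation acts trivially on cohomology" holds on the nose in this model).
-/

set_option autoImplicit false

namespace Fermat.Agent.PT

variable {k : Type*} [CommRing k] {G : Type*} [Group G] {A : Type*} [AddCommGroup A] [Module k A]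

section total

variable (ρ : Representation k G A) (c : G)

def tw0 : (G → A) →ₗ[k] (G → A) where
  toFun f := fun g₀ => ρ c (f (c⁻¹ * g₀))
  map_add' f f' := by funext g₀; simp
  map_smul' a f := by funext g₀; simp

def tw1 : (G → G → A) →ₗ[k] (G → G → A) where
  toFun f := fun g₀ g₁ => ρ c (f (c⁻¹ * g₀) (c⁻¹ * g₁))
  map_add' f f' := by funext g₀ g₁; simp
  map_smul' a f := by funext g₀ g₁; simp

def tw2 : (G → G → G → A) →ₗ[k] (G → G → G → A) where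
  toFun f := fun g₀ g₁ g₂ => ρ c (f (c⁻¹ * g₀) (c⁻¹ * g₁) (c⁻¹ * g₂))
  map_add' f f' := by funext g₀ g₁ g₂; simp
  map_smul' a f := by funext g₀ g₁ g₂; simp

def tw3 : (G → G → G → G → A) →ₗ[k] (G → G → G → G → A) where
  toFun f := fun g₀ g₁ g₂ g₃ => ρ c (f (c⁻¹ * g₀) (c⁻¹ * g₁) (c⁻¹ * g₂) (c⁻¹ * g₃))
  map_add' f f' := by funext g₀ g₁ g₂ g₃; simp
  map_smul' a f := by funext g₀ g₁ g₂ g₃; simp

def tw4 : (G → G → G → G → G → A) →ₗ[k] (G → G → G → G → G → A) where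
  toFun f := fun g₀ g₁ g₂ g₃ g₄ =>
    ρ c (f (c⁻¹ * g₀) (c⁻¹ * g₁) (c⁻¹ * g₂) (c⁻¹ * g₃) (c⁻¹ * g₄))
  map_add' f f' := by funext g₀ g₁ g₂ g₃ g₄; simp
  map_smul' a f := by funext g₀ g₁ g₂ g₃ g₄; simp

@[simp] lemma tw0_apply (f : G → A) (g₀ : G) : tw0 ρ c f g₀ = ρ c (f (c⁻¹ * g₀)) := rfl
@[simp] lemma tw1_apply (f : G → G → A) (g₀ g₁ : G) :
    tw1 ρ c f g₀ g₁ = ρ c (f (c⁻¹ * g₀) (c⁻¹ * g₁)) := rfl
@[simp] lemma tw2_apply (f : G → G → G → A) (g₀ g₁ g₂ : G) :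
    tw2 ρ c f g₀ g₁ g₂ = ρ c (f (c⁻¹ * g₀) (c⁻¹ * g₁) (c⁻¹ * g₂)) := rfl
@[simp] lemma tw3_apply (f : G → G → G → G → A) (g₀ g₁ g₂ g₃ : G) :
    tw3 ρ c f g₀ g₁ g₂ g₃ = ρ c (f (c⁻¹ * g₀) (c⁻¹ * g₁) (c⁻¹ * g₂) (c⁻¹ * g₃)) := rfl
@[simp] lemma tw4_apply (f : G → G → G → G → G → A) (g₀ g₁ g₂ g₃ g₄ : G) :
    tw4 ρ c f g₀ g₁ g₂ g₃ g₄ =
      ρ c (f (c⁻¹ * g₀) (c⁻¹ * g₁) (c⁻¹ * g₂) (c⁻¹ * g₃) (c⁻¹ * g₄)) := rfl

lemma d0_tw0 (f : G → A) : d0 (k := k) (tw0 ρ c f) = tw1 ρ c (d0 (k := k) f) := by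
  funext g₀ g₁; simp
lemma d1_tw1 (f : G → G → A) : d1 (k := k) (tw1 ρ c f) = tw2 ρ c (d1 (k := k) f) := by
  funext g₀ g₁ g₂; simp
lemma d2_tw2 (f : G → G → G → A) : d2 (k := k) (tw2 ρ c f) = tw3 ρ c (d2 (k := k) f) := by
  funext g₀ g₁ g₂ g₃; simp
lemma d3_tw3 (f : G → G → G → G → A) : d3 (k := k) (tw3 ρ c f) = tw4 ρ c (d3 (k := k) f) := by
  funext g₀ g₁ g₂ g₃ g₄; simp

end total

variable (L : LevelSystem G) (ρ : Representation k G A)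

/-- Conjugation (followed by restriction): `X(L, V) → X(L, W)` if `c⁻¹ W c ≤ V`. -/
def twC {V W : Subgroup G} (c : G) (h : ∀ w ∈ W, c⁻¹ * w * c ∈ V) : CMap L V ρ L W ρ where
  T0 := tw0 ρ c
  T1 := tw1 ρ c
  T2 := tw2 ρ c
  T3 := tw3 ρ c
  mem0 := by
    rintro f ⟨he, U, hU, hs⟩
    refine ⟨fun w hw g₀ => ?_, U, hU, fun g₀ u₀ h₀ => by simp [← mul_assoc, hs _ _ h₀]⟩
    have e : ∀ g : G, c⁻¹ * (w * g) = (c⁻¹ * w * c) * (c⁻¹ * g) := fun g => by group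
    simp only [tw0_apply, e, he _ (h w hw)]
    simp only [← Module.End.mul_apply, ← map_mul]
    congr 2; group
  mem1 := by
    rintro f ⟨he, U, hU, hs⟩
    refine ⟨fun w hw g₀ g₁ => ?_, U, hU,
      fun g₀ g₁ u₀ h₀ u₁ h₁ => by simp [← mul_assoc, hs _ _ _ h₀ _ h₁]⟩
    have e : ∀ g : G, c⁻¹ * (w * g) = (c⁻¹ * w * c) * (c⁻¹ * g) := fun g => by group
    simp only [tw1_apply, e, he _ (h w hw)]
    simp only [← Module.End.mul_apply, ← map_mul]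
    congr 2; group
  mem2 := by
    rintro f ⟨he, U, hU, hs⟩
    refine ⟨fun w hw g₀ g₁ g₂ => ?_, U, hU,
      fun g₀ g₁ g₂ u₀ h₀ u₁ h₁ u₂ h₂ => by simp [← mul_assoc, hs _ _ _ _ h₀ _ h₁ _ h₂]⟩
    have e : ∀ g : G, c⁻¹ * (w * g) = (c⁻¹ * w * c) * (c⁻¹ * g) := fun g => by group
    simp only [tw2_apply, e, he _ (h w hw)]
    simp only [← Module.End.mul_apply, ← map_mul]
    congr 2; group
  mem3 := by
    rintro f ⟨he, U, hU, hs⟩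
    refine ⟨fun w hw g₀ g₁ g₂ g₃ => ?_, U, hU,
      fun g₀ g₁ g₂ g₃ u₀ h₀ u₁ h₁ u₂ h₂ u₃ h₃ => by
        simp [← mul_assoc, hs _ _ _ _ _ h₀ _ h₁ _ h₂ _ h₃]⟩
    have e : ∀ g : G, c⁻¹ * (w * g) = (c⁻¹ * w * c) * (c⁻¹ * g) := fun g => by group
    simp only [tw3_apply, e, he _ (h w hw)]
    simp only [← Module.End.mul_apply, ← map_mul]
    congr 2; group
  comm0 f _ := d0_tw0 ρ c f
  comm1 f _ := d1_tw1 ρ c f
  comm2 f _ := d2_tw2 ρ c f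
  comm3 f hf := by
    rw [d3_tw3, (mem_Z3.mp hf).2]
    funext g₀ g₁ g₂ g₃ g₄
    simp

variable {L ρ} {V : Subgroup G}

/-! ### `tw c` is the identity on `V`-equivariant functions for `c ∈ V` -/

lemma tw0_of_mem {c : G} (hc : c ∈ V) {f : G → A} (hf : f ∈ X0 L V ρ) : tw0 ρ c f = f := by
  funext g₀
  rw [tw0_apply, ← hf.1 c hc]; simp

lemma tw1_of_mem {c : G} (hc : c ∈ V) {f : G → G → A} (hf : f ∈ X1 L V ρ) : tw1 ρ c f = f := by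
  funext g₀ g₁
  rw [tw1_apply, ← hf.1 c hc]; simp

lemma tw2_of_mem {c : G} (hc : c ∈ V) {f : G → G → G → A} (hf : f ∈ X2 L V ρ) :
    tw2 ρ c f = f := by
  funext g₀ g₁ g₂
  rw [tw2_apply, ← hf.1 c hc]; simp

lemma tw3_of_mem {c : G} (hc : c ∈ V) {f : G → G → G → G → A} (hf : f ∈ X3 L V ρ) :
    tw3 ρ c f = f := by
  funext g₀ g₁ g₂ g₃
  rw [tw3_apply, ← hf.1 c hc]; simp

/-! ### multiplicativity -/

lemma tw0_mul (c c' : G) (f : G → A) : tw0 ρ (c * c') f = tw0 ρ c (tw0 ρ c' f) := by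
  funext g₀; simp [mul_assoc]
lemma tw1_mul (c c' : G) (f : G → G → A) : tw1 ρ (c * c') f = tw1 ρ c (tw1 ρ c' f) := by
  funext g₀ g₁; simp [mul_assoc]
lemma tw2_mul (c c' : G) (f : G → G → G → A) : tw2 ρ (c * c') f = tw2 ρ c (tw2 ρ c' f) := by
  funext g₀ g₁ g₂; simp [mul_assoc]
lemma tw3_mul (c c' : G) (f : G → G → G → G → A) :
    tw3 ρ (c * c') f = tw3 ρ c (tw3 ρ c' f) := by
  funext g₀ g₁ g₂ g₃; simp [mul_assoc]

end Fermat.Agent.PT
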