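import Fermat.Agent.PT.Coh.Pair

/-!
# S55, block F1 (d), auxiliary file: corestriction in the right coset convention

* `ltr n ρ c` : `(ltr ρ c f)(g₀, .., gₙ) = ρ c⁻¹ (f (c g₀, .., c gₙ))` on all functions; it commutes
  with the differentials.  `ltrC` is the chain map `X(V₁) → X(V₂)` when `c V₂ c⁻¹ ≤ V₁`
  (conjugation).  On `X(V)` with `c ∈ V` it is the identity on the nose.
* `IsRTrans V' V c` : the finite family `c : ι → G` is a system of representatives of `V' \ V`.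
* `cor n ρ c = ∑ i, ltr n ρ (c i)`, `rcorC h : CMap L V' ρ L V ρ` : corestriction.
* independence of the transversal, `cores ∘ res = index`, transitivity, compatibility with
  coefficient maps, Mackey decomposition.
-/

set_option autoImplicit false
set_option linter.unusedSectionVars false
set_option linter.unusedSimpArgs false

namespace Fermat.Agent.PT

variable {k : Type*} [CommRing k] {G : Type*} [Group G]
variable {A A' : Type*} [AddCommGroup A] [Module k A] [AddCommGroup A'] [Module k A']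

/-! ### twisted left translation -/

section ltr

variable (ρ : Representation k G A) (c : G)

/-- twisted left translation of functions of 1 variable(s) -/
def ltr0 : (G → A) →ₗ[k] (G → A) where
  toFun f := fun g₀ => ρ c⁻¹ (f (c * g₀))
  map_add' f f' := by funext g₀; simp
  map_smul' a f := by funext g₀; simp

@[simp] lemma ltr0_apply (f : G → A) (g₀ : G) :
    ltr0 ρ c f g₀ = ρ c⁻¹ (f (c * g₀)) := rfl

/-- twisted left translation of functions of 2 variable(s) -/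
def ltr1 : (G → G → A) →ₗ[k] (G → G → A) where
  toFun f := fun g₀ g₁ => ρ c⁻¹ (f (c * g₀) (c * g₁))
  map_add' f f' := by funext g₀ g₁; simp
  map_smul' a f := by funext g₀ g₁; simp

@[simp] lemma ltr1_apply (f : G → G → A) (g₀ g₁ : G) :
    ltr1 ρ c f g₀ g₁ = ρ c⁻¹ (f (c * g₀) (c * g₁)) := rfl

/-- twisted left translation of functions of 3 variable(s) -/
def ltr2 : (G → G → G → A) →ₗ[k] (G → G → G → A) where
  toFun f := fun g₀ g₁ g₂ => ρ c⁻¹ (f (c * g₀) (c * g₁) (c * g₂))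
  map_add' f f' := by funext g₀ g₁ g₂; simp
  map_smul' a f := by funext g₀ g₁ g₂; simp

@[simp] lemma ltr2_apply (f : G → G → G → A) (g₀ g₁ g₂ : G) :
    ltr2 ρ c f g₀ g₁ g₂ = ρ c⁻¹ (f (c * g₀) (c * g₁) (c * g₂)) := rfl

/-- twisted left translation of functions of 4 variable(s) -/
def ltr3 : (G → G → G → G → A) →ₗ[k] (G → G → G → G → A) where
  toFun f := fun g₀ g₁ g₂ g₃ => ρ c⁻¹ (f (c * g₀) (c * g₁) (c * g₂) (c * g₃))
  map_add' f f' := by funext g₀ g₁ g₂ g₃; simp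
  map_smul' a f := by funext g₀ g₁ g₂ g₃; simp

@[simp] lemma ltr3_apply (f : G → G → G → G → A) (g₀ g₁ g₂ g₃ : G) :
    ltr3 ρ c f g₀ g₁ g₂ g₃ = ρ c⁻¹ (f (c * g₀) (c * g₁) (c * g₂) (c * g₃)) := rfl

/-- twisted left translation of functions of 5 variable(s) -/
def ltr4 : (G → G → G → G → G → A) →ₗ[k] (G → G → G → G → G → A) where
  toFun f := fun g₀ g₁ g₂ g₃ g₄ => ρ c⁻¹ (f (c * g₀) (c * g₁) (c * g₂) (c * g₃) (c * g₄))
  map_add' f f' := by funext g₀ g₁ g₂ g₃ g₄; simp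
  map_smul' a f := by funext g₀ g₁ g₂ g₃ g₄; simp

@[simp] lemma ltr4_apply (f : G → G → G → G → G → A) (g₀ g₁ g₂ g₃ g₄ : G) :
    ltr4 ρ c f g₀ g₁ g₂ g₃ g₄ = ρ c⁻¹ (f (c * g₀) (c * g₁) (c * g₂) (c * g₃) (c * g₄)) := rfl

lemma d0_ltr0 (f : G → A) :
    d0 (k := k) (ltr0 ρ c f) = ltr1 ρ c (d0 (k := k) f) := by
  funext g₀ g₁; simp

lemma d1_ltr1 (f : G → G → A) :
    d1 (k := k) (ltr1 ρ c f) = ltr2 ρ c (d1 (k := k) f) := by
  funext g₀ g₁ g₂; simp

lemma d2_ltr2 (f : G → G → G → A) :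
    d2 (k := k) (ltr2 ρ c f) = ltr3 ρ c (d2 (k := k) f) := by
  funext g₀ g₁ g₂ g₃; simp

lemma d3_ltr3 (f : G → G → G → G → A) :
    d3 (k := k) (ltr3 ρ c f) = ltr4 ρ c (d3 (k := k) f) := by
  funext g₀ g₁ g₂ g₃ g₄; simp

end ltr

section ltrX

variable {L : LevelSystem G} {V V₁ V₂ : Subgroup G} {ρ : Representation k G A}

/-- on `V`-equivariant functions the translation by `c ∈ V` is the identity. -/
lemma ltr0_eq_self {c : G} (hc : c ∈ V) {f : G → A} (hf : Equivariant0 V ρ f) :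
    ltr0 ρ c f = f := by
  funext g₀
  rw [ltr0_apply, hf c hc, ← Module.End.mul_apply, ← map_mul, inv_mul_cancel, map_one,
    Module.End.one_apply]

lemma ltr0_mul (c c' : G) (f : G → A) :
    ltr0 ρ (c * c') f = ltr0 ρ c' (ltr0 ρ c f) := by
  funext g₀
  simp only [ltr0_apply, mul_inv_rev, map_mul, Module.End.mul_apply, mul_assoc]

lemma ltr0_mem {c : G} (hc : ∀ w ∈ V₂, c * w * c⁻¹ ∈ V₁) {f : G → A}
    (hf : f ∈ X0 L V₁ ρ) : ltr0 ρ c f ∈ X0 L V₂ ρ := by
  obtain ⟨he, U, hU, hs⟩ := hf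
  refine ⟨fun v hv g₀ => ?_, U, hU, fun g₀ u₀ h₀ => ?_⟩
  · have e : ∀ x : G, c * (v * x) = (c * v * c⁻¹) * (c * x) := fun x => by group
    simp only [ltr0_apply, e]
    rw [he _ (hc v hv), ← Module.End.mul_apply, ← Module.End.mul_apply, ← map_mul, ← map_mul]
    congr 2
    group
  · simp only [ltr0_apply, ← mul_assoc]
    rw [hs _ _ h₀]

/-- on `V`-equivariant functions the translation by `c ∈ V` is the identity. -/
lemma ltr1_eq_self {c : G} (hc : c ∈ V) {f : G → G → A} (hf : Equivariant1 V ρ f) :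
    ltr1 ρ c f = f := by
  funext g₀ g₁
  rw [ltr1_apply, hf c hc, ← Module.End.mul_apply, ← map_mul, inv_mul_cancel, map_one,
    Module.End.one_apply]

lemma ltr1_mul (c c' : G) (f : G → G → A) :
    ltr1 ρ (c * c') f = ltr1 ρ c' (ltr1 ρ c f) := by
  funext g₀ g₁
  simp only [ltr1_apply, mul_inv_rev, map_mul, Module.End.mul_apply, mul_assoc]

lemma ltr1_mem {c : G} (hc : ∀ w ∈ V₂, c * w * c⁻¹ ∈ V₁) {f : G → G → A}
    (hf : f ∈ X1 L V₁ ρ) : ltr1 ρ c f ∈ X1 L V₂ ρ := by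
  obtain ⟨he, U, hU, hs⟩ := hf
  refine ⟨fun v hv g₀ g₁ => ?_, U, hU, fun g₀ g₁ u₀ h₀ u₁ h₁ => ?_⟩
  · have e : ∀ x : G, c * (v * x) = (c * v * c⁻¹) * (c * x) := fun x => by group
    simp only [ltr1_apply, e]
    rw [he _ (hc v hv), ← Module.End.mul_apply, ← Module.End.mul_apply, ← map_mul, ← map_mul]
    congr 2
    group
  · simp only [ltr1_apply, ← mul_assoc]
    rw [hs _ _ _ h₀ _ h₁]

/-- on `V`-equivariant functions the translation by `c ∈ V` is the identity. -/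
lemma ltr2_eq_self {c : G} (hc : c ∈ V) {f : G → G → G → A} (hf : Equivariant2 V ρ f) :
    ltr2 ρ c f = f := by
  funext g₀ g₁ g₂
  rw [ltr2_apply, hf c hc, ← Module.End.mul_apply, ← map_mul, inv_mul_cancel, map_one,
    Module.End.one_apply]

lemma ltr2_mul (c c' : G) (f : G → G → G → A) :
    ltr2 ρ (c * c') f = ltr2 ρ c' (ltr2 ρ c f) := by
  funext g₀ g₁ g₂
  simp only [ltr2_apply, mul_inv_rev, map_mul, Module.End.mul_apply, mul_assoc]

lemma ltr2_mem {c : G} (hc : ∀ w ∈ V₂, c * w * c⁻¹ ∈ V₁) {f : G → G → G → A}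
    (hf : f ∈ X2 L V₁ ρ) : ltr2 ρ c f ∈ X2 L V₂ ρ := by
  obtain ⟨he, U, hU, hs⟩ := hf
  refine ⟨fun v hv g₀ g₁ g₂ => ?_, U, hU, fun g₀ g₁ g₂ u₀ h₀ u₁ h₁ u₂ h₂ => ?_⟩
  · have e : ∀ x : G, c * (v * x) = (c * v * c⁻¹) * (c * x) := fun x => by group
    simp only [ltr2_apply, e]
    rw [he _ (hc v hv), ← Module.End.mul_apply, ← Module.End.mul_apply, ← map_mul, ← map_mul]
    congr 2
    group
  · simp only [ltr2_apply, ← mul_assoc]
    rw [hs _ _ _ _ h₀ _ h₁ _ h₂]

/-- on `V`-equivariant functions the translation by `c ∈ V` is the identity. -/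
lemma ltr3_eq_self {c : G} (hc : c ∈ V) {f : G → G → G → G → A} (hf : Equivariant3 V ρ f) :
    ltr3 ρ c f = f := by
  funext g₀ g₁ g₂ g₃
  rw [ltr3_apply, hf c hc, ← Module.End.mul_apply, ← map_mul, inv_mul_cancel, map_one,
    Module.End.one_apply]

lemma ltr3_mul (c c' : G) (f : G → G → G → G → A) :
    ltr3 ρ (c * c') f = ltr3 ρ c' (ltr3 ρ c f) := by
  funext g₀ g₁ g₂ g₃
  simp only [ltr3_apply, mul_inv_rev, map_mul, Module.End.mul_apply, mul_assoc]

lemma ltr3_mem {c : G} (hc : ∀ w ∈ V₂, c * w * c⁻¹ ∈ V₁) {f : G → G → G → G → A}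
    (hf : f ∈ X3 L V₁ ρ) : ltr3 ρ c f ∈ X3 L V₂ ρ := by
  obtain ⟨he, U, hU, hs⟩ := hf
  refine ⟨fun v hv g₀ g₁ g₂ g₃ => ?_, U, hU, fun g₀ g₁ g₂ g₃ u₀ h₀ u₁ h₁ u₂ h₂ u₃ h₃ => ?_⟩
  · have e : ∀ x : G, c * (v * x) = (c * v * c⁻¹) * (c * x) := fun x => by group
    simp only [ltr3_apply, e]
    rw [he _ (hc v hv), ← Module.End.mul_apply, ← Module.End.mul_apply, ← map_mul, ← map_mul]
    congr 2
    group
  · simp only [ltr3_apply, ← mul_assoc]
    rw [hs _ _ _ _ _ h₀ _ h₁ _ h₂ _ h₃]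

/-- **Conjugation**: the chain map `X(V₁) → X(V₂)`, `f ↦ ρ c⁻¹ f (c ·)`, when `c V₂ c⁻¹ ≤ V₁`. -/
def ltrC (L : LevelSystem G) (ρ : Representation k G A) {c : G}
    (hc : ∀ w ∈ V₂, c * w * c⁻¹ ∈ V₁) : CMap L V₁ ρ L V₂ ρ where
  T0 := ltr0 ρ c
  T1 := ltr1 ρ c
  T2 := ltr2 ρ c
  T3 := ltr3 ρ c
  mem0 _ hf := ltr0_mem hc hf
  mem1 _ hf := ltr1_mem hc hf
  mem2 _ hf := ltr2_mem hc hf
  mem3 _ hf := ltr3_mem hc hf
  comm0 f _ := d0_ltr0 ρ c f
  comm1 f _ := d1_ltr1 ρ c f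
  comm2 f _ := d2_ltr2 ρ c f
  comm3 f hf := by
    rw [d3_ltr3, (mem_Z3.mp hf).2, LinearMap.map_zero]

end ltrX


/-! ### right transversals -/

/-- `c : ι → G` is a system of representatives of the right cosets `V' \ V`. -/
structure IsRTrans (V' V : Subgroup G) {ι : Type*} (c : ι → G) : Prop where
  le : V' ≤ V
  mem : ∀ i, c i ∈ V
  exists_unique : ∀ v ∈ V, ∃! i, v * (c i)⁻¹ ∈ V'

namespace IsRTrans

variable {V' V : Subgroup G} {ι : Type*} {c : ι → G}

/-- the index of the coset of `v`. -/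
noncomputable def idx (h : IsRTrans V' V c) (v : G) (hv : v ∈ V) : ι :=
  (h.exists_unique v hv).choose

lemma idx_spec (h : IsRTrans V' V c) (v : G) (hv : v ∈ V) : v * (c (h.idx v hv))⁻¹ ∈ V' :=
  (h.exists_unique v hv).choose_spec.1

lemma idx_unique (h : IsRTrans V' V c) (v : G) (hv : v ∈ V) (i : ι) (hi : v * (c i)⁻¹ ∈ V') :
    i = h.idx v hv :=
  (h.exists_unique v hv).choose_spec.2 i hi

lemma eq_of_mul_inv_mem (h : IsRTrans V' V c) {i j : ι} (hij : c i * (c j)⁻¹ ∈ V') : i = j := by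
  rw [h.idx_unique (c i) (h.mem i) j hij]
  exact h.idx_unique (c i) (h.mem i) i (by rw [mul_inv_cancel]; exact V'.one_mem)

/-- right multiplication by `v ∈ V` permutes the cosets. -/
noncomputable def perm [Finite ι] (h : IsRTrans V' V c) (v : G) (hv : v ∈ V) : ι ≃ ι :=
  Equiv.ofBijective (fun i => h.idx (c i * v) (V.mul_mem (h.mem i) hv)) <| by
    rw [← Finite.injective_iff_bijective]
    intro i j hij
    have h1 := h.idx_spec (c i * v) (V.mul_mem (h.mem i) hv)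
    have h2 := h.idx_spec (c j * v) (V.mul_mem (h.mem j) hv)
    simp only at hij
    rw [← hij] at h2
    apply h.eq_of_mul_inv_mem
    have := V'.mul_mem h1 (V'.inv_mem h2)
    convert this using 1
    group

lemma perm_spec [Finite ι] (h : IsRTrans V' V c) (v : G) (hv : v ∈ V) (i : ι) :
    c i * v * (c (h.perm v hv i))⁻¹ ∈ V' :=
  h.idx_spec (c i * v) (V.mul_mem (h.mem i) hv)

/-- comparison of two transversals. -/
noncomputable def compare {ι' : Type*} {c' : ι' → G} (h : IsRTrans V' V c)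
    (h' : IsRTrans V' V c') : ι ≃ ι' where
  toFun i := h'.idx (c i) (h.mem i)
  invFun j := h.idx (c' j) (h'.mem j)
  left_inv i := by
    symm
    apply h.idx_unique
    have := V'.inv_mem (h'.idx_spec (c i) (h.mem i))
    simpa using this
  right_inv j := by
    symm
    apply h'.idx_unique
    have := V'.inv_mem (h.idx_spec (c' j) (h'.mem j))
    simpa using this

lemma compare_spec {ι' : Type*} {c' : ι' → G} (h : IsRTrans V' V c) (h' : IsRTrans V' V c')
    (i : ι) : c i * (c' (h.compare h' i))⁻¹ ∈ V' :=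
  h'.idx_spec (c i) (h.mem i)

/-- product of transversals (transitivity). -/
lemma prod {V'' : Subgroup G} {ι' : Type*} {c' : ι' → G}
    (h' : IsRTrans V'' V' c') (h : IsRTrans V' V c) :
    IsRTrans V'' V (fun p : ι' × ι => c' p.1 * c p.2) where
  le := h'.le.trans h.le
  mem p := V.mul_mem (h.le (h'.mem p.1)) (h.mem p.2)
  exists_unique v hv := by
    set i := h.idx v hv with hi
    have h1 := h.idx_spec v hv
    set j := h'.idx _ h1 with hj
    have h2 := h'.idx_spec _ h1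
    refine ⟨(j, i), ?_, ?_⟩
    · show v * (c' j * c i)⁻¹ ∈ V''
      rw [mul_inv_rev, ← mul_assoc]
      exact h2
    · rintro ⟨j', i'⟩ hji
      have hji' : v * (c i')⁻¹ * (c' j')⁻¹ ∈ V'' := by
        have : v * (c' j' * c i')⁻¹ ∈ V'' := hji
        rwa [mul_inv_rev, ← mul_assoc] at this
      have h3 : v * (c i')⁻¹ ∈ V' := by
        have := V'.mul_mem (h'.le hji') (h'.mem j')
        simpa using this
      have hi' : i' = i := h.idx_unique v hv i' h3
      subst hi'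
      have hj' : j' = j := h'.idx_unique _ h1 j' hji'
      rw [hj']

end IsRTrans


/-! ### the two basic sum lemmas -/

namespace IsRTrans

variable {V' V : Subgroup G} {ι : Type*} [Fintype ι] {c : ι → G}

/-- equivariance of the coset sum. -/
lemma sum_mul (h : IsRTrans V' V c) (ρ : Representation k G A) (F : G → A)
    (hF : ∀ w ∈ V', ∀ x, F (w * x) = ρ w (F x)) (v : G) (hv : v ∈ V) :
    ∑ i, ρ (c i)⁻¹ (F (c i * v)) = ρ v (∑ i, ρ (c i)⁻¹ (F (c i))) := by
  rw [map_sum, ← Equiv.sum_comp (h.perm v hv) (fun i => ρ v (ρ (c i)⁻¹ (F (c i))))]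
  refine Finset.sum_congr rfl fun i _ => ?_
  have e : c i * v = (c i * v * (c (h.perm v hv i))⁻¹) * c (h.perm v hv i) := by group
  rw [e, hF _ (h.perm_spec v hv i), ← Module.End.mul_apply, ← Module.End.mul_apply,
    ← map_mul, ← map_mul]
  congr 2
  group

/-- independence of the transversal. -/
lemma sum_indep {ι' : Type*} [Fintype ι'] {c' : ι' → G} (h : IsRTrans V' V c)
    (h' : IsRTrans V' V c') (ρ : Representation k G A) (F : G → A)
    (hF : ∀ w ∈ V', ∀ x, F (w * x) = ρ w (F x)) :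
    ∑ i, ρ (c i)⁻¹ (F (c i)) = ∑ j, ρ (c' j)⁻¹ (F (c' j)) := by
  rw [← Equiv.sum_comp (h.compare h') (fun j => ρ (c' j)⁻¹ (F (c' j)))]
  refine Finset.sum_congr rfl fun i _ => ?_
  have e : c i = (c i * (c' (h.compare h' i))⁻¹) * c' (h.compare h' i) := by group
  conv_lhs => rw [e, hF _ (h.compare_spec h' i), ← Module.End.mul_apply, ← map_mul]
  congr 2
  group

end IsRTrans

/-! ### corestriction on functions -/

section cor

variable {ι : Type*} [Fintype ι] (ρ : Representation k G A) (c : ι → G)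

/-- the coset sum on functions of 1 variable(s) -/
def rcor0 : (G → A) →ₗ[k] (G → A) where
  toFun f := fun g₀ => ∑ i, ρ (c i)⁻¹ (f (c i * g₀))
  map_add' f f' := by funext g₀; simp [Finset.sum_add_distrib]
  map_smul' a f := by funext g₀; simp [Finset.smul_sum]

@[simp] lemma rcor0_apply (f : G → A) (g₀ : G) :
    rcor0 ρ c f g₀ = ∑ i, ρ (c i)⁻¹ (f (c i * g₀)) := rfl

lemma rcor0_eq_sum (f : G → A) : rcor0 ρ c f = ∑ i, ltr0 ρ (c i) f := by
  funext g₀
  simp only [rcor0_apply, Finset.sum_apply, ltr0_apply]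

/-- the coset sum on functions of 2 variable(s) -/
def rcor1 : (G → G → A) →ₗ[k] (G → G → A) where
  toFun f := fun g₀ g₁ => ∑ i, ρ (c i)⁻¹ (f (c i * g₀) (c i * g₁))
  map_add' f f' := by funext g₀ g₁; simp [Finset.sum_add_distrib]
  map_smul' a f := by funext g₀ g₁; simp [Finset.smul_sum]

@[simp] lemma rcor1_apply (f : G → G → A) (g₀ g₁ : G) :
    rcor1 ρ c f g₀ g₁ = ∑ i, ρ (c i)⁻¹ (f (c i * g₀) (c i * g₁)) := rfl

lemma rcor1_eq_sum (f : G → G → A) : rcor1 ρ c f = ∑ i, ltr1 ρ (c i) f := by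
  funext g₀ g₁
  simp only [rcor1_apply, Finset.sum_apply, ltr1_apply]

/-- the coset sum on functions of 3 variable(s) -/
def rcor2 : (G → G → G → A) →ₗ[k] (G → G → G → A) where
  toFun f := fun g₀ g₁ g₂ => ∑ i, ρ (c i)⁻¹ (f (c i * g₀) (c i * g₁) (c i * g₂))
  map_add' f f' := by funext g₀ g₁ g₂; simp [Finset.sum_add_distrib]
  map_smul' a f := by funext g₀ g₁ g₂; simp [Finset.smul_sum]

@[simp] lemma rcor2_apply (f : G → G → G → A) (g₀ g₁ g₂ : G) :
    rcor2 ρ c f g₀ g₁ g₂ = ∑ i, ρ (c i)⁻¹ (f (c i * g₀) (c i * g₁) (c i * g₂)) := rfl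

lemma rcor2_eq_sum (f : G → G → G → A) : rcor2 ρ c f = ∑ i, ltr2 ρ (c i) f := by
  funext g₀ g₁ g₂
  simp only [rcor2_apply, Finset.sum_apply, ltr2_apply]

/-- the coset sum on functions of 4 variable(s) -/
def rcor3 : (G → G → G → G → A) →ₗ[k] (G → G → G → G → A) where
  toFun f := fun g₀ g₁ g₂ g₃ => ∑ i, ρ (c i)⁻¹ (f (c i * g₀) (c i * g₁) (c i * g₂) (c i * g₃))
  map_add' f f' := by funext g₀ g₁ g₂ g₃; simp [Finset.sum_add_distrib]
  map_smul' a f := by funext g₀ g₁ g₂ g₃; simp [Finset.smul_sum]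

@[simp] lemma rcor3_apply (f : G → G → G → G → A) (g₀ g₁ g₂ g₃ : G) :
    rcor3 ρ c f g₀ g₁ g₂ g₃ = ∑ i, ρ (c i)⁻¹ (f (c i * g₀) (c i * g₁) (c i * g₂) (c i * g₃)) := rfl

lemma rcor3_eq_sum (f : G → G → G → G → A) : rcor3 ρ c f = ∑ i, ltr3 ρ (c i) f := by
  funext g₀ g₁ g₂ g₃
  simp only [rcor3_apply, Finset.sum_apply, ltr3_apply]

/-- the coset sum on functions of 5 variable(s) -/
def rcor4 : (G → G → G → G → G → A) →ₗ[k] (G → G → G → G → G → A) where
  toFun f := fun g₀ g₁ g₂ g₃ g₄ => ∑ i, ρ (c i)⁻¹ (f (c i * g₀) (c i * g₁) (c i * g₂) (c i * g₃) (c i * g₄))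
  map_add' f f' := by funext g₀ g₁ g₂ g₃ g₄; simp [Finset.sum_add_distrib]
  map_smul' a f := by funext g₀ g₁ g₂ g₃ g₄; simp [Finset.smul_sum]

@[simp] lemma rcor4_apply (f : G → G → G → G → G → A) (g₀ g₁ g₂ g₃ g₄ : G) :
    rcor4 ρ c f g₀ g₁ g₂ g₃ g₄ = ∑ i, ρ (c i)⁻¹ (f (c i * g₀) (c i * g₁) (c i * g₂) (c i * g₃) (c i * g₄)) := rfl

lemma rcor4_eq_sum (f : G → G → G → G → G → A) : rcor4 ρ c f = ∑ i, ltr4 ρ (c i) f := by
  funext g₀ g₁ g₂ g₃ g₄
  simp only [rcor4_apply, Finset.sum_apply, ltr4_apply]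

lemma d0_rcor0 (f : G → A) :
    d0 (k := k) (rcor0 ρ c f) = rcor1 ρ c (d0 (k := k) f) := by
  funext g₀ g₁
  simp [Finset.sum_add_distrib, Finset.sum_sub_distrib]

lemma d1_rcor1 (f : G → G → A) :
    d1 (k := k) (rcor1 ρ c f) = rcor2 ρ c (d1 (k := k) f) := by
  funext g₀ g₁ g₂
  simp [Finset.sum_add_distrib, Finset.sum_sub_distrib]

lemma d2_rcor2 (f : G → G → G → A) :
    d2 (k := k) (rcor2 ρ c f) = rcor3 ρ c (d2 (k := k) f) := by
  funext g₀ g₁ g₂ g₃
  simp [Finset.sum_add_distrib, Finset.sum_sub_distrib]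

lemma d3_rcor3 (f : G → G → G → G → A) :
    d3 (k := k) (rcor3 ρ c f) = rcor4 ρ c (d3 (k := k) f) := by
  funext g₀ g₁ g₂ g₃ g₄
  simp [Finset.sum_add_distrib, Finset.sum_sub_distrib]

end cor

section corX

variable {L : LevelSystem G} {V' V : Subgroup G} {ρ : Representation k G A}
  {ι : Type*} [Fintype ι] {c : ι → G}

lemma rcor0_mem (h : IsRTrans V' V c) {f : G → A} (hf : f ∈ X0 L V' ρ) :
    rcor0 ρ c f ∈ X0 L V ρ := by
  obtain ⟨he, U, hU, hs⟩ := hf
  refine ⟨fun v hv g₀ => ?_, U, hU, fun g₀ u₀ h₀ => ?_⟩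
  · have := h.sum_mul ρ (fun x => f (x * g₀))
      (fun w hw x => by simp only [mul_assoc]; exact he w hw _) v hv
    simpa only [rcor0_apply, mul_assoc] using this
  · simp only [rcor0_apply, ← mul_assoc]
    refine Finset.sum_congr rfl fun i _ => ?_
    rw [hs _ _ h₀]

/-- independence of the transversal -/
lemma rcor0_indep {ι' : Type*} [Fintype ι'] {c' : ι' → G} (h : IsRTrans V' V c)
    (h' : IsRTrans V' V c') {f : G → A} (hf : Equivariant0 V' ρ f) :
    rcor0 ρ c f = rcor0 ρ c' f := by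
  funext g₀
  exact h.sum_indep h' ρ (fun x => f (x * g₀))
    (fun w hw x => by simp only [mul_assoc]; exact hf w hw _)

/-- `cores ∘ res = index` on cochains -/
lemma rcor0_of_equivariant (h : IsRTrans V' V c) {f : G → A} (hf : Equivariant0 V ρ f) :
    rcor0 ρ c f = Fintype.card ι • f := by
  rw [rcor0_eq_sum, Finset.sum_congr rfl fun i _ => ltr0_eq_self (h.mem i) hf]
  simp

lemma rcor1_mem (h : IsRTrans V' V c) {f : G → G → A} (hf : f ∈ X1 L V' ρ) :
    rcor1 ρ c f ∈ X1 L V ρ := by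
  obtain ⟨he, U, hU, hs⟩ := hf
  refine ⟨fun v hv g₀ g₁ => ?_, U, hU, fun g₀ g₁ u₀ h₀ u₁ h₁ => ?_⟩
  · have := h.sum_mul ρ (fun x => f (x * g₀) (x * g₁))
      (fun w hw x => by simp only [mul_assoc]; exact he w hw _ _) v hv
    simpa only [rcor1_apply, mul_assoc] using this
  · simp only [rcor1_apply, ← mul_assoc]
    refine Finset.sum_congr rfl fun i _ => ?_
    rw [hs _ _ _ h₀ _ h₁]

/-- independence of the transversal -/
lemma rcor1_indep {ι' : Type*} [Fintype ι'] {c' : ι' → G} (h : IsRTrans V' V c)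
    (h' : IsRTrans V' V c') {f : G → G → A} (hf : Equivariant1 V' ρ f) :
    rcor1 ρ c f = rcor1 ρ c' f := by
  funext g₀ g₁
  exact h.sum_indep h' ρ (fun x => f (x * g₀) (x * g₁))
    (fun w hw x => by simp only [mul_assoc]; exact hf w hw _ _)

/-- `cores ∘ res = index` on cochains -/
lemma rcor1_of_equivariant (h : IsRTrans V' V c) {f : G → G → A} (hf : Equivariant1 V ρ f) :
    rcor1 ρ c f = Fintype.card ι • f := by
  rw [rcor1_eq_sum, Finset.sum_congr rfl fun i _ => ltr1_eq_self (h.mem i) hf]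
  simp

lemma rcor2_mem (h : IsRTrans V' V c) {f : G → G → G → A} (hf : f ∈ X2 L V' ρ) :
    rcor2 ρ c f ∈ X2 L V ρ := by
  obtain ⟨he, U, hU, hs⟩ := hf
  refine ⟨fun v hv g₀ g₁ g₂ => ?_, U, hU, fun g₀ g₁ g₂ u₀ h₀ u₁ h₁ u₂ h₂ => ?_⟩
  · have := h.sum_mul ρ (fun x => f (x * g₀) (x * g₁) (x * g₂))
      (fun w hw x => by simp only [mul_assoc]; exact he w hw _ _ _) v hv
    simpa only [rcor2_apply, mul_assoc] using this
  · simp only [rcor2_apply, ← mul_assoc]
    refine Finset.sum_congr rfl fun i _ => ?_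
    rw [hs _ _ _ _ h₀ _ h₁ _ h₂]

/-- independence of the transversal -/
lemma rcor2_indep {ι' : Type*} [Fintype ι'] {c' : ι' → G} (h : IsRTrans V' V c)
    (h' : IsRTrans V' V c') {f : G → G → G → A} (hf : Equivariant2 V' ρ f) :
    rcor2 ρ c f = rcor2 ρ c' f := by
  funext g₀ g₁ g₂
  exact h.sum_indep h' ρ (fun x => f (x * g₀) (x * g₁) (x * g₂))
    (fun w hw x => by simp only [mul_assoc]; exact hf w hw _ _ _)

/-- `cores ∘ res = index` on cochains -/
lemma rcor2_of_equivariant (h : IsRTrans V' V c) {f : G → G → G → A} (hf : Equivariant2 V ρ f) :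
    rcor2 ρ c f = Fintype.card ι • f := by
  rw [rcor2_eq_sum, Finset.sum_congr rfl fun i _ => ltr2_eq_self (h.mem i) hf]
  simp

lemma rcor3_mem (h : IsRTrans V' V c) {f : G → G → G → G → A} (hf : f ∈ X3 L V' ρ) :
    rcor3 ρ c f ∈ X3 L V ρ := by
  obtain ⟨he, U, hU, hs⟩ := hf
  refine ⟨fun v hv g₀ g₁ g₂ g₃ => ?_, U, hU, fun g₀ g₁ g₂ g₃ u₀ h₀ u₁ h₁ u₂ h₂ u₃ h₃ => ?_⟩
  · have := h.sum_mul ρ (fun x => f (x * g₀) (x * g₁) (x * g₂) (x * g₃))
      (fun w hw x => by simp only [mul_assoc]; exact he w hw _ _ _ _) v hv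
    simpa only [rcor3_apply, mul_assoc] using this
  · simp only [rcor3_apply, ← mul_assoc]
    refine Finset.sum_congr rfl fun i _ => ?_
    rw [hs _ _ _ _ _ h₀ _ h₁ _ h₂ _ h₃]

/-- independence of the transversal -/
lemma rcor3_indep {ι' : Type*} [Fintype ι'] {c' : ι' → G} (h : IsRTrans V' V c)
    (h' : IsRTrans V' V c') {f : G → G → G → G → A} (hf : Equivariant3 V' ρ f) :
    rcor3 ρ c f = rcor3 ρ c' f := by
  funext g₀ g₁ g₂ g₃
  exact h.sum_indep h' ρ (fun x => f (x * g₀) (x * g₁) (x * g₂) (x * g₃))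
    (fun w hw x => by simp only [mul_assoc]; exact hf w hw _ _ _ _)

/-- `cores ∘ res = index` on cochains -/
lemma rcor3_of_equivariant (h : IsRTrans V' V c) {f : G → G → G → G → A} (hf : Equivariant3 V ρ f) :
    rcor3 ρ c f = Fintype.card ι • f := by
  rw [rcor3_eq_sum, Finset.sum_congr rfl fun i _ => ltr3_eq_self (h.mem i) hf]
  simp

/-- **Corestriction** from `V'` to `V` with respect to the transversal `c`. -/
def rcorC (L : LevelSystem G) (ρ : Representation k G A) (h : IsRTrans V' V c) :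
    CMap L V' ρ L V ρ where
  T0 := rcor0 ρ c
  T1 := rcor1 ρ c
  T2 := rcor2 ρ c
  T3 := rcor3 ρ c
  mem0 _ hf := rcor0_mem h hf
  mem1 _ hf := rcor1_mem h hf
  mem2 _ hf := rcor2_mem h hf
  mem3 _ hf := rcor3_mem h hf
  comm0 f _ := d0_rcor0 ρ c f
  comm1 f _ := d1_rcor1 ρ c f
  comm2 f _ := d2_rcor2 ρ c f
  comm3 f hf := by
    rw [d3_rcor3, (mem_Z3.mp hf).2, LinearMap.map_zero]

end corX


/-! ### cardinality and existence of transversals -/

namespace IsRTrans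

variable {V' V : Subgroup G} {ι : Type*} {c : ι → G}

/-- the bijection `ι ≃ V ⧸ V'`, `i ↦ (c i)⁻¹ V'`. -/
noncomputable def equivQuot (h : IsRTrans V' V c) : ι ≃ V ⧸ V'.subgroupOf V :=
  Equiv.ofBijective (fun i => (QuotientGroup.mk ((⟨c i, h.mem i⟩ : V)⁻¹) : V ⧸ V'.subgroupOf V)) <| by
    constructor
    · intro i j hij
      have h1 := QuotientGroup.eq.mp hij
      rw [Subgroup.mem_subgroupOf] at h1
      apply h.eq_of_mul_inv_mem
      simpa using h1
    · intro q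
      obtain ⟨v, rfl⟩ := QuotientGroup.mk_surjective q
      obtain ⟨i, hi, -⟩ := h.exists_unique (v⁻¹ : V) (V.inv_mem v.2)
      refine ⟨i, ?_⟩
      symm
      apply QuotientGroup.eq.mpr
      rw [Subgroup.mem_subgroupOf]
      simpa using hi

lemma natCard_eq (h : IsRTrans V' V c) : Nat.card ι = V'.relIndex V := by
  rw [Nat.card_congr h.equivQuot]
  rfl

lemma card_eq [Fintype ι] (h : IsRTrans V' V c) : Fintype.card ι = V'.relIndex V := by
  rw [← Nat.card_eq_fintype_card, h.natCard_eq]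

lemma relIndex_ne_zero [Finite ι] (h : IsRTrans V' V c) : V'.relIndex V ≠ 0 := by
  rw [← h.natCard_eq]
  have : Nonempty ι := ⟨h.idx 1 V.one_mem⟩
  exact Nat.card_pos.ne'

/-- reindexing. -/
lemma comp_equiv {ι' : Type*} (h : IsRTrans V' V c) (e : ι' ≃ ι) : IsRTrans V' V (c ∘ e) where
  le := h.le
  mem i := h.mem (e i)
  exists_unique v hv := by
    obtain ⟨i, hi, hu⟩ := h.exists_unique v hv
    refine ⟨e.symm i, by simpa using hi, fun j hj => ?_⟩
    rw [← hu (e j) hj, Equiv.symm_apply_apply]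

end IsRTrans

/-- the transversal given by (inverses of) `Quotient.out`. -/
lemma isRTrans_out {V' V : Subgroup G} (hle : V' ≤ V) :
    IsRTrans V' V (fun q : V ⧸ V'.subgroupOf V => ((Quotient.out q : V) : G)⁻¹) where
  le := hle
  mem q := V.inv_mem (Quotient.out q).2
  exists_unique v hv := by
    refine ⟨(QuotientGroup.mk ((⟨v, hv⟩ : V)⁻¹) : V ⧸ V'.subgroupOf V), ?_, ?_⟩
    · obtain ⟨w, hw⟩ := QuotientGroup.mk_out_eq_mul (V'.subgroupOf V) (⟨v, hv⟩ : V)⁻¹
      have hw' : ((Quotient.out (QuotientGroup.mk ((⟨v, hv⟩ : V)⁻¹) : V ⧸ V'.subgroupOf V) : V) : G)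
          = v⁻¹ * ((w : V) : G) := by
        have := congrArg (Subtype.val) hw
        simpa using this
      simp only [inv_inv]
      rw [hw', mul_inv_cancel_left]
      exact Subgroup.mem_subgroupOf.mp w.2
    · intro q hq
      simp only [inv_inv] at hq
      rw [← QuotientGroup.out_eq' q]
      symm
      apply QuotientGroup.eq.mpr
      rw [Subgroup.mem_subgroupOf]
      simpa using hq

/-- existence of a transversal indexed by `Fin n`. -/
theorem exists_isRTrans {V' V : Subgroup G} (hle : V' ≤ V) (hfin : V'.relIndex V ≠ 0) :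
    ∃ c : Fin (V'.relIndex V) → G, IsRTrans V' V c := by
  have hfi : (V'.subgroupOf V).FiniteIndex := ⟨hfin⟩
  have : Finite (V ⧸ V'.subgroupOf V) := inferInstance
  have hc : Nat.card (V ⧸ V'.subgroupOf V) = V'.relIndex V := rfl
  exact ⟨_, (isRTrans_out hle).comp_equiv ((Finite.equivFinOfCardEq hc).symm)⟩

/-- a chosen transversal. -/
noncomputable def chosenRTrans {V' V : Subgroup G} (hle : V' ≤ V) (hfin : V'.relIndex V ≠ 0) :
    Fin (V'.relIndex V) → G := (exists_isRTrans hle hfin).choose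

lemma isRTrans_chosenRTrans {V' V : Subgroup G} (hle : V' ≤ V) (hfin : V'.relIndex V ≠ 0) :
    IsRTrans V' V (chosenRTrans hle hfin) := (exists_isRTrans hle hfin).choose_spec


/-! ### statements on cohomology -/

section coh

variable {L : LevelSystem G} {V'' V' V : Subgroup G} {ρ : Representation k G A}
  {σ : Representation k G A'}
  {ι : Type*} [Fintype ι] {c : ι → G} {ι' : Type*} [Fintype ι'] {c' : ι' → G}

theorem rcorC_H0_indep (h : IsRTrans V' V c) (h' : IsRTrans V' V c') :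
    (rcorC L ρ h).H0 = (rcorC L ρ h').H0 :=
  CMap.H0_eq fun _ hz => rcor0_indep h h' hz.1.1


theorem rcorC_H1_indep (h : IsRTrans V' V c) (h' : IsRTrans V' V c') :
    (rcorC L ρ h).H1 = (rcorC L ρ h').H1 :=
  CMap.H1_congr fun _ hz => rcor1_indep h h' hz.1.1


theorem rcorC_H2_indep (h : IsRTrans V' V c) (h' : IsRTrans V' V c') :
    (rcorC L ρ h).H2 = (rcorC L ρ h').H2 :=
  CMap.H2_congr fun _ hz => rcor2_indep h h' hz.1.1


theorem rcorC_H3_indep (h : IsRTrans V' V c) (h' : IsRTrans V' V c') :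
    (rcorC L ρ h).H3 = (rcorC L ρ h').H3 :=
  CMap.H3_congr fun _ hz => rcor3_indep h h' hz.1.1


end coh


/-! ### `cores ∘ res = index` -/

section coresres

variable {L : LevelSystem G} {V' V : Subgroup G} {ρ : Representation k G A}
  {ι : Type*} [Fintype ι] {c : ι → G}

theorem rcorC_resC_H0 (h : IsRTrans V' V c) (x : H0 L V ρ) :
    (rcorC L ρ h).H0 ((resC L ρ h.le).H0 x) = V'.relIndex V • x := by
  rw [← h.card_eq]
  exact Subtype.ext (rcor0_of_equivariant h x.2.1.1)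

theorem rcorC_resC_H1 (h : IsRTrans V' V c) (x : H1 L V ρ) :
    (rcorC L ρ h).H1 ((resC L ρ h.le).H1 x) = V'.relIndex V • x := by
  obtain ⟨z, rfl⟩ := H1.mk_surjective L V ρ x
  rw [← h.card_eq, CMap.H1_mk, CMap.H1_mk, ← map_nsmul]
  exact congrArg _ (Subtype.ext (rcor1_of_equivariant h z.2.1.1))

theorem rcorC_resC_H2 (h : IsRTrans V' V c) (x : H2 L V ρ) :
    (rcorC L ρ h).H2 ((resC L ρ h.le).H2 x) = V'.relIndex V • x := by
  obtain ⟨z, rfl⟩ := H2.mk_surjective L V ρ x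
  rw [← h.card_eq, CMap.H2_mk, CMap.H2_mk, ← map_nsmul]
  exact congrArg _ (Subtype.ext (rcor2_of_equivariant h z.2.1.1))

theorem rcorC_resC_H3 (h : IsRTrans V' V c) (x : H3 L V ρ) :
    (rcorC L ρ h).H3 ((resC L ρ h.le).H3 x) = V'.relIndex V • x := by
  obtain ⟨z, rfl⟩ := H3.mk_surjective L V ρ x
  rw [← h.card_eq, CMap.H3_mk, CMap.H3_mk, ← map_nsmul]
  exact congrArg _ (Subtype.ext (rcor3_of_equivariant h z.2.1.1))

end coresres

/-! ### transitivity -/

section trans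

variable {L : LevelSystem G} {V'' V' V : Subgroup G} {ρ : Representation k G A}
  {ι : Type*} [Fintype ι] {c : ι → G} {ι' : Type*} [Fintype ι'] {c' : ι' → G}

lemma rcor0_prod (ρ : Representation k G A) (c : ι → G) (c' : ι' → G) (f : G → A) :
    rcor0 ρ (fun p : ι' × ι => c' p.1 * c p.2) f = rcor0 ρ c (rcor0 ρ c' f) := by
  funext g₀
  simp only [rcor0_apply, map_sum, Fintype.sum_prod_type, mul_inv_rev, map_mul,
    Module.End.mul_apply, mul_assoc]
  exact Finset.sum_comm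

lemma rcor1_prod (ρ : Representation k G A) (c : ι → G) (c' : ι' → G) (f : G → G → A) :
    rcor1 ρ (fun p : ι' × ι => c' p.1 * c p.2) f = rcor1 ρ c (rcor1 ρ c' f) := by
  funext g₀ g₁
  simp only [rcor1_apply, map_sum, Fintype.sum_prod_type, mul_inv_rev, map_mul,
    Module.End.mul_apply, mul_assoc]
  exact Finset.sum_comm

lemma rcor2_prod (ρ : Representation k G A) (c : ι → G) (c' : ι' → G) (f : G → G → G → A) :
    rcor2 ρ (fun p : ι' × ι => c' p.1 * c p.2) f = rcor2 ρ c (rcor2 ρ c' f) := by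
  funext g₀ g₁ g₂
  simp only [rcor2_apply, map_sum, Fintype.sum_prod_type, mul_inv_rev, map_mul,
    Module.End.mul_apply, mul_assoc]
  exact Finset.sum_comm

lemma rcor3_prod (ρ : Representation k G A) (c : ι → G) (c' : ι' → G) (f : G → G → G → G → A) :
    rcor3 ρ (fun p : ι' × ι => c' p.1 * c p.2) f = rcor3 ρ c (rcor3 ρ c' f) := by
  funext g₀ g₁ g₂ g₃
  simp only [rcor3_apply, map_sum, Fintype.sum_prod_type, mul_inv_rev, map_mul,
    Module.End.mul_apply, mul_assoc]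
  exact Finset.sum_comm

theorem rcorC_prod_H0 (h' : IsRTrans V'' V' c') (h : IsRTrans V' V c) :
    (rcorC L ρ (h'.prod h)).H0 = (rcorC L ρ h).H0.comp (rcorC L ρ h').H0 := by
  rw [← CMap.H0_comp]
  exact CMap.H0_eq fun z _ => rcor0_prod ρ c c' z

theorem rcorC_prod_H1 (h' : IsRTrans V'' V' c') (h : IsRTrans V' V c) :
    (rcorC L ρ (h'.prod h)).H1 = (rcorC L ρ h).H1.comp (rcorC L ρ h').H1 := by
  rw [← CMap.H1_comp]
  exact CMap.H1_congr fun z _ => rcor1_prod ρ c c' z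

theorem rcorC_prod_H2 (h' : IsRTrans V'' V' c') (h : IsRTrans V' V c) :
    (rcorC L ρ (h'.prod h)).H2 = (rcorC L ρ h).H2.comp (rcorC L ρ h').H2 := by
  rw [← CMap.H2_comp]
  exact CMap.H2_congr fun z _ => rcor2_prod ρ c c' z

theorem rcorC_prod_H3 (h' : IsRTrans V'' V' c') (h : IsRTrans V' V c) :
    (rcorC L ρ (h'.prod h)).H3 = (rcorC L ρ h).H3.comp (rcorC L ρ h').H3 := by
  rw [← CMap.H3_comp]
  exact CMap.H3_congr fun z _ => rcor3_prod ρ c c' z

end trans

/-! ### compatibility with coefficient maps -/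

section coeff

variable {L : LevelSystem G} {V' V : Subgroup G} {ρ : Representation k G A}
  {σ : Representation k G A'} {ι : Type*} [Fintype ι] {c : ι → G} {φ : A →ₗ[k] A'}

lemma pp0_rcor0 (hφ : ∀ i a, φ (ρ (c i)⁻¹ a) = σ (c i)⁻¹ (φ a)) (f : G → A) :
    pp0 (MonoidHom.id G) φ (rcor0 ρ c f) = rcor0 σ c (pp0 (MonoidHom.id G) φ f) := by
  funext g₀
  simp only [pp0_apply, rcor0_apply, map_sum, hφ, MonoidHom.id_apply]

lemma pp1_rcor1 (hφ : ∀ i a, φ (ρ (c i)⁻¹ a) = σ (c i)⁻¹ (φ a)) (f : G → G → A) :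
    pp1 (MonoidHom.id G) φ (rcor1 ρ c f) = rcor1 σ c (pp1 (MonoidHom.id G) φ f) := by
  funext g₀ g₁
  simp only [pp1_apply, rcor1_apply, map_sum, hφ, MonoidHom.id_apply]

lemma pp2_rcor2 (hφ : ∀ i a, φ (ρ (c i)⁻¹ a) = σ (c i)⁻¹ (φ a)) (f : G → G → G → A) :
    pp2 (MonoidHom.id G) φ (rcor2 ρ c f) = rcor2 σ c (pp2 (MonoidHom.id G) φ f) := by
  funext g₀ g₁ g₂
  simp only [pp2_apply, rcor2_apply, map_sum, hφ, MonoidHom.id_apply]

lemma pp3_rcor3 (hφ : ∀ i a, φ (ρ (c i)⁻¹ a) = σ (c i)⁻¹ (φ a)) (f : G → G → G → G → A) :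
    pp3 (MonoidHom.id G) φ (rcor3 ρ c f) = rcor3 σ c (pp3 (MonoidHom.id G) φ f) := by
  funext g₀ g₁ g₂ g₃
  simp only [pp3_apply, rcor3_apply, map_sum, hφ, MonoidHom.id_apply]

theorem mapC_rcorC_H0 (h : IsRTrans V' V c) (hφ : ∀ v ∈ V, ∀ a, φ (ρ v a) = σ v (φ a)) :
    (mapC L V hφ).H0.comp (rcorC L ρ h).H0
      = (rcorC L σ h).H0.comp (mapC L V' (fun v hv => hφ v (h.le hv))).H0 := by
  rw [← CMap.H0_comp, ← CMap.H0_comp]
  exact CMap.H0_eq fun z _ => pp0_rcor0 (fun i a => hφ _ (V.inv_mem (h.mem i)) a) z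

theorem mapC_rcorC_H1 (h : IsRTrans V' V c) (hφ : ∀ v ∈ V, ∀ a, φ (ρ v a) = σ v (φ a)) :
    (mapC L V hφ).H1.comp (rcorC L ρ h).H1
      = (rcorC L σ h).H1.comp (mapC L V' (fun v hv => hφ v (h.le hv))).H1 := by
  rw [← CMap.H1_comp, ← CMap.H1_comp]
  exact CMap.H1_congr fun z _ => pp1_rcor1 (fun i a => hφ _ (V.inv_mem (h.mem i)) a) z

theorem mapC_rcorC_H2 (h : IsRTrans V' V c) (hφ : ∀ v ∈ V, ∀ a, φ (ρ v a) = σ v (φ a)) :
    (mapC L V hφ).H2.comp (rcorC L ρ h).H2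
      = (rcorC L σ h).H2.comp (mapC L V' (fun v hv => hφ v (h.le hv))).H2 := by
  rw [← CMap.H2_comp, ← CMap.H2_comp]
  exact CMap.H2_congr fun z _ => pp2_rcor2 (fun i a => hφ _ (V.inv_mem (h.mem i)) a) z

theorem mapC_rcorC_H3 (h : IsRTrans V' V c) (hφ : ∀ v ∈ V, ∀ a, φ (ρ v a) = σ v (φ a)) :
    (mapC L V hφ).H3.comp (rcorC L ρ h).H3
      = (rcorC L σ h).H3.comp (mapC L V' (fun v hv => hφ v (h.le hv))).H3 := by
  rw [← CMap.H3_comp, ← CMap.H3_comp]
  exact CMap.H3_congr fun z _ => pp3_rcor3 (fun i a => hφ _ (V.inv_mem (h.mem i)) a) z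

end coeff


/-! ### Mackey decomposition (double coset formula) -/

/-- `x⁻¹ V' x`. -/
def rconjSub (V' : Subgroup G) (x : G) : Subgroup G := V'.comap (MulAut.conj x).toMonoidHom

lemma mem_rconjSub {V' : Subgroup G} {x w : G} : w ∈ rconjSub V' x ↔ x * w * x⁻¹ ∈ V' := Iff.rfl

/-- a family lying in the same cosets as a transversal is a transversal. -/
lemma IsRTrans.of_same_coset {V' V : Subgroup G} {ι : Type*} {c e : ι → G} (h : IsRTrans V' V c)
    (he : ∀ i, e i * (c i)⁻¹ ∈ V') : IsRTrans V' V e where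
  le := h.le
  mem i := by
    have := V.mul_mem (h.le (he i)) (h.mem i)
    simpa using this
  exists_unique v hv := by
    obtain ⟨i, hi, hu⟩ := h.exists_unique v hv
    refine ⟨i, ?_, fun j hj => hu j ?_⟩
    · have := V'.mul_mem hi (V'.inv_mem (he i))
      convert this using 1
      group
    · have := V'.mul_mem hj (he j)
      convert this using 1
      group

/-- **Mackey decomposition** of `V' \ V` under the right action of `D ≤ V`. -/
theorem exists_rmackey {V' V D : Subgroup G} (hle : V' ≤ V) (hfin : V'.relIndex V ≠ 0)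
    (hD : D ≤ V) :
    ∃ (α : Type) (_ : Fintype α) (β : α → Type) (_ : ∀ a, Fintype (β a)) (x : α → G)
      (d : ∀ a, β a → G), (∀ a, x a ∈ V) ∧
      (∀ a, IsRTrans (D ⊓ rconjSub V' (x a)) D (d a)) ∧
      IsRTrans V' V (fun p : Σ a, β a => x p.1 * d p.1 p.2) := by
  classical
  obtain ⟨c, h⟩ := exists_isRTrans hle hfin
  let s : Setoid (Fin (V'.relIndex V)) :=
    { r := fun i j => ∃ δ ∈ D, c i * δ * (c j)⁻¹ ∈ V'
      iseqv :=
        { refl := fun i => ⟨1, D.one_mem, by simp [V'.one_mem]⟩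
          symm := by
            rintro i j ⟨δ, hδ, hij⟩
            refine ⟨δ⁻¹, D.inv_mem hδ, ?_⟩
            have := V'.inv_mem hij
            convert this using 1
            group
          trans := by
            rintro i j l ⟨δ, hδ, hij⟩ ⟨δ', hδ', hjl⟩
            refine ⟨δ * δ', D.mul_mem hδ hδ', ?_⟩
            have := V'.mul_mem hij hjl
            convert this using 1
            group } }
  let mk : Fin (V'.relIndex V) → Quotient s := Quotient.mk s
  let x : Quotient s → G := fun a => c (Quotient.out a)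
  have hr : ∀ j, ∃ δ ∈ D, x (mk j) * δ * (c j)⁻¹ ∈ V' := fun j =>
    Quotient.exact (Quotient.out_eq (mk j))
  choose dd hddD hdd using hr
  have hxV : ∀ a, x a ∈ V := fun a => h.mem _
  refine ⟨Quotient s, inferInstance, fun a => {j // mk j = a}, fun a => inferInstance, x,
    fun a j => dd j.1, hxV, fun a => ?_, ?_⟩
  · refine ⟨inf_le_left, fun j => hddD j.1, fun δ hδ => ?_⟩
    have hv : x a * δ ∈ V := V.mul_mem (hxV a) (hD hδ)
    have h1 := h.idx_spec _ hv
    set j := h.idx _ hv with hj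
    have hja : mk j = a := by
      rw [← Quotient.out_eq a]
      exact (Quotient.sound (s := s) ⟨δ, hδ, h1⟩).symm
    refine ⟨⟨j, hja⟩, ⟨D.mul_mem hδ (D.inv_mem (hddD j)), ?_⟩, ?_⟩
    · show x a * (δ * (dd j)⁻¹) * (x a)⁻¹ ∈ V'
      have h2 := hdd j
      rw [hja] at h2
      have := V'.mul_mem h1 (V'.inv_mem h2)
      convert this using 1
      group
    · rintro ⟨j', hj'⟩ ⟨-, h3⟩
      replace h3 : x a * (δ * (dd j')⁻¹) * (x a)⁻¹ ∈ V' := h3
      have h2 := hdd j'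
      rw [hj'] at h2
      apply Subtype.ext
      apply h.idx_unique _ hv
      have := V'.mul_mem h3 h2
      convert this using 1
      group
  · have h1 : IsRTrans V' V (fun j => x (mk j) * dd j) := h.of_same_coset hdd
    have h2 := h1.comp_equiv (Equiv.sigmaFiberEquiv mk)
    convert h2 using 1
    funext p
    obtain ⟨a, j, rfl⟩ := p
    rfl

section mackey

variable {α : Type*} [Fintype α] {β : α → Type*} [∀ a, Fintype (β a)]

lemma rcor0_sigma (ρ : Representation k G A) (x : α → G) (d : ∀ a, β a → G) (f : G → A) :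
    rcor0 ρ (fun p : Σ a, β a => x p.1 * d p.1 p.2) f
      = ∑ a, rcor0 ρ (d a) (ltr0 ρ (x a) f) := by
  funext g₀
  simp only [rcor0_apply, Finset.sum_apply, ltr0_apply, Fintype.sum_sigma, mul_inv_rev, map_mul,
    Module.End.mul_apply, mul_assoc]

lemma rcor1_sigma (ρ : Representation k G A) (x : α → G) (d : ∀ a, β a → G) (f : G → G → A) :
    rcor1 ρ (fun p : Σ a, β a => x p.1 * d p.1 p.2) f
      = ∑ a, rcor1 ρ (d a) (ltr1 ρ (x a) f) := by
  funext g₀ g₁
  simp only [rcor1_apply, Finset.sum_apply, ltr1_apply, Fintype.sum_sigma, mul_inv_rev, map_mul,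
    Module.End.mul_apply, mul_assoc]

lemma rcor2_sigma (ρ : Representation k G A) (x : α → G) (d : ∀ a, β a → G) (f : G → G → G → A) :
    rcor2 ρ (fun p : Σ a, β a => x p.1 * d p.1 p.2) f
      = ∑ a, rcor2 ρ (d a) (ltr2 ρ (x a) f) := by
  funext g₀ g₁ g₂
  simp only [rcor2_apply, Finset.sum_apply, ltr2_apply, Fintype.sum_sigma, mul_inv_rev, map_mul,
    Module.End.mul_apply, mul_assoc]

lemma rcor3_sigma (ρ : Representation k G A) (x : α → G) (d : ∀ a, β a → G) (f : G → G → G → G → A) :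
    rcor3 ρ (fun p : Σ a, β a => x p.1 * d p.1 p.2) f
      = ∑ a, rcor3 ρ (d a) (ltr3 ρ (x a) f) := by
  funext g₀ g₁ g₂ g₃
  simp only [rcor3_apply, Finset.sum_apply, ltr3_apply, Fintype.sum_sigma, mul_inv_rev, map_mul,
    Module.End.mul_apply, mul_assoc]

variable {L : LevelSystem G} {V' V D : Subgroup G} {ρ : Representation k G A}
  {x : α → G} {d : ∀ a, β a → G}

/-- conjugation followed by restriction: `X(V') → X(D ⊓ x⁻¹ V' x)`. -/
abbrev rconjResC (L : LevelSystem G) (ρ : Representation k G A) (V' D : Subgroup G) (x : G) :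
    CMap L V' ρ L (D ⊓ rconjSub V' x) ρ :=
  ltrC L ρ (c := x) (fun _ hw => mem_rconjSub.mp hw.2)

theorem resC_rcorC_H0 (hD : D ≤ V) (htd : ∀ a, IsRTrans (D ⊓ rconjSub V' (x a)) D (d a))
    (ht : IsRTrans V' V (fun p : Σ a, β a => x p.1 * d p.1 p.2)) (z : H0 L V' ρ) :
    (resC L ρ hD).H0 ((rcorC L ρ ht).H0 z)
      = ∑ a, (rcorC L ρ (htd a)).H0 ((rconjResC L ρ V' D (x a)).H0 z) := by
  apply Subtype.ext
  rw [AddSubmonoidClass.coe_finsetSum]
  exact rcor0_sigma ρ x d z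

theorem resC_rcorC_H1 (hD : D ≤ V) (htd : ∀ a, IsRTrans (D ⊓ rconjSub V' (x a)) D (d a))
    (ht : IsRTrans V' V (fun p : Σ a, β a => x p.1 * d p.1 p.2)) (z : H1 L V' ρ) :
    (resC L ρ hD).H1 ((rcorC L ρ ht).H1 z)
      = ∑ a, (rcorC L ρ (htd a)).H1 ((rconjResC L ρ V' D (x a)).H1 z) := by
  obtain ⟨z, rfl⟩ := H1.mk_surjective L V' ρ z
  simp only [CMap.H1_mk]
  rw [← map_sum]
  congr 1
  apply Subtype.ext
  rw [AddSubmonoidClass.coe_finsetSum]
  exact rcor1_sigma ρ x d z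

theorem resC_rcorC_H2 (hD : D ≤ V) (htd : ∀ a, IsRTrans (D ⊓ rconjSub V' (x a)) D (d a))
    (ht : IsRTrans V' V (fun p : Σ a, β a => x p.1 * d p.1 p.2)) (z : H2 L V' ρ) :
    (resC L ρ hD).H2 ((rcorC L ρ ht).H2 z)
      = ∑ a, (rcorC L ρ (htd a)).H2 ((rconjResC L ρ V' D (x a)).H2 z) := by
  obtain ⟨z, rfl⟩ := H2.mk_surjective L V' ρ z
  simp only [CMap.H2_mk]
  rw [← map_sum]
  congr 1
  apply Subtype.ext
  rw [AddSubmonoidClass.coe_finsetSum]
  exact rcor2_sigma ρ x d z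

theorem resC_rcorC_H3 (hD : D ≤ V) (htd : ∀ a, IsRTrans (D ⊓ rconjSub V' (x a)) D (d a))
    (ht : IsRTrans V' V (fun p : Σ a, β a => x p.1 * d p.1 p.2)) (z : H3 L V' ρ) :
    (resC L ρ hD).H3 ((rcorC L ρ ht).H3 z)
      = ∑ a, (rcorC L ρ (htd a)).H3 ((rconjResC L ρ V' D (x a)).H3 z) := by
  obtain ⟨z, rfl⟩ := H3.mk_surjective L V' ρ z
  simp only [CMap.H3_mk]
  rw [← map_sum]
  congr 1
  apply Subtype.ext
  rw [AddSubmonoidClass.coe_finsetSum]
  exact rcor3_sigma ρ x d z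

end mackey


end Fermat.Agent.PT
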