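import Fermat.Agent.PT.Coh.Twist
import Fermat.Agent.PT.Coh.CoresAux

/-!
# S55, block F1 (d): corestriction

For `V' ≤ V` of finite relative index, `cores f = ∑_{q ∈ V / V'} tw (rep q) f` on cochains.
-/

set_option autoImplicit false
set_option linter.style.haveILetI false

noncomputable section

namespace Fermat.Agent.PT

variable {k : Type*} [CommRing k] {G : Type*} [Group G] {A A' : Type*} [AddCommGroup A] [Module k A]
  [AddCommGroup A'] [Module k A']

/-- The coset space `V / V'` (left cosets `c V'`, `c ∈ V`). -/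
abbrev CosetsIn (V V' : Subgroup G) : Type _ := ↥V ⧸ V'.subgroupOf V

/-- The chosen representative in `G` of a coset. -/
def CosetsIn.rep {V V' : Subgroup G} (q : CosetsIn V V') : G := ((Quotient.out q : ↥V) : G)

lemma CosetsIn.rep_mem {V V' : Subgroup G} (q : CosetsIn V V') : q.rep ∈ V :=
  (Quotient.out q : ↥V).2

section total

variable (ρ : Representation k G A) (V V' : Subgroup G) [Finite (CosetsIn V V')]

def cor0 : (G → A) →ₗ[k] (G → A) :=
  letI := Fintype.ofFinite (CosetsIn V V'); ∑ q : CosetsIn V V', tw0 ρ q.rep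
def cor1 : (G → G → A) →ₗ[k] (G → G → A) :=
  letI := Fintype.ofFinite (CosetsIn V V'); ∑ q : CosetsIn V V', tw1 ρ q.rep
def cor2 : (G → G → G → A) →ₗ[k] (G → G → G → A) :=
  letI := Fintype.ofFinite (CosetsIn V V'); ∑ q : CosetsIn V V', tw2 ρ q.rep
def cor3 : (G → G → G → G → A) →ₗ[k] (G → G → G → G → A) :=
  letI := Fintype.ofFinite (CosetsIn V V'); ∑ q : CosetsIn V V', tw3 ρ q.rep

end total

variable (L : LevelSystem G) (ρ : Representation k G A)

/-! ### Task Cores-A: independence of the representatives, membership -/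

/-- On `V'`-equivariant functions the sum may be computed with any system of representatives:
`c : I → G` with `c i ∈ V` such that every `v ∈ V` lies in exactly one `c i V'`. -/
def IsReps {I : Type*} (V V' : Subgroup G) (c : I → G) : Prop :=
  (∀ i, c i ∈ V) ∧ ∀ v ∈ V, ∃! i, (c i)⁻¹ * v ∈ V'

variable {L ρ}

/-- translation to the right coset convention of `CoresAux`. -/
lemma Cores_isRTrans {I : Type*} {V V' : Subgroup G} {c : I → G} (hc : IsReps V V' c) :
    IsRTrans (V' ⊓ V) V (fun i => (c i)⁻¹) where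
  le := inf_le_right
  mem i := V.inv_mem (hc.1 i)
  exists_unique v hv := by
    obtain ⟨i, hi, hu⟩ := hc.2 v⁻¹ (V.inv_mem hv)
    refine ⟨i, ⟨?_, ?_⟩, fun j hj => hu j ?_⟩
    · have := V'.inv_mem hi
      simpa using this
    · simpa using V.mul_mem hv (hc.1 i)
    · have := V'.inv_mem hj.1
      simpa using this

lemma Cores_isRTrans_of_le {I : Type*} {V V' : Subgroup G} {c : I → G} (hc : IsReps V V' c)
    (hle : V' ≤ V) : IsRTrans V' V (fun i => (c i)⁻¹) := by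
  have := Cores_isRTrans hc
  rwa [inf_eq_left.mpr hle] at this

lemma Cores_isReps_of_isRTrans {I : Type*} {V V' : Subgroup G} {c : I → G}
    (hc : IsRTrans V' V (fun i => (c i)⁻¹)) : IsReps V V' c := by
  refine ⟨fun i => by simpa using V.inv_mem (hc.mem i), fun v hv => ?_⟩
  obtain ⟨i, hi, hu⟩ := hc.exists_unique v⁻¹ (V.inv_mem hv)
  refine ⟨i, ?_, fun j hj => hu j ?_⟩
  · have := V'.inv_mem hi
    simpa using this
  · have := V'.inv_mem hj
    simpa using this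

theorem isReps_rep (V V' : Subgroup G) : IsReps V V' (fun q : CosetsIn V V' => q.rep) := by
  refine ⟨fun q => q.rep_mem, fun v hv => ?_⟩
  refine ⟨(QuotientGroup.mk (⟨v, hv⟩ : V) : CosetsIn V V'), ?_, ?_⟩
  · obtain ⟨w, hw⟩ := QuotientGroup.mk_out_eq_mul (V'.subgroupOf V) (⟨v, hv⟩ : V)
    have hw' : CosetsIn.rep (QuotientGroup.mk (⟨v, hv⟩ : V) : CosetsIn V V') = v * ((w : V) : G) :=
      congrArg (Subtype.val) hw
    simp only
    rw [hw', mul_inv_rev, inv_mul_cancel_right]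
    exact V'.inv_mem (Subgroup.mem_subgroupOf.mp w.2)
  · intro q hq
    rw [← QuotientGroup.out_eq' q]
    apply QuotientGroup.eq.mpr
    rw [Subgroup.mem_subgroupOf]
    exact hq

lemma Cores_rcor0_inv {I : Type*} [Fintype I] (ρ : Representation k G A) (c : I → G)
    (f : G → A) : rcor0 ρ (fun i => (c i)⁻¹) f = ∑ i, tw0 ρ (c i) f := by
  funext g₀
  simp only [rcor0_apply, Finset.sum_apply, tw0_apply, inv_inv]

lemma Cores_cor0_eq (ρ : Representation k G A) (V V' : Subgroup G) [Finite (CosetsIn V V')]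
    [Fintype (CosetsIn V V')] (f : G → A) :
    cor0 ρ V V' f = rcor0 ρ (fun q : CosetsIn V V' => (q.rep)⁻¹) f := by
  rw [Cores_rcor0_inv, cor0, LinearMap.sum_apply]
  exact Finset.sum_congr (by ext; simp) fun _ _ => rfl

lemma Cores_rcor1_inv {I : Type*} [Fintype I] (ρ : Representation k G A) (c : I → G)
    (f : G → G → A) : rcor1 ρ (fun i => (c i)⁻¹) f = ∑ i, tw1 ρ (c i) f := by
  funext g₀ g₁
  simp only [rcor1_apply, Finset.sum_apply, tw1_apply, inv_inv]

lemma Cores_cor1_eq (ρ : Representation k G A) (V V' : Subgroup G) [Finite (CosetsIn V V')]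
    [Fintype (CosetsIn V V')] (f : G → G → A) :
    cor1 ρ V V' f = rcor1 ρ (fun q : CosetsIn V V' => (q.rep)⁻¹) f := by
  rw [Cores_rcor1_inv, cor1, LinearMap.sum_apply]
  exact Finset.sum_congr (by ext; simp) fun _ _ => rfl

lemma Cores_rcor2_inv {I : Type*} [Fintype I] (ρ : Representation k G A) (c : I → G)
    (f : G → G → G → A) : rcor2 ρ (fun i => (c i)⁻¹) f = ∑ i, tw2 ρ (c i) f := by
  funext g₀ g₁ g₂
  simp only [rcor2_apply, Finset.sum_apply, tw2_apply, inv_inv]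

lemma Cores_cor2_eq (ρ : Representation k G A) (V V' : Subgroup G) [Finite (CosetsIn V V')]
    [Fintype (CosetsIn V V')] (f : G → G → G → A) :
    cor2 ρ V V' f = rcor2 ρ (fun q : CosetsIn V V' => (q.rep)⁻¹) f := by
  rw [Cores_rcor2_inv, cor2, LinearMap.sum_apply]
  exact Finset.sum_congr (by ext; simp) fun _ _ => rfl

lemma Cores_rcor3_inv {I : Type*} [Fintype I] (ρ : Representation k G A) (c : I → G)
    (f : G → G → G → G → A) : rcor3 ρ (fun i => (c i)⁻¹) f = ∑ i, tw3 ρ (c i) f := by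
  funext g₀ g₁ g₂ g₃
  simp only [rcor3_apply, Finset.sum_apply, tw3_apply, inv_inv]

lemma Cores_cor3_eq (ρ : Representation k G A) (V V' : Subgroup G) [Finite (CosetsIn V V')]
    [Fintype (CosetsIn V V')] (f : G → G → G → G → A) :
    cor3 ρ V V' f = rcor3 ρ (fun q : CosetsIn V V' => (q.rep)⁻¹) f := by
  rw [Cores_rcor3_inv, cor3, LinearMap.sum_apply]
  exact Finset.sum_congr (by ext; simp) fun _ _ => rfl

theorem cor0_eq_sum {V V' : Subgroup G} [Finite (CosetsIn V V')] {I : Type*} [Fintype I]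
    {c : I → G} (hc : IsReps V V' c) {f : G → A} (hf : f ∈ X0 L V' ρ) :
    cor0 ρ V V' f = ∑ i, tw0 ρ (c i) f := by
  letI := Fintype.ofFinite (CosetsIn V V')
  rw [Cores_cor0_eq, ← Cores_rcor0_inv]
  exact rcor0_indep (Cores_isRTrans (isReps_rep V V')) (Cores_isRTrans hc)
    (fun v hv => hf.1 v hv.1)

theorem cor1_eq_sum {V V' : Subgroup G} [Finite (CosetsIn V V')] {I : Type*} [Fintype I]
    {c : I → G} (hc : IsReps V V' c) {f : G → G → A} (hf : f ∈ X1 L V' ρ) :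
    cor1 ρ V V' f = ∑ i, tw1 ρ (c i) f := by
  letI := Fintype.ofFinite (CosetsIn V V')
  rw [Cores_cor1_eq, ← Cores_rcor1_inv]
  exact rcor1_indep (Cores_isRTrans (isReps_rep V V')) (Cores_isRTrans hc)
    (fun v hv => hf.1 v hv.1)

theorem cor2_eq_sum {V V' : Subgroup G} [Finite (CosetsIn V V')] {I : Type*} [Fintype I]
    {c : I → G} (hc : IsReps V V' c) {f : G → G → G → A} (hf : f ∈ X2 L V' ρ) :
    cor2 ρ V V' f = ∑ i, tw2 ρ (c i) f := by
  letI := Fintype.ofFinite (CosetsIn V V')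
  rw [Cores_cor2_eq, ← Cores_rcor2_inv]
  exact rcor2_indep (Cores_isRTrans (isReps_rep V V')) (Cores_isRTrans hc)
    (fun v hv => hf.1 v hv.1)

theorem cor3_eq_sum {V V' : Subgroup G} [Finite (CosetsIn V V')] {I : Type*} [Fintype I]
    {c : I → G} (hc : IsReps V V' c) {f : G → G → G → G → A} (hf : f ∈ X3 L V' ρ) :
    cor3 ρ V V' f = ∑ i, tw3 ρ (c i) f := by
  letI := Fintype.ofFinite (CosetsIn V V')
  rw [Cores_cor3_eq, ← Cores_rcor3_inv]
  exact rcor3_indep (Cores_isRTrans (isReps_rep V V')) (Cores_isRTrans hc)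
    (fun v hv => hf.1 v hv.1)

theorem cor0_mem {V V' : Subgroup G} [Finite (CosetsIn V V')] {f : G → A}
    (hf : f ∈ X0 L V' ρ) : cor0 ρ V V' f ∈ X0 L V ρ := by
  letI := Fintype.ofFinite (CosetsIn V V')
  rw [Cores_cor0_eq]
  exact rcor0_mem (Cores_isRTrans (isReps_rep V V')) ⟨fun v hv => hf.1 v hv.1, hf.2⟩

theorem cor1_mem {V V' : Subgroup G} [Finite (CosetsIn V V')] {f : G → G → A}
    (hf : f ∈ X1 L V' ρ) : cor1 ρ V V' f ∈ X1 L V ρ := by
  letI := Fintype.ofFinite (CosetsIn V V')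
  rw [Cores_cor1_eq]
  exact rcor1_mem (Cores_isRTrans (isReps_rep V V')) ⟨fun v hv => hf.1 v hv.1, hf.2⟩

theorem cor2_mem {V V' : Subgroup G} [Finite (CosetsIn V V')] {f : G → G → G → A}
    (hf : f ∈ X2 L V' ρ) : cor2 ρ V V' f ∈ X2 L V ρ := by
  letI := Fintype.ofFinite (CosetsIn V V')
  rw [Cores_cor2_eq]
  exact rcor2_mem (Cores_isRTrans (isReps_rep V V')) ⟨fun v hv => hf.1 v hv.1, hf.2⟩

theorem cor3_mem {V V' : Subgroup G} [Finite (CosetsIn V V')] {f : G → G → G → G → A}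
    (hf : f ∈ X3 L V' ρ) : cor3 ρ V V' f ∈ X3 L V ρ := by
  letI := Fintype.ofFinite (CosetsIn V V')
  rw [Cores_cor3_eq]
  exact rcor3_mem (Cores_isRTrans (isReps_rep V V')) ⟨fun v hv => hf.1 v hv.1, hf.2⟩

theorem d0_cor0 (V V' : Subgroup G) [Finite (CosetsIn V V')] (f : G → A) :
    d0 (k := k) (cor0 ρ V V' f) = cor1 ρ V V' (d0 (k := k) f) := by
  letI := Fintype.ofFinite (CosetsIn V V')
  rw [Cores_cor0_eq, Cores_cor1_eq, d0_rcor0]

theorem d1_cor1 (V V' : Subgroup G) [Finite (CosetsIn V V')] (f : G → G → A) :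
    d1 (k := k) (cor1 ρ V V' f) = cor2 ρ V V' (d1 (k := k) f) := by
  letI := Fintype.ofFinite (CosetsIn V V')
  rw [Cores_cor1_eq, Cores_cor2_eq, d1_rcor1]

theorem d2_cor2 (V V' : Subgroup G) [Finite (CosetsIn V V')] (f : G → G → G → A) :
    d2 (k := k) (cor2 ρ V V' f) = cor3 ρ V V' (d2 (k := k) f) := by
  letI := Fintype.ofFinite (CosetsIn V V')
  rw [Cores_cor2_eq, Cores_cor3_eq, d2_rcor2]

theorem d3_cor3_eq_zero (V V' : Subgroup G) [Finite (CosetsIn V V')] {f : G → G → G → G → A}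
    (hf : d3 (k := k) f = 0) : d3 (k := k) (cor3 ρ V V' f) = 0 := by
  letI := Fintype.ofFinite (CosetsIn V V')
  rw [Cores_cor3_eq, d3_rcor3, hf, LinearMap.map_zero]

variable (L ρ)

/-- Corestriction from `V'` to `V`. -/
def coresC (V V' : Subgroup G) [Finite (CosetsIn V V')] : CMap L V' ρ L V ρ where
  T0 := cor0 ρ V V'
  T1 := cor1 ρ V V'
  T2 := cor2 ρ V V'
  T3 := cor3 ρ V V'
  mem0 _ h := cor0_mem h
  mem1 _ h := cor1_mem h
  mem2 _ h := cor2_mem h
  mem3 _ h := cor3_mem h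
  comm0 f _ := d0_cor0 V V' f
  comm1 f _ := d1_cor1 V V' f
  comm2 f _ := d2_cor2 V V' f
  comm3 _ h := d3_cor3_eq_zero V V' h.2

/-! ### Task Cores-B: `cores ∘ res = index`, transitivity, coefficients -/

lemma Cores_cor0_of_mem {V V' : Subgroup G} [Finite (CosetsIn V V')] (h : V' ≤ V)
    {f : G → A} (hf : f ∈ X0 L V ρ) : cor0 ρ V V' f = (V'.relIndex V) • f := by
  letI := Fintype.ofFinite (CosetsIn V V')
  have ht := Cores_isRTrans_of_le (isReps_rep V V') h
  rw [Cores_cor0_eq, rcor0_of_equivariant ht hf.1, ht.card_eq]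

lemma Cores_cor1_of_mem {V V' : Subgroup G} [Finite (CosetsIn V V')] (h : V' ≤ V)
    {f : G → G → A} (hf : f ∈ X1 L V ρ) : cor1 ρ V V' f = (V'.relIndex V) • f := by
  letI := Fintype.ofFinite (CosetsIn V V')
  have ht := Cores_isRTrans_of_le (isReps_rep V V') h
  rw [Cores_cor1_eq, rcor1_of_equivariant ht hf.1, ht.card_eq]

lemma Cores_cor2_of_mem {V V' : Subgroup G} [Finite (CosetsIn V V')] (h : V' ≤ V)
    {f : G → G → G → A} (hf : f ∈ X2 L V ρ) : cor2 ρ V V' f = (V'.relIndex V) • f := by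
  letI := Fintype.ofFinite (CosetsIn V V')
  have ht := Cores_isRTrans_of_le (isReps_rep V V') h
  rw [Cores_cor2_eq, rcor2_of_equivariant ht hf.1, ht.card_eq]

lemma Cores_cor3_of_mem {V V' : Subgroup G} [Finite (CosetsIn V V')] (h : V' ≤ V)
    {f : G → G → G → G → A} (hf : f ∈ X3 L V ρ) : cor3 ρ V V' f = (V'.relIndex V) • f := by
  letI := Fintype.ofFinite (CosetsIn V V')
  have ht := Cores_isRTrans_of_le (isReps_rep V V') h
  rw [Cores_cor3_eq, rcor3_of_equivariant ht hf.1, ht.card_eq]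

theorem cores_res_H0 {V V' : Subgroup G} [Finite (CosetsIn V V')] (h : V' ≤ V) (x : H0 L V ρ) :
    (coresC L ρ V V').H0 ((resC L ρ h).H0 x) = (V'.relIndex V) • x :=
  Subtype.ext (Cores_cor0_of_mem L ρ h x.2.1)

theorem cores_res_H1 {V V' : Subgroup G} [Finite (CosetsIn V V')] (h : V' ≤ V) (x : H1 L V ρ) :
    (coresC L ρ V V').H1 ((resC L ρ h).H1 x) = (V'.relIndex V) • x := by
  obtain ⟨z, rfl⟩ := H1.mk_surjective L V ρ x
  rw [CMap.H1_mk, CMap.H1_mk, ← map_nsmul]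
  exact congrArg _ (Subtype.ext (Cores_cor1_of_mem L ρ h z.2.1))

theorem cores_res_H2 {V V' : Subgroup G} [Finite (CosetsIn V V')] (h : V' ≤ V) (x : H2 L V ρ) :
    (coresC L ρ V V').H2 ((resC L ρ h).H2 x) = (V'.relIndex V) • x := by
  obtain ⟨z, rfl⟩ := H2.mk_surjective L V ρ x
  rw [CMap.H2_mk, CMap.H2_mk, ← map_nsmul]
  exact congrArg _ (Subtype.ext (Cores_cor2_of_mem L ρ h z.2.1))

theorem cores_res_H3 {V V' : Subgroup G} [Finite (CosetsIn V V')] (h : V' ≤ V) (x : H3 L V ρ) :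
    (coresC L ρ V V').H3 ((resC L ρ h).H3 x) = (V'.relIndex V) • x := by
  obtain ⟨z, rfl⟩ := H3.mk_surjective L V ρ x
  rw [CMap.H3_mk, CMap.H3_mk, ← map_nsmul]
  exact congrArg _ (Subtype.ext (Cores_cor3_of_mem L ρ h z.2.1))

/-- Transitivity on cochains (degree 2; the other degrees are analogous). -/
theorem cor_cor0 {V V' V'' : Subgroup G} [Finite (CosetsIn V V')] [Finite (CosetsIn V' V'')]
    [Finite (CosetsIn V V'')] (h : V'' ≤ V') (h' : V' ≤ V) {f : G → A}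
    (hf : f ∈ X0 L V'' ρ) : cor0 ρ V V' (cor0 ρ V' V'' f) = cor0 ρ V V'' f := by
  letI := Fintype.ofFinite (CosetsIn V V')
  letI := Fintype.ofFinite (CosetsIn V' V'')
  letI := Fintype.ofFinite (CosetsIn V V'')
  have h1 := Cores_isRTrans_of_le (isReps_rep V V') h'
  have h2 := Cores_isRTrans_of_le (isReps_rep V' V'') h
  have h3 := Cores_isRTrans_of_le (isReps_rep V V'') (h.trans h')
  rw [Cores_cor0_eq, Cores_cor0_eq, Cores_cor0_eq, ← rcor0_prod]
  exact rcor0_indep (h2.prod h1) h3 hf.1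

theorem cor_cor1 {V V' V'' : Subgroup G} [Finite (CosetsIn V V')] [Finite (CosetsIn V' V'')]
    [Finite (CosetsIn V V'')] (h : V'' ≤ V') (h' : V' ≤ V) {f : G → G → A}
    (hf : f ∈ X1 L V'' ρ) : cor1 ρ V V' (cor1 ρ V' V'' f) = cor1 ρ V V'' f := by
  letI := Fintype.ofFinite (CosetsIn V V')
  letI := Fintype.ofFinite (CosetsIn V' V'')
  letI := Fintype.ofFinite (CosetsIn V V'')
  have h1 := Cores_isRTrans_of_le (isReps_rep V V') h'
  have h2 := Cores_isRTrans_of_le (isReps_rep V' V'') h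
  have h3 := Cores_isRTrans_of_le (isReps_rep V V'') (h.trans h')
  rw [Cores_cor1_eq, Cores_cor1_eq, Cores_cor1_eq, ← rcor1_prod]
  exact rcor1_indep (h2.prod h1) h3 hf.1

theorem cor_cor2 {V V' V'' : Subgroup G} [Finite (CosetsIn V V')] [Finite (CosetsIn V' V'')]
    [Finite (CosetsIn V V'')] (h : V'' ≤ V') (h' : V' ≤ V) {f : G → G → G → A}
    (hf : f ∈ X2 L V'' ρ) : cor2 ρ V V' (cor2 ρ V' V'' f) = cor2 ρ V V'' f := by
  letI := Fintype.ofFinite (CosetsIn V V')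
  letI := Fintype.ofFinite (CosetsIn V' V'')
  letI := Fintype.ofFinite (CosetsIn V V'')
  have h1 := Cores_isRTrans_of_le (isReps_rep V V') h'
  have h2 := Cores_isRTrans_of_le (isReps_rep V' V'') h
  have h3 := Cores_isRTrans_of_le (isReps_rep V V'') (h.trans h')
  rw [Cores_cor2_eq, Cores_cor2_eq, Cores_cor2_eq, ← rcor2_prod]
  exact rcor2_indep (h2.prod h1) h3 hf.1

theorem cor_cor3 {V V' V'' : Subgroup G} [Finite (CosetsIn V V')] [Finite (CosetsIn V' V'')]
    [Finite (CosetsIn V V'')] (h : V'' ≤ V') (h' : V' ≤ V) {f : G → G → G → G → A}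
    (hf : f ∈ X3 L V'' ρ) : cor3 ρ V V' (cor3 ρ V' V'' f) = cor3 ρ V V'' f := by
  letI := Fintype.ofFinite (CosetsIn V V')
  letI := Fintype.ofFinite (CosetsIn V' V'')
  letI := Fintype.ofFinite (CosetsIn V V'')
  have h1 := Cores_isRTrans_of_le (isReps_rep V V') h'
  have h2 := Cores_isRTrans_of_le (isReps_rep V' V'') h
  have h3 := Cores_isRTrans_of_le (isReps_rep V V'') (h.trans h')
  rw [Cores_cor3_eq, Cores_cor3_eq, Cores_cor3_eq, ← rcor3_prod]
  exact rcor3_indep (h2.prod h1) h3 hf.1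

/-- Corestriction commutes with `V`-equivariant coefficient maps (on all functions). -/
theorem cor2_pp2 {σ : Representation k G A'} {V V' : Subgroup G} [Finite (CosetsIn V V')]
    {φ : A →ₗ[k] A'} (hφ : ∀ v ∈ V, ∀ a, φ (ρ v a) = σ v (φ a)) (f : G → G → G → A) :
    cor2 σ V V' (pp2 (MonoidHom.id G) φ f) = pp2 (MonoidHom.id G) φ (cor2 ρ V V' f) := by
  letI := Fintype.ofFinite (CosetsIn V V')
  rw [Cores_cor2_eq, Cores_cor2_eq]
  exact (pp2_rcor2 (fun q a => by rw [inv_inv]; exact hφ _ q.rep_mem a) f).symm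

theorem cor1_pp1 {σ : Representation k G A'} {V V' : Subgroup G} [Finite (CosetsIn V V')]
    {φ : A →ₗ[k] A'} (hφ : ∀ v ∈ V, ∀ a, φ (ρ v a) = σ v (φ a)) (f : G → G → A) :
    cor1 σ V V' (pp1 (MonoidHom.id G) φ f) = pp1 (MonoidHom.id G) φ (cor1 ρ V V' f) := by
  letI := Fintype.ofFinite (CosetsIn V V')
  rw [Cores_cor1_eq, Cores_cor1_eq]
  exact (pp1_rcor1 (fun q a => by rw [inv_inv]; exact hφ _ q.rep_mem a) f).symm

theorem cor0_pp0 {σ : Representation k G A'} {V V' : Subgroup G} [Finite (CosetsIn V V')]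
    {φ : A →ₗ[k] A'} (hφ : ∀ v ∈ V, ∀ a, φ (ρ v a) = σ v (φ a)) (f : G → A) :
    cor0 σ V V' (pp0 (MonoidHom.id G) φ f) = pp0 (MonoidHom.id G) φ (cor0 ρ V V' f) := by
  letI := Fintype.ofFinite (CosetsIn V V')
  rw [Cores_cor0_eq, Cores_cor0_eq]
  exact (pp0_rcor0 (fun q a => by rw [inv_inv]; exact hφ _ q.rep_mem a) f).symm

theorem cor3_pp3 {σ : Representation k G A'} {V V' : Subgroup G} [Finite (CosetsIn V V')]
    {φ : A →ₗ[k] A'} (hφ : ∀ v ∈ V, ∀ a, φ (ρ v a) = σ v (φ a)) (f : G → G → G → G → A) :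
    cor3 σ V V' (pp3 (MonoidHom.id G) φ f) = pp3 (MonoidHom.id G) φ (cor3 ρ V V' f) := by
  letI := Fintype.ofFinite (CosetsIn V V')
  rw [Cores_cor3_eq, Cores_cor3_eq]
  exact (pp3_rcor3 (fun q a => by rw [inv_inv]; exact hφ _ q.rep_mem a) f).symm

/-! ### Task Cores-C: the double coset formula `res_D ∘ cores_{V'}^V = ∑ cores ∘ tw c_i ∘ res` -/

/-- `c : I → G` represents the double cosets `D \ V / V'`. -/
def IsDoubleReps {I : Type*} (D V V' : Subgroup G) (c : I → G) : Prop :=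
  (∀ i, c i ∈ V) ∧ (∀ v ∈ V, ∃ i, ∃ d ∈ D, (c i)⁻¹ * d⁻¹ * v ∈ V') ∧
    ∀ i j, ∀ d ∈ D, (c i)⁻¹ * d⁻¹ * c j ∈ V' → i = j

/-- `D ∩ c V' c⁻¹`. -/
def conjInf (D V' : Subgroup G) (c : G) : Subgroup G :=
  D ⊓ V'.map (MulAut.conj c).toMonoidHom

lemma mem_conjInf {D V' : Subgroup G} {c g : G} :
    g ∈ conjInf D V' c ↔ g ∈ D ∧ c⁻¹ * g * c ∈ V' := by
  unfold conjInf
  rw [Subgroup.mem_inf, Subgroup.mem_map]
  refine and_congr_right fun _ => ⟨?_, fun h => ⟨_, h, ?_⟩⟩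
  · rintro ⟨x, hx, rfl⟩
    simpa [mul_assoc] using hx
  · simp [mul_assoc]

theorem finite_cosetsIn_conjInf {D V V' : Subgroup G} [Finite (CosetsIn V V')] (hD : D ≤ V)
    {c : G} (hc : c ∈ V) : Finite (CosetsIn D (conjInf D V' c)) := by
  -- the map `d ↦ d c V'` is injective on `D / (D ∩ c V' c⁻¹)`
  let F : CosetsIn D (conjInf D V' c) → CosetsIn V V' := fun q =>
    QuotientGroup.mk (⟨q.rep * c, V.mul_mem (hD q.rep_mem) hc⟩ : V)
  refine Finite.of_injective F fun q q' hqq => ?_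
  have h1 := QuotientGroup.eq.mp hqq
  rw [Subgroup.mem_subgroupOf] at h1
  have h2 : c⁻¹ * ((q.rep)⁻¹ * q'.rep) * c ∈ V' := by
    have : (q.rep * c)⁻¹ * (q'.rep * c) ∈ V' := h1
    convert this using 1
    group
  rw [← QuotientGroup.out_eq' q, ← QuotientGroup.out_eq' q']
  apply QuotientGroup.eq.mpr
  rw [Subgroup.mem_subgroupOf]
  exact mem_conjInf.mpr ⟨D.mul_mem (D.inv_mem q.rep_mem) q'.rep_mem, h2⟩

/-- the representatives `rep q * c i` of `V / V'`. -/
theorem Cores_isReps_sigma {D V V' : Subgroup G} (hD : D ≤ V) {I : Type*} {c : I → G}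
    (hc : IsDoubleReps D V V' c) :
    IsReps V V' (fun p : Σ i, CosetsIn D (conjInf D V' (c i)) => p.2.rep * c p.1) := by
  obtain ⟨hcV, hex, huniq⟩ := hc
  refine ⟨fun p => V.mul_mem (hD p.2.rep_mem) (hcV p.1), fun v hv => ?_⟩
  obtain ⟨i, d, hd, hv'⟩ := hex v hv
  obtain ⟨q, hq, -⟩ := (isReps_rep D (conjInf D V' (c i))).2 d hd
  have hq' := (mem_conjInf.mp hq).2
  have key : ∀ (j : I) (r : CosetsIn D (conjInf D V' (c j))), (r.rep * c j)⁻¹ * v ∈ V' →
      (⟨j, r⟩ : Σ i, CosetsIn D (conjInf D V' (c i))) = ⟨i, q⟩ := by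
    intro j r hr
    have h1 : (c j)⁻¹ * (d⁻¹ * r.rep)⁻¹ * c i ∈ V' := by
      have := V'.mul_mem hr (V'.inv_mem hv')
      convert this using 1
      group
    have hji : j = i := huniq j i _ (D.mul_mem (D.inv_mem hd) r.rep_mem) h1
    subst hji
    congr 1
    have h2 : (r.rep)⁻¹ * q.rep ∈ conjInf D V' (c j) := by
      refine mem_conjInf.mpr ⟨D.mul_mem (D.inv_mem r.rep_mem) q.rep_mem, ?_⟩
      have := V'.mul_mem h1 (V'.inv_mem hq')
      convert this using 1
      group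
    rw [← QuotientGroup.out_eq' r, ← QuotientGroup.out_eq' q]
    apply QuotientGroup.eq.mpr
    rw [Subgroup.mem_subgroupOf]
    exact h2
  refine ⟨⟨i, q⟩, ?_, fun p hp => key p.1 p.2 hp⟩
  show (q.rep * c i)⁻¹ * v ∈ V'
  have := V'.mul_mem hq' hv'
  convert this using 1
  group

theorem cor0_eq_sum_double {D V V' : Subgroup G} [Finite (CosetsIn V V')] (hD : D ≤ V)
    (hV' : V' ≤ V) {I : Type*} [Fintype I] {c : I → G} (hc : IsDoubleReps D V V' c)
    [∀ i, Finite (CosetsIn D (conjInf D V' (c i)))] {f : G → A} (hf : f ∈ X0 L V' ρ) :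
    cor0 ρ V V' f = ∑ i, cor0 ρ D (conjInf D V' (c i)) (tw0 ρ (c i) f) := by
  letI : ∀ i, Fintype (CosetsIn D (conjInf D V' (c i))) := fun i => Fintype.ofFinite _
  rw [cor0_eq_sum (Cores_isReps_sigma hD hc) hf, Fintype.sum_sigma]
  refine Finset.sum_congr rfl fun i _ => ?_
  rw [Cores_cor0_eq, Cores_rcor0_inv]
  exact Finset.sum_congr rfl fun q _ => tw0_mul _ _ f

theorem cor1_eq_sum_double {D V V' : Subgroup G} [Finite (CosetsIn V V')] (hD : D ≤ V)
    (hV' : V' ≤ V) {I : Type*} [Fintype I] {c : I → G} (hc : IsDoubleReps D V V' c)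
    [∀ i, Finite (CosetsIn D (conjInf D V' (c i)))] {f : G → G → A} (hf : f ∈ X1 L V' ρ) :
    cor1 ρ V V' f = ∑ i, cor1 ρ D (conjInf D V' (c i)) (tw1 ρ (c i) f) := by
  letI : ∀ i, Fintype (CosetsIn D (conjInf D V' (c i))) := fun i => Fintype.ofFinite _
  rw [cor1_eq_sum (Cores_isReps_sigma hD hc) hf, Fintype.sum_sigma]
  refine Finset.sum_congr rfl fun i _ => ?_
  rw [Cores_cor1_eq, Cores_rcor1_inv]
  exact Finset.sum_congr rfl fun q _ => tw1_mul _ _ f

theorem cor2_eq_sum_double {D V V' : Subgroup G} [Finite (CosetsIn V V')] (hD : D ≤ V)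
    (hV' : V' ≤ V) {I : Type*} [Fintype I] {c : I → G} (hc : IsDoubleReps D V V' c)
    [∀ i, Finite (CosetsIn D (conjInf D V' (c i)))] {f : G → G → G → A} (hf : f ∈ X2 L V' ρ) :
    cor2 ρ V V' f = ∑ i, cor2 ρ D (conjInf D V' (c i)) (tw2 ρ (c i) f) := by
  letI : ∀ i, Fintype (CosetsIn D (conjInf D V' (c i))) := fun i => Fintype.ofFinite _
  rw [cor2_eq_sum (Cores_isReps_sigma hD hc) hf, Fintype.sum_sigma]
  refine Finset.sum_congr rfl fun i _ => ?_
  rw [Cores_cor2_eq, Cores_rcor2_inv]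
  exact Finset.sum_congr rfl fun q _ => tw2_mul _ _ f

end Fermat.Agent.PT

end
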