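import Fermat.Agent.PT.Coh.Pair

/-!
# S55, block F1: isomorphisms of complexes, and "classes die on small subgroups"
-/

set_option autoImplicit false

namespace Fermat.Agent.PT

variable {k : Type*} [CommRing k]
variable {G G' : Type*} [Group G] [Group G']
variable {A A' : Type*} [AddCommGroup A] [Module k A] [AddCommGroup A'] [Module k A']
variable {L : LevelSystem G} {V : Subgroup G} {ρ : Representation k G A}
  {L' : LevelSystem G'} {V' : Subgroup G'} {ρ' : Representation k G' A'}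

/-- A chain map which is bijective on the cochain modules `X0 .. X3` (and reflects `3`-cocycles):
an isomorphism of the truncated complexes. -/
structure CMap.IsIso (T : CMap L V ρ L' V' ρ') : Prop where
  inj0 : ∀ f ∈ X0 L V ρ, T.T0 f = 0 → f = 0
  inj1 : ∀ f ∈ X1 L V ρ, T.T1 f = 0 → f = 0
  inj2 : ∀ f ∈ X2 L V ρ, T.T2 f = 0 → f = 0
  inj3 : ∀ f ∈ X3 L V ρ, T.T3 f = 0 → f = 0
  surj0 : ∀ f' ∈ X0 L' V' ρ', ∃ f ∈ X0 L V ρ, T.T0 f = f'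
  surj1 : ∀ f' ∈ X1 L' V' ρ', ∃ f ∈ X1 L V ρ, T.T1 f = f'
  surj2 : ∀ f' ∈ X2 L' V' ρ', ∃ f ∈ X2 L V ρ, T.T2 f = f'
  surj3 : ∀ f' ∈ X3 L' V' ρ', ∃ f ∈ X3 L V ρ, T.T3 f = f'
  refl3 : ∀ f ∈ X3 L V ρ, d3 (k := k) (T.T3 f) = 0 → d3 (k := k) f = 0

namespace CMap.IsIso

variable {T : CMap L V ρ L' V' ρ'}

theorem bijective_H0 (h : T.IsIso) : Function.Bijective T.H0 := by
  constructor
  · rw [injective_iff_map_eq_zero]
    intro z hz
    apply Subtype.ext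
    exact h.inj0 z z.2.1 (congrArg Subtype.val hz)
  · intro z'
    obtain ⟨z, hzX, hz⟩ := h.surj0 z' z'.2.1
    have hd : d0 (k := k) z = 0 := by
      apply h.inj1 _ (d0_mem hzX)
      rw [← T.comm0 z hzX, hz]
      exact z'.2.2
    exact ⟨⟨z, hzX, hd⟩, Subtype.ext hz⟩

theorem bijective_H1 (h : T.IsIso) : Function.Bijective T.H1 := by
  constructor
  · rw [injective_iff_map_eq_zero]
    intro x hx
    obtain ⟨z, rfl⟩ := H1.mk_surjective L V ρ x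
    rw [CMap.H1_mk, H1.mk_eq_zero_iff] at hx
    obtain ⟨e', he', hde'⟩ := hx
    obtain ⟨e, he, rfl⟩ := h.surj0 e' he'
    rw [H1.mk_eq_zero_iff]
    refine ⟨e, he, ?_⟩
    have h0 : (z : G → G → A) - d0 (k := k) e = 0 := by
      apply h.inj1 _ (sub_mem z.2.1 (d0_mem he))
      rw [map_sub, ← T.comm0 e he, hde']
      exact sub_self _
    exact (sub_eq_zero.1 h0).symm
  · intro x'
    obtain ⟨z', rfl⟩ := H1.mk_surjective L' V' ρ' x'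
    obtain ⟨z, hzX, hz⟩ := h.surj1 z' z'.2.1
    have hd : d1 (k := k) z = 0 := by
      apply h.inj2 _ (d1_mem hzX)
      rw [← T.comm1 z hzX, hz]
      exact z'.2.2
    refine ⟨H1.mk L V ρ ⟨z, hzX, hd⟩, ?_⟩
    rw [CMap.H1_mk]
    exact congrArg _ (Subtype.ext hz)

theorem bijective_H2 (h : T.IsIso) : Function.Bijective T.H2 := by
  constructor
  · rw [injective_iff_map_eq_zero]
    intro x hx
    obtain ⟨z, rfl⟩ := H2.mk_surjective L V ρ x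
    rw [CMap.H2_mk, H2.mk_eq_zero_iff] at hx
    obtain ⟨e', he', hde'⟩ := hx
    obtain ⟨e, he, rfl⟩ := h.surj1 e' he'
    rw [H2.mk_eq_zero_iff]
    refine ⟨e, he, ?_⟩
    have h0 : (z : G → G → G → A) - d1 (k := k) e = 0 := by
      apply h.inj2 _ (sub_mem z.2.1 (d1_mem he))
      rw [map_sub, ← T.comm1 e he, hde']
      exact sub_self _
    exact (sub_eq_zero.1 h0).symm
  · intro x'
    obtain ⟨z', rfl⟩ := H2.mk_surjective L' V' ρ' x'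
    obtain ⟨z, hzX, hz⟩ := h.surj2 z' z'.2.1
    have hd : d2 (k := k) z = 0 := by
      apply h.inj3 _ (d2_mem hzX)
      rw [← T.comm2 z hzX, hz]
      exact z'.2.2
    refine ⟨H2.mk L V ρ ⟨z, hzX, hd⟩, ?_⟩
    rw [CMap.H2_mk]
    exact congrArg _ (Subtype.ext hz)

theorem bijective_H3 (h : T.IsIso) : Function.Bijective T.H3 := by
  constructor
  · rw [injective_iff_map_eq_zero]
    intro x hx
    obtain ⟨z, rfl⟩ := H3.mk_surjective L V ρ x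
    rw [CMap.H3_mk, H3.mk_eq_zero_iff] at hx
    obtain ⟨e', he', hde'⟩ := hx
    obtain ⟨e, he, rfl⟩ := h.surj2 e' he'
    rw [H3.mk_eq_zero_iff]
    refine ⟨e, he, ?_⟩
    have h0 : (z : G → G → G → G → A) - d2 (k := k) e = 0 := by
      apply h.inj3 _ (sub_mem z.2.1 (d2_mem he))
      rw [map_sub, ← T.comm2 e he, hde']
      exact sub_self _
    exact (sub_eq_zero.1 h0).symm
  · intro x'
    obtain ⟨z', rfl⟩ := H3.mk_surjective L' V' ρ' x'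
    obtain ⟨z, hzX, hz⟩ := h.surj3 z' z'.2.1
    have hd : d3 (k := k) z = 0 := by
      apply h.refl3 _ hzX
      rw [hz]
      exact z'.2.2
    refine ⟨H3.mk L V ρ ⟨z, hzX, hd⟩, ?_⟩
    rw [CMap.H3_mk]
    exact congrArg _ (Subtype.ext hz)

end CMap.IsIso

/-! ### (f) every cocycle is a coboundary on a small subgroup: `h = f 1 ..` -/

theorem die1 {f : G → G → A} (hf : f ∈ Z1 L V ρ) : ∃ U ∈ L, f ∈ B1 L (V ⊓ U) ρ := by
  obtain ⟨⟨he, U, hU, hs⟩, hd⟩ := hf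
  have hd' : d1 (k := k) f = 0 := hd
  refine ⟨U, hU, fun g₀ => f 1 g₀, ⟨?_, U, hU, ?_⟩, ?_⟩
  · intro u hu g₀
    have h1 := he u hu.1 u⁻¹ g₀
    rw [mul_inv_cancel] at h1
    have h2 := hs 1 g₀ u⁻¹ (inv_mem hu.2) 1 (one_mem _)
    rw [one_mul, mul_one] at h2
    show f 1 (u * g₀) = ρ u (f 1 g₀)
    rw [h1, h2]
  · intro g₀ u₀ h₀
    have := hs 1 g₀ 1 (one_mem _) u₀ h₀
    rwa [mul_one] at this
  · funext g₀ g₁
    have := congrFun (congrFun (congrFun hd' 1) g₀) g₁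
    simp only [d1_apply, Pi.zero_apply] at this
    simp only [d0_apply]
    rw [eq_comm, ← sub_eq_zero, ← this]
    abel

theorem die2 {f : G → G → G → A} (hf : f ∈ Z2 L V ρ) : ∃ U ∈ L, f ∈ B2 L (V ⊓ U) ρ := by
  obtain ⟨⟨he, U, hU, hs⟩, hd⟩ := hf
  have hd' : d2 (k := k) f = 0 := hd
  refine ⟨U, hU, fun g₀ g₁ => f 1 g₀ g₁, ⟨?_, U, hU, ?_⟩, ?_⟩
  · intro u hu g₀ g₁
    have h1 := he u hu.1 u⁻¹ g₀ g₁
    rw [mul_inv_cancel] at h1
    have h2 := hs 1 g₀ g₁ u⁻¹ (inv_mem hu.2) 1 (one_mem _) 1 (one_mem _)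
    rw [one_mul, mul_one, mul_one] at h2
    show f 1 (u * g₀) (u * g₁) = ρ u (f 1 g₀ g₁)
    rw [h1, h2]
  · intro g₀ g₁ u₀ h₀ u₁ h₁
    have := hs 1 g₀ g₁ 1 (one_mem _) u₀ h₀ u₁ h₁
    rwa [mul_one] at this
  · funext g₀ g₁ g₂
    have := congrFun (congrFun (congrFun (congrFun hd' 1) g₀) g₁) g₂
    simp only [d2_apply, Pi.zero_apply] at this
    simp only [d1_apply]
    rw [eq_comm, ← sub_eq_zero, ← this]
    abel

theorem die3 {f : G → G → G → G → A} (hf : f ∈ Z3 L V ρ) : ∃ U ∈ L, f ∈ B3 L (V ⊓ U) ρ := by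
  obtain ⟨⟨he, U, hU, hs⟩, hd⟩ := hf
  have hd' : d3 (k := k) f = 0 := hd
  refine ⟨U, hU, fun g₀ g₁ g₂ => f 1 g₀ g₁ g₂, ⟨?_, U, hU, ?_⟩, ?_⟩
  · intro u hu g₀ g₁ g₂
    have h1 := he u hu.1 u⁻¹ g₀ g₁ g₂
    rw [mul_inv_cancel] at h1
    have h2 := hs 1 g₀ g₁ g₂ u⁻¹ (inv_mem hu.2) 1 (one_mem _) 1 (one_mem _) 1 (one_mem _)
    rw [one_mul, mul_one, mul_one, mul_one] at h2
    show f 1 (u * g₀) (u * g₁) (u * g₂) = ρ u (f 1 g₀ g₁ g₂)
    rw [h1, h2]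
  · intro g₀ g₁ g₂ u₀ h₀ u₁ h₁ u₂ h₂
    have := hs 1 g₀ g₁ g₂ 1 (one_mem _) u₀ h₀ u₁ h₁ u₂ h₂
    rwa [mul_one] at this
  · funext g₀ g₁ g₂ g₃
    have := congrFun (congrFun (congrFun (congrFun (congrFun hd' 1) g₀) g₁) g₂) g₃
    simp only [d3_apply, Pi.zero_apply] at this
    simp only [d2_apply]
    rw [eq_comm, ← sub_eq_zero, ← this]
    abel

theorem exists_res_H1_eq_zero (x : H1 L V ρ) :
    ∃ U ∈ L, (resC L ρ (inf_le_left : V ⊓ U ≤ V)).H1 x = 0 := by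
  obtain ⟨z, rfl⟩ := H1.mk_surjective L V ρ x
  obtain ⟨U, hU, hB⟩ := die1 z.2
  refine ⟨U, hU, ?_⟩
  rw [CMap.H1_mk, H1.mk_eq_zero_iff]
  exact hB

theorem exists_res_H2_eq_zero (x : H2 L V ρ) :
    ∃ U ∈ L, (resC L ρ (inf_le_left : V ⊓ U ≤ V)).H2 x = 0 := by
  obtain ⟨z, rfl⟩ := H2.mk_surjective L V ρ x
  obtain ⟨U, hU, hB⟩ := die2 z.2
  refine ⟨U, hU, ?_⟩
  rw [CMap.H2_mk, H2.mk_eq_zero_iff]
  exact hB

theorem exists_res_H3_eq_zero (x : H3 L V ρ) :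
    ∃ U ∈ L, (resC L ρ (inf_le_left : V ⊓ U ≤ V)).H3 x = 0 := by
  obtain ⟨z, rfl⟩ := H3.mk_surjective L V ρ x
  obtain ⟨U, hU, hB⟩ := die3 z.2
  refine ⟨U, hU, ?_⟩
  rw [CMap.H3_mk, H3.mk_eq_zero_iff]
  exact hB

end Fermat.Agent.PT
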