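/-
S55 (Poitou-Tate), blocks F1/F2: the coinduced representation `coind L V ρ` on `X0 L V ρ`
(smooth functions `f : G → A` with `f (v x) = ρ v (f x)` for `v ∈ V`), `G` acting by right
translation `(g • f) x = f (x g)`; equivariant linear maps `EHom ρ σ`; characters `chiRep χ`.
-/
import Fermat.Agent.PT.Coh.Defs

set_option autoImplicit false

namespace Fermat.Agent.PT

section EHom

variable {k G A B C : Type*} [CommRing k] [Group G] [AddCommGroup A] [Module k A]
  [AddCommGroup B] [Module k B] [AddCommGroup C] [Module k C]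

/-- `G`-equivariant `k`-linear maps from `(A, ρ)` to `(B, σ)`. -/
def EHom (ρ : Representation k G A) (σ : Representation k G B) : Submodule k (A →ₗ[k] B) where
  carrier := {φ | ∀ g a, φ (ρ g a) = σ g (φ a)}
  add_mem' := by
    intro φ ψ hφ hψ g a
    simp [hφ g a, hψ g a]
  zero_mem' := by intro g a; simp
  smul_mem' := by
    intro c φ hφ g a
    simp [hφ g a]

lemma mem_EHom {ρ : Representation k G A} {σ : Representation k G B} {φ : A →ₗ[k] B} :
    φ ∈ EHom ρ σ ↔ ∀ g a, φ (ρ g a) = σ g (φ a) := Iff.rfl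

lemma EHom.comp_mem {ρ : Representation k G A} {σ : Representation k G B}
    {τ : Representation k G C} {φ : A →ₗ[k] B} {ψ : B →ₗ[k] C}
    (hψ : ψ ∈ EHom σ τ) (hφ : φ ∈ EHom ρ σ) : ψ ∘ₗ φ ∈ EHom ρ τ := by
  intro g a
  simp [hφ g a, hψ g (φ a)]

lemma EHom.id_mem (ρ : Representation k G A) : LinearMap.id ∈ EHom ρ ρ := fun _ _ => rfl

/-- The one-dimensional representation attached to a character. -/
def chiRep (χ : G →* kˣ) : Representation k G k where
  toFun g := (χ g : k) • LinearMap.id
  map_one' := by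
    ext
    simp
  map_mul' g h := by
    ext
    simp [mul_comm]

@[simp] lemma chiRep_apply (χ : G →* kˣ) (g : G) (x : k) : chiRep χ g x = (χ g : k) * x := by
  simp [chiRep]

end EHom

section Coind

variable {k G A : Type*} [CommRing k] [Group G] [AddCommGroup A] [Module k A]
variable (L : LevelSystem G) (V : Subgroup G) (ρ : Representation k G A)

/-- Right translation of functions: `(rtrans g f) x = f (x * g)`. -/
def rtrans (g : G) : (G → A) →ₗ[k] (G → A) where
  toFun f := fun x => f (x * g)
  map_add' _ _ := rfl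
  map_smul' _ _ := rfl

@[simp] lemma rtrans_apply (g : G) (f : G → A) (x : G) : rtrans (k := k) g f x = f (x * g) := rfl

variable {L V ρ} in
lemma rtrans_mem_X0 (g : G) {f : G → A} (hf : f ∈ X0 L V ρ) : rtrans (k := k) g f ∈ X0 L V ρ := by
  obtain ⟨he, U, hU, hs⟩ := hf
  refine ⟨fun v hv x => ?_, U, hU, fun x u hu => ?_⟩
  · simp only [rtrans_apply, mul_assoc]
    exact he v hv (x * g)
  · have hn := L.normal' U hU
    have : x * u * g = x * g * (g⁻¹ * u * g) := by group
    simp only [rtrans_apply, this]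
    apply hs
    have := hn.conj_mem u hu g⁻¹
    simpa using this

/-- The coinduced representation: `G` acts on `X0 L V ρ` by right translation. -/
def coind : Representation k G (X0 L V ρ) where
  toFun g := (rtrans (k := k) g).restrict (fun _ hf => rtrans_mem_X0 g hf)
  map_one' := by
    ext f x
    simp [LinearMap.restrict_apply]
  map_mul' g h := by
    ext f x
    simp [LinearMap.restrict_apply, mul_assoc]

@[simp] lemma coind_apply_coe (g : G) (f : X0 L V ρ) (x : G) :
    (coind L V ρ g f : G → A) x = (f : G → A) (x * g) := rfl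

lemma isSmoothRep_coind : IsSmoothRep L (coind L V ρ) := by
  rintro ⟨f, he, U, hU, hs⟩
  refine ⟨U, hU, fun u hu => ?_⟩
  ext x
  exact hs x u hu

/-- Evaluation at `1`; it is `V`-equivariant. -/
def coindEv : X0 L V ρ →ₗ[k] A where
  toFun f := (f : G → A) 1
  map_add' _ _ := rfl
  map_smul' _ _ := rfl

@[simp] lemma coindEv_apply (f : X0 L V ρ) : coindEv L V ρ f = (f : G → A) 1 := rfl

lemma coindEv_equivariant (v : G) (hv : v ∈ V) (f : X0 L V ρ) :
    coindEv L V ρ (coind L V ρ v f) = ρ v (coindEv L V ρ f) := by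
  have := f.2.1 v hv 1
  simpa using this

/-- The unit `A → coind`, `a ↦ (x ↦ ρ x a)` (needs `ρ` smooth). -/
def coindConst (hρ : IsSmoothRep L ρ) : A →ₗ[k] X0 L V ρ where
  toFun a := ⟨fun x => ρ x a, fun v _ x => by simp, by
    obtain ⟨U, hU, h⟩ := hρ a
    exact ⟨U, hU, fun x u hu => by simp [h u hu]⟩⟩
  map_add' a b := by ext x; simp
  map_smul' c a := by ext x; simp

@[simp] lemma coindConst_apply_coe (hρ : IsSmoothRep L ρ) (a : A) (x : G) :
    (coindConst L V ρ hρ a : G → A) x = ρ x a := rfl

lemma coindConst_mem_EHom (hρ : IsSmoothRep L ρ) :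
    coindConst L V ρ hρ ∈ EHom ρ (coind L V ρ) := by
  intro g a
  ext x
  simp

lemma coindEv_coindConst (hρ : IsSmoothRep L ρ) (a : A) :
    coindEv L V ρ (coindConst L V ρ hρ a) = a := by simp

lemma coindConst_injective (hρ : IsSmoothRep L ρ) : Function.Injective (coindConst L V ρ hρ) :=
  Function.LeftInverse.injective (coindEv_coindConst L V ρ hρ)

end Coind

end Fermat.Agent.PT
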