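import Fermat.Agent.PT.Coh.ChainMap

/-!
# S55, block F1: a finite family of chain maps which is jointly an isomorphism of complexes
-/

set_option autoImplicit false

namespace Fermat.Agent.PT

variable {k : Type*} [CommRing k]
variable {G G' : Type*} [Group G] [Group G']
variable {A A' : Type*} [AddCommGroup A] [Module k A] [AddCommGroup A'] [Module k A']
variable {L : LevelSystem G} {V : Subgroup G} {ρ : Representation k G A}
  {L' : LevelSystem G'} {I : Type*} {V' : I → Subgroup G'} {ρ' : Representation k G' A'}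

/-- A family of chain maps `T i : X(L, V, ρ) → X(L', V' i, ρ')` such that the product map is
bijective on the cochain modules (in the degrees needed for `H⁰, H¹, H²`). -/
structure FamIsIso (T : ∀ i : I, CMap L V ρ L' (V' i) ρ') : Prop where
  inj0 : ∀ f ∈ X0 L V ρ, (∀ i, (T i).T0 f = 0) → f = 0
  inj1 : ∀ f ∈ X1 L V ρ, (∀ i, (T i).T1 f = 0) → f = 0
  inj2 : ∀ f ∈ X2 L V ρ, (∀ i, (T i).T2 f = 0) → f = 0
  inj3 : ∀ f ∈ X3 L V ρ, (∀ i, (T i).T3 f = 0) → f = 0
  surj0 : ∀ f' : I → G' → A', (∀ i, f' i ∈ X0 L' (V' i) ρ') →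
    ∃ f ∈ X0 L V ρ, ∀ i, (T i).T0 f = f' i
  surj1 : ∀ f' : I → G' → G' → A', (∀ i, f' i ∈ X1 L' (V' i) ρ') →
    ∃ f ∈ X1 L V ρ, ∀ i, (T i).T1 f = f' i
  surj2 : ∀ f' : I → G' → G' → G' → A', (∀ i, f' i ∈ X2 L' (V' i) ρ') →
    ∃ f ∈ X2 L V ρ, ∀ i, (T i).T2 f = f' i

namespace FamIsIso

variable {T : ∀ i : I, CMap L V ρ L' (V' i) ρ'}

theorem bijective_H0 (h : FamIsIso T) :
    Function.Bijective (fun (x : H0 L V ρ) (i : I) => (T i).H0 x) := by
  let Ψ : H0 L V ρ →ₗ[k] (∀ i : I, H0 L' (V' i) ρ') := LinearMap.pi fun i => (T i).H0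
  show Function.Bijective Ψ
  constructor
  · rw [injective_iff_map_eq_zero]
    intro x hx
    apply Subtype.ext
    refine h.inj0 x x.2.1 fun i => ?_
    exact congrArg Subtype.val (congrFun hx i)
  · intro y
    obtain ⟨F, hF, hFy⟩ := h.surj0 (fun i => (y i : G' → A')) (fun i => (y i).2.1)
    have hd : d0 (k := k) F = 0 := by
      refine h.inj1 _ (d0_mem hF) fun i => ?_
      rw [← (T i).comm0 F hF, hFy i]
      exact (y i).2.2
    refine ⟨⟨F, hF, hd⟩, ?_⟩
    funext i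
    exact Subtype.ext (hFy i)

theorem bijective_H1 (h : FamIsIso T) :
    Function.Bijective (fun (x : H1 L V ρ) (i : I) => (T i).H1 x) := by
  let Ψ : H1 L V ρ →ₗ[k] (∀ i : I, H1 L' (V' i) ρ') := LinearMap.pi fun i => (T i).H1
  show Function.Bijective Ψ
  constructor
  · rw [injective_iff_map_eq_zero]
    intro x hx
    obtain ⟨z, rfl⟩ := H1.mk_surjective _ _ _ x
    have h1 : ∀ i, (T i).T1 z ∈ B1 L' (V' i) ρ' := by
      intro i
      have h2 : (T i).H1 (H1.mk L V ρ z) = 0 := congrFun hx i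
      rw [CMap.H1_mk, H1.mk_eq_zero_iff] at h2
      exact h2
    choose e he hde using h1
    obtain ⟨E, hE, hEe⟩ := h.surj0 e he
    rw [H1.mk_eq_zero_iff]
    refine ⟨E, hE, ?_⟩
    have h3 : d0 (k := k) E - z = 0 := by
      refine h.inj1 _ (sub_mem (d0_mem hE) z.2.1) fun i => ?_
      rw [map_sub, ← (T i).comm0 E hE, hEe i, hde i, sub_self]
    exact sub_eq_zero.mp h3
  · intro y
    choose z hz using fun i => H1.mk_surjective _ _ _ (y i)
    obtain ⟨F, hF, hFz⟩ := h.surj1 (fun i => (z i : G' → G' → A')) (fun i => (z i).2.1)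
    have hd : d1 (k := k) F = 0 := by
      refine h.inj2 _ (d1_mem hF) fun i => ?_
      rw [← (T i).comm1 F hF, hFz i]
      exact (z i).2.2
    refine ⟨H1.mk L V ρ ⟨F, hF, hd⟩, ?_⟩
    funext i
    show (T i).H1 (H1.mk L V ρ ⟨F, hF, hd⟩) = y i
    rw [CMap.H1_mk, ← hz i]
    exact congrArg _ (Subtype.ext (hFz i))

theorem bijective_H2 (h : FamIsIso T) :
    Function.Bijective (fun (x : H2 L V ρ) (i : I) => (T i).H2 x) := by
  let Ψ : H2 L V ρ →ₗ[k] (∀ i : I, H2 L' (V' i) ρ') := LinearMap.pi fun i => (T i).H2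
  show Function.Bijective Ψ
  constructor
  · rw [injective_iff_map_eq_zero]
    intro x hx
    obtain ⟨z, rfl⟩ := H2.mk_surjective _ _ _ x
    have h1 : ∀ i, (T i).T2 z ∈ B2 L' (V' i) ρ' := by
      intro i
      have h2 : (T i).H2 (H2.mk L V ρ z) = 0 := congrFun hx i
      rw [CMap.H2_mk, H2.mk_eq_zero_iff] at h2
      exact h2
    choose e he hde using h1
    obtain ⟨E, hE, hEe⟩ := h.surj1 e he
    rw [H2.mk_eq_zero_iff]
    refine ⟨E, hE, ?_⟩
    have h3 : d1 (k := k) E - z = 0 := by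
      refine h.inj2 _ (sub_mem (d1_mem hE) z.2.1) fun i => ?_
      rw [map_sub, ← (T i).comm1 E hE, hEe i, hde i, sub_self]
    exact sub_eq_zero.mp h3
  · intro y
    choose z hz using fun i => H2.mk_surjective _ _ _ (y i)
    obtain ⟨F, hF, hFz⟩ := h.surj2 (fun i => (z i : G' → G' → G' → A')) (fun i => (z i).2.1)
    have hd : d2 (k := k) F = 0 := by
      refine h.inj3 _ (d2_mem hF) fun i => ?_
      rw [← (T i).comm2 F hF, hFz i]
      exact (z i).2.2
    refine ⟨H2.mk L V ρ ⟨F, hF, hd⟩, ?_⟩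
    funext i
    show (T i).H2 (H2.mk L V ρ ⟨F, hF, hd⟩) = y i
    rw [CMap.H2_mk, ← hz i]
    exact congrArg _ (Subtype.ext (hFz i))

end FamIsIso

end Fermat.Agent.PT
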