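import Fermat.Agent.PT.Coh.Coind

/-!
# S55, block F1 (e): the cochain level computations for the Mackey decomposition

`c : I → G` represents `V \ G / D`, `W i = D ⊓ c_i⁻¹ V c_i`.  The maps
`X_n L D (coind L V ρ) → ∏_i X_n L (W i) ρ`, `F ↦ (g ↦ ρ c_i⁻¹ (F g c_i))_i` are bijective.
-/

set_option autoImplicit false

noncomputable section

namespace Fermat.Agent.PT

namespace Mackey

variable {k : Type*} [CommRing k] {G : Type*} [Group G] {A : Type*} [AddCommGroup A] [Module k A]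
variable {L : LevelSystem G} {V D : Subgroup G} {ρ : Representation k G A}
variable {I : Type*} {c : I → G}

lemma conj_mem {U : Subgroup G} (hU : U ∈ L) {u : G} (hu : u ∈ U) (g : G) : g⁻¹ * u * g ∈ U := by
  have hn := L.normal' U hU
  have := hn.conj_mem u hu g⁻¹
  simpa using this

lemma conj_mem' {U : Subgroup G} (hU : U ∈ L) {u : G} (hu : u ∈ U) (g : G) : g * u * g⁻¹ ∈ U :=
  (L.normal' U hU).conj_mem u hu g

/-- A finite family of levels has a lower bound. -/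
lemma exists_level_le {ι : Type*} [Finite ι] (L : LevelSystem G) (U : ι → Subgroup G)
    (hU : ∀ i, U i ∈ L) : ∃ W ∈ L, ∀ i, W ≤ U i := by
  classical
  have := Fintype.ofFinite ι
  have key : ∀ s : Finset ι, ∃ W ∈ L, ∀ i ∈ s, W ≤ U i := by
    intro s
    induction s using Finset.induction_on with
    | empty =>
      obtain ⟨W, hW⟩ := L.nonempty'
      exact ⟨W, hW, fun i hi => absurd hi (Finset.notMem_empty i)⟩
    | insert a s _ ih =>
      obtain ⟨W, hW, h⟩ := ih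
      obtain ⟨W', hW', h1, h2⟩ := L.directed' W hW (U a) (hU a)
      refine ⟨W', hW', fun i hi => ?_⟩
      rcases Finset.mem_insert.mp hi with rfl | hi
      · exact h2
      · exact h1.trans (h i hi)
  obtain ⟨W, hW, h⟩ := key Finset.univ
  exact ⟨W, hW, fun i => h i (Finset.mem_univ i)⟩

/-- The values of a smooth function with values in a smooth representation are fixed by a common
level. -/
lemma exists_level_fix (hρ : IsSmoothRep L ρ) {φ : G → A} (hφ : Smooth0 L φ) :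
    ∃ W ∈ L, ∀ t, ∀ u ∈ W, ρ u (φ t) = φ t := by
  obtain ⟨U₁, hU₁, hs⟩ := hφ
  have hfi := L.finiteIndex' U₁ hU₁
  have hfin : Finite (G ⧸ U₁) := Subgroup.finite_quotient_of_finiteIndex
  choose Uq hUq hfix using fun q : G ⧸ U₁ => hρ (φ q.out)
  obtain ⟨W, hW, hle⟩ := exists_level_le L Uq hUq
  refine ⟨W, hW, fun t u hu => ?_⟩
  obtain ⟨h, hh⟩ := QuotientGroup.mk_out_eq_mul U₁ t
  have e : φ t = φ (QuotientGroup.mk t : G ⧸ U₁).out := by rw [hh, hs t h h.2]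
  rw [e]
  exact hfix _ u (hle _ hu)

/-- A chosen decomposition `x = v * c i * d`. -/
def dec (hex : ∀ g : G, ∃ i, ∃ v ∈ V, ∃ d ∈ D, g = v * c i * d) (x : G) :
    {t : I × G × G // t.2.1 ∈ V ∧ t.2.2 ∈ D ∧ x = t.2.1 * c t.1 * t.2.2} :=
  Classical.indefiniteDescription _ (by
    obtain ⟨i, v, hv, d, hd, h⟩ := hex x
    exact ⟨(i, v, d), hv, hd, h⟩)

/-- The inverse of the Mackey map: `core f y (v * c i * d) = ρ (v * c i) (f i (d • y))`. -/
def core (hex : ∀ g : G, ∃ i, ∃ v ∈ V, ∃ d ∈ D, g = v * c i * d) (ρ : Representation k G A)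
    {Y : Type*} [MulAction G Y] (f : I → Y → A) (y : Y) (x : G) : A :=
  ρ ((dec hex x).1.2.1 * c (dec hex x).1.1) (f (dec hex x).1.1 ((dec hex x).1.2.2 • y))

section core

variable (hex : ∀ g : G, ∃ i, ∃ v ∈ V, ∃ d ∈ D, g = v * c i * d)
  (huniq : ∀ i j, ∀ v ∈ V, ∀ d ∈ D, c j = v * c i * d → i = j)
  {W : I → Subgroup G} (hW : ∀ i w, w ∈ D → c i * w * (c i)⁻¹ ∈ V → w ∈ W i)
  {Y : Type*} [MulAction G Y] {f : I → Y → A}
  (hf : ∀ i, ∀ w ∈ W i, ∀ y, f i (w • y) = ρ w (f i y))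

include huniq hW hf

lemma core_eq (y : Y) {x : G} {i : I} {v d : G} (hv : v ∈ V) (hd : d ∈ D)
    (hx : x = v * c i * d) : core hex ρ f y x = ρ (v * c i) (f i (d • y)) := by
  unfold core
  rcases dec hex x with ⟨⟨i', v', d'⟩, hv', hd', hx'⟩
  simp only at hv' hd' hx' ⊢
  have hii : i = i' := by
    refine huniq i i' (v'⁻¹ * v) (V.mul_mem (V.inv_mem hv') hv) (d * d'⁻¹)
      (D.mul_mem hd (D.inv_mem hd')) ?_
    have : v' * c i' * d' = v * c i * d := hx'.symm.trans hx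
    calc c i' = v'⁻¹ * (v' * c i' * d') * d'⁻¹ := by group
      _ = v'⁻¹ * (v * c i * d) * d'⁻¹ := by rw [this]
      _ = v'⁻¹ * v * c i * (d * d'⁻¹) := by group
  subst hii
  have hvd : v' * c i * d' = v * c i * d := hx'.symm.trans hx
  have hw : d' * d⁻¹ ∈ W i := by
    refine hW i _ (D.mul_mem hd' (D.inv_mem hd)) ?_
    have : c i * (d' * d⁻¹) * (c i)⁻¹ = v'⁻¹ * v := by
      calc c i * (d' * d⁻¹) * (c i)⁻¹ = v'⁻¹ * (v' * c i * d') * d⁻¹ * (c i)⁻¹ := by group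
        _ = v'⁻¹ * (v * c i * d) * d⁻¹ * (c i)⁻¹ := by rw [hvd]
        _ = v'⁻¹ * v := by group
    rw [this]
    exact V.mul_mem (V.inv_mem hv') hv
  have e1 : d' • y = (d' * d⁻¹) • (d • y) := by rw [← mul_smul]; congr 1; group
  rw [e1, hf i _ hw, ← Module.End.mul_apply, ← map_mul]
  congr 2
  calc v' * c i * (d' * d⁻¹) = (v' * c i * d') * d⁻¹ := by group
    _ = (v * c i * d) * d⁻¹ := by rw [hvd]
    _ = v * c i := by group

lemma core_apply_rep (y : Y) (i : I) : core hex ρ f y (c i) = ρ (c i) (f i y) := by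
  have := core_eq hex huniq hW hf y (x := c i) (i := i) V.one_mem D.one_mem (by group)
  simpa using this

lemma core_smul (y : Y) {d₀ : G} (hd₀ : d₀ ∈ D) (x : G) :
    core hex ρ f (d₀ • y) x = core hex ρ f y (x * d₀) := by
  obtain ⟨i, v, hv, d, hd, hx⟩ := hex x
  rw [core_eq hex huniq hW hf (d₀ • y) hv hd hx,
    core_eq hex huniq hW hf y (x := x * d₀) (i := i) hv (D.mul_mem hd hd₀) (by rw [hx]; group),
    mul_smul]

lemma core_mem_X0 (hV : L.IsOpen V) (y : Y)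
    (hfix : ∃ W' ∈ L, ∀ i (t : G), ∀ u ∈ W', ρ u (f i (t • y)) = f i (t • y)) :
    core hex ρ f y ∈ X0 L V ρ := by
  refine ⟨fun v₀ hv₀ x => ?_, ?_⟩
  · obtain ⟨i, v, hv, d, hd, hx⟩ := hex x
    rw [core_eq hex huniq hW hf y hv hd hx,
      core_eq hex huniq hW hf y (x := v₀ * x) (i := i) (V.mul_mem hv₀ hv) hd (by rw [hx]; group),
      ← Module.End.mul_apply, ← map_mul]
    congr 2
    group
  · obtain ⟨U₀, hU₀, hU₀V⟩ := hV
    obtain ⟨W', hW', hfix⟩ := hfix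
    obtain ⟨U, hU, h1, h2⟩ := L.directed' U₀ hU₀ W' hW'
    refine ⟨U, hU, fun x u hu => ?_⟩
    obtain ⟨i, v, hv, d, hd, hx⟩ := hex x
    have hxu : x * u * x⁻¹ ∈ U := conj_mem' hU hu x
    rw [core_eq hex huniq hW hf y hv hd hx,
      core_eq hex huniq hW hf y (x := x * u) (i := i) (V.mul_mem (hU₀V (h1 hxu)) hv) hd
        (by rw [mul_assoc (x * u * x⁻¹ * v), mul_assoc (x * u * x⁻¹), ← mul_assoc v, ← hx]; group)]
    have e : x * u * x⁻¹ * v * c i = (v * c i) * ((v * c i)⁻¹ * (x * u * x⁻¹) * (v * c i)) := by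
      group
    rw [e, map_mul, Module.End.mul_apply, hfix i d _ (h2 (conj_mem hU hxu _))]

end core

/-- An element of the coinduced module vanishing at all `c i * d` is zero. -/
lemma eq_zero_of_forall (hex : ∀ g : G, ∃ i, ∃ v ∈ V, ∃ d ∈ D, g = v * c i * d) (Φ : X0 L V ρ)
    (h : ∀ i, ∀ d ∈ D, (Φ : G → A) (c i * d) = 0) : Φ = 0 := by
  ext x
  obtain ⟨i, v, hv, d, hd, rfl⟩ := hex x
  rw [mul_assoc, Φ.2.1 v hv, h i d hd, map_zero]
  rfl

lemma eq_zero_of_rho_inv {g : G} {a : A} (h : ρ g⁻¹ a = 0) : a = 0 := by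
  have := congrArg (ρ g) h
  rwa [← Module.End.mul_apply, ← map_mul, mul_inv_cancel, map_one, Module.End.one_apply,
    map_zero] at this

lemma rho_inv_rho (g : G) (a : A) : ρ g⁻¹ (ρ g a) = a := by
  rw [← Module.End.mul_apply, ← map_mul, inv_mul_cancel, map_one, Module.End.one_apply]

/-! ### injectivity -/

section inj

variable (hex : ∀ g : G, ∃ i, ∃ v ∈ V, ∃ d ∈ D, g = v * c i * d)

include hex

theorem inj0 {F : G → X0 L V ρ} (hF : F ∈ X0 L D (coind L V ρ))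
    (h0 : ∀ i g₀, ρ (c i)⁻¹ ((F g₀ : G → A) (c i)) = 0) : F = 0 := by
  funext g₀
  refine eq_zero_of_forall hex _ fun i d hd => ?_
  have h1 := congrArg (fun Φ : X0 L V ρ => (Φ : G → A) (c i)) (hF.1 d hd g₀)
  simp only [coind_apply_coe] at h1
  rw [← h1]
  exact eq_zero_of_rho_inv (h0 i _)

theorem inj1 {F : G → G → X0 L V ρ} (hF : F ∈ X1 L D (coind L V ρ))
    (h0 : ∀ i g₀ g₁, ρ (c i)⁻¹ ((F g₀ g₁ : G → A) (c i)) = 0) : F = 0 := by
  funext g₀ g₁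
  refine eq_zero_of_forall hex _ fun i d hd => ?_
  have h1 := congrArg (fun Φ : X0 L V ρ => (Φ : G → A) (c i)) (hF.1 d hd g₀ g₁)
  simp only [coind_apply_coe] at h1
  rw [← h1]
  exact eq_zero_of_rho_inv (h0 i _ _)

theorem inj2 {F : G → G → G → X0 L V ρ} (hF : F ∈ X2 L D (coind L V ρ))
    (h0 : ∀ i g₀ g₁ g₂, ρ (c i)⁻¹ ((F g₀ g₁ g₂ : G → A) (c i)) = 0) : F = 0 := by
  funext g₀ g₁ g₂
  refine eq_zero_of_forall hex _ fun i d hd => ?_
  have h1 := congrArg (fun Φ : X0 L V ρ => (Φ : G → A) (c i)) (hF.1 d hd g₀ g₁ g₂)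
  simp only [coind_apply_coe] at h1
  rw [← h1]
  exact eq_zero_of_rho_inv (h0 i _ _ _)

theorem inj3 {F : G → G → G → G → X0 L V ρ} (hF : F ∈ X3 L D (coind L V ρ))
    (h0 : ∀ i g₀ g₁ g₂ g₃, ρ (c i)⁻¹ ((F g₀ g₁ g₂ g₃ : G → A) (c i)) = 0) : F = 0 := by
  funext g₀ g₁ g₂ g₃
  refine eq_zero_of_forall hex _ fun i d hd => ?_
  have h1 := congrArg (fun Φ : X0 L V ρ => (Φ : G → A) (c i)) (hF.1 d hd g₀ g₁ g₂ g₃)
  simp only [coind_apply_coe] at h1
  rw [← h1]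
  exact eq_zero_of_rho_inv (h0 i _ _ _ _)

end inj

/-! ### surjectivity -/

section surj

variable [Finite I] (hV : L.IsOpen V) (hρ : IsSmoothRep L ρ)
  (hex : ∀ g : G, ∃ i, ∃ v ∈ V, ∃ d ∈ D, g = v * c i * d)
  (huniq : ∀ i j, ∀ v ∈ V, ∀ d ∈ D, c j = v * c i * d → i = j)
  {W : I → Subgroup G} (hW : ∀ i w, w ∈ D → c i * w * (c i)⁻¹ ∈ V → w ∈ W i)

include hV hρ hex huniq hW

theorem surj0 (f : I → G → A) (hf : ∀ i, f i ∈ X0 L (W i) ρ) :
    ∃ F ∈ X0 L D (coind L V ρ), ∀ i g₀, ρ (c i)⁻¹ ((F g₀ : G → A) (c i)) = f i g₀ := by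
  have hf' : ∀ i, ∀ w ∈ W i, ∀ y : G, f i (w • y) = ρ w (f i y) :=
    fun i w hw y => (hf i).1 w hw y
  have hfix : ∀ y : G, ∃ W' ∈ L, ∀ i (t : G), ∀ u ∈ W', ρ u (f i (t • y)) = f i (t • y) := by
    intro y
    have h1 : ∀ i, Smooth0 L (fun t => f i (t • y)) := by
      intro i
      obtain ⟨U, hU, hs⟩ := (hf i).2
      refine ⟨U, hU, fun t u hu => ?_⟩
      have e : ∀ g : G, t * u * g = t * g * (g⁻¹ * u * g) := fun g => by group
      simp only [smul_eq_mul, e]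
      exact hs _ _ (conj_mem hU hu _)
    choose Wi hWi hfixi using fun i => exists_level_fix hρ (h1 i)
    obtain ⟨W', hW', hle⟩ := exists_level_le L Wi hWi
    exact ⟨W', hW', fun i t u hu => hfixi i t u (hle i hu)⟩
  refine ⟨fun g₀ => ⟨core hex ρ f g₀, core_mem_X0 hex huniq hW hf' hV _ (hfix _)⟩, ⟨?_, ?_⟩, ?_⟩
  · intro d hd g₀
    ext x
    exact core_smul hex huniq hW hf' g₀ hd x
  · choose Ui hUi hsi using fun i => (hf i).2
    obtain ⟨U, hU, hle⟩ := exists_level_le L Ui hUi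
    refine ⟨U, hU, fun g₀ u₀ h₀ => ?_⟩
    ext x
    obtain ⟨i, v, hv, d, hd, hx⟩ := hex x
    show core hex ρ f (g₀ * u₀) x = core hex ρ f g₀ x
    rw [core_eq hex huniq hW hf' _ hv hd hx, core_eq hex huniq hW hf' _ hv hd hx]
    simp only [smul_eq_mul, ← mul_assoc]
    rw [hsi i _ _ (hle i h₀)]
  · intro i g₀
    show ρ (c i)⁻¹ (core hex ρ f g₀ (c i)) = _
    rw [core_apply_rep hex huniq hW hf', rho_inv_rho]

theorem surj1 (f : I → G → G → A) (hf : ∀ i, f i ∈ X1 L (W i) ρ) :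
    ∃ F ∈ X1 L D (coind L V ρ), ∀ i g₀ g₁, ρ (c i)⁻¹ ((F g₀ g₁ : G → A) (c i)) = f i g₀ g₁ := by
  set f' : I → G × G → A := fun i y => f i y.1 y.2 with hf'def
  have hf' : ∀ i, ∀ w ∈ W i, ∀ y : G × G, f' i (w • y) = ρ w (f' i y) :=
    fun i w hw y => (hf i).1 w hw y.1 y.2
  have hfix : ∀ y : G × G, ∃ W' ∈ L, ∀ i (t : G), ∀ u ∈ W', ρ u (f' i (t • y)) = f' i (t • y) := by
    intro y
    have h1 : ∀ i, Smooth0 L (fun t => f' i (t • y)) := by
      intro i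
      obtain ⟨U, hU, hs⟩ := (hf i).2
      refine ⟨U, hU, fun t u hu => ?_⟩
      have e : ∀ g : G, t * u * g = t * g * (g⁻¹ * u * g) := fun g => by group
      simp only [hf'def, Prod.smul_fst, Prod.smul_snd, smul_eq_mul, e]
      exact hs _ _ _ (conj_mem hU hu _) _ (conj_mem hU hu _)
    choose Wi hWi hfixi using fun i => exists_level_fix hρ (h1 i)
    obtain ⟨W', hW', hle⟩ := exists_level_le L Wi hWi
    exact ⟨W', hW', fun i t u hu => hfixi i t u (hle i hu)⟩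
  refine ⟨fun g₀ g₁ => ⟨core hex ρ f' (g₀, g₁), core_mem_X0 hex huniq hW hf' hV _ (hfix _)⟩,
    ⟨?_, ?_⟩, ?_⟩
  · intro d hd g₀ g₁
    ext x
    exact core_smul hex huniq hW hf' (g₀, g₁) hd x
  · choose Ui hUi hsi using fun i => (hf i).2
    obtain ⟨U, hU, hle⟩ := exists_level_le L Ui hUi
    refine ⟨U, hU, fun g₀ g₁ u₀ h₀ u₁ h₁ => ?_⟩
    ext x
    obtain ⟨i, v, hv, d, hd, hx⟩ := hex x
    show core hex ρ f' (g₀ * u₀, g₁ * u₁) x = core hex ρ f' (g₀, g₁) x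
    rw [core_eq hex huniq hW hf' _ hv hd hx, core_eq hex huniq hW hf' _ hv hd hx]
    simp only [hf'def, Prod.smul_mk, smul_eq_mul, ← mul_assoc]
    rw [hsi i _ _ _ (hle i h₀) _ (hle i h₁)]
  · intro i g₀ g₁
    show ρ (c i)⁻¹ (core hex ρ f' (g₀, g₁) (c i)) = _
    rw [core_apply_rep hex huniq hW hf', rho_inv_rho]

theorem surj2 (f : I → G → G → G → A) (hf : ∀ i, f i ∈ X2 L (W i) ρ) :
    ∃ F ∈ X2 L D (coind L V ρ),
      ∀ i g₀ g₁ g₂, ρ (c i)⁻¹ ((F g₀ g₁ g₂ : G → A) (c i)) = f i g₀ g₁ g₂ := by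
  set f' : I → G × G × G → A := fun i y => f i y.1 y.2.1 y.2.2 with hf'def
  have hf' : ∀ i, ∀ w ∈ W i, ∀ y : G × G × G, f' i (w • y) = ρ w (f' i y) :=
    fun i w hw y => (hf i).1 w hw y.1 y.2.1 y.2.2
  have hfix : ∀ y : G × G × G, ∃ W' ∈ L, ∀ i (t : G), ∀ u ∈ W', ρ u (f' i (t • y)) = f' i (t • y) := by
    intro y
    have h1 : ∀ i, Smooth0 L (fun t => f' i (t • y)) := by
      intro i
      obtain ⟨U, hU, hs⟩ := (hf i).2
      refine ⟨U, hU, fun t u hu => ?_⟩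
      have e : ∀ g : G, t * u * g = t * g * (g⁻¹ * u * g) := fun g => by group
      simp only [hf'def, Prod.smul_fst, Prod.smul_snd, smul_eq_mul, e]
      exact hs _ _ _ _ (conj_mem hU hu _) _ (conj_mem hU hu _) _ (conj_mem hU hu _)
    choose Wi hWi hfixi using fun i => exists_level_fix hρ (h1 i)
    obtain ⟨W', hW', hle⟩ := exists_level_le L Wi hWi
    exact ⟨W', hW', fun i t u hu => hfixi i t u (hle i hu)⟩
  refine ⟨fun g₀ g₁ g₂ => ⟨core hex ρ f' (g₀, g₁, g₂),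
    core_mem_X0 hex huniq hW hf' hV _ (hfix _)⟩, ⟨?_, ?_⟩, ?_⟩
  · intro d hd g₀ g₁ g₂
    ext x
    exact core_smul hex huniq hW hf' (g₀, g₁, g₂) hd x
  · choose Ui hUi hsi using fun i => (hf i).2
    obtain ⟨U, hU, hle⟩ := exists_level_le L Ui hUi
    refine ⟨U, hU, fun g₀ g₁ g₂ u₀ h₀ u₁ h₁ u₂ h₂ => ?_⟩
    ext x
    obtain ⟨i, v, hv, d, hd, hx⟩ := hex x
    show core hex ρ f' (g₀ * u₀, g₁ * u₁, g₂ * u₂) x = core hex ρ f' (g₀, g₁, g₂) x
    rw [core_eq hex huniq hW hf' _ hv hd hx, core_eq hex huniq hW hf' _ hv hd hx]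
    simp only [hf'def, Prod.smul_mk, smul_eq_mul, ← mul_assoc]
    rw [hsi i _ _ _ _ (hle i h₀) _ (hle i h₁) _ (hle i h₂)]
  · intro i g₀ g₁ g₂
    show ρ (c i)⁻¹ (core hex ρ f' (g₀, g₁, g₂) (c i)) = _
    rw [core_apply_rep hex huniq hW hf', rho_inv_rho]

end surj

end Mackey

end Fermat.Agent.PT

end
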