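import Fermat.Agent.PT.Coh.Cores
import Fermat.Agent.PT.Coh.IsoCrit
import Fermat.Agent.PT.Coh.Coind
import Fermat.Agent.PT.Coh.FamIso
import Fermat.Agent.PT.Coh.MackeyCore

/-!
# S55, block F1 (e): Shapiro's lemma and the Mackey decomposition (isomorphisms of complexes)

`coind L V ρ` is the representation of `G` on `X0 L V ρ` by right translation (`Coh/Coind.lean`).
* Shapiro: `X_n L ⊤ (coind L V ρ) ≅ X_n L V ρ`, `F ↦ (g ↦ F g 1)`, inverse `f ↦ (g ↦ x ↦ f (x g))`.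
  More generally for any `D`: `X_n L D (coind L V ρ) → X_n L (D ⊓ c⁻¹ V c) ρ`, `F ↦ (g ↦ ρ c⁻¹ (F g c))`,
  and the product over representatives `c` of `V \ G / D` is an isomorphism (Mackey).
-/

set_option autoImplicit false

noncomputable section

namespace Fermat.Agent.PT

variable {k : Type*} [CommRing k] {G : Type*} [Group G] {A : Type*} [AddCommGroup A] [Module k A]
variable (L : LevelSystem G) (V : Subgroup G) (ρ : Representation k G A)

/-- `F ↦ ρ c⁻¹ (F c)`. -/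
def coindEvAt (c : G) : X0 L V ρ →ₗ[k] A where
  toFun F := ρ c⁻¹ ((F : G → A) c)
  map_add' _ _ := by simp
  map_smul' _ _ := by simp

@[simp] lemma coindEvAt_apply (c : G) (F : X0 L V ρ) :
    coindEvAt L V ρ c F = ρ c⁻¹ ((F : G → A) c) := rfl

/-- `c⁻¹ V c`. -/
def conjSub (V : Subgroup G) (c : G) : Subgroup G := V.map (MulAut.conj c⁻¹).toMonoidHom

lemma mem_conjSub {V : Subgroup G} {c g : G} : g ∈ conjSub V c ↔ c * g * c⁻¹ ∈ V := by
  unfold conjSub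
  rw [Subgroup.mem_map]
  constructor
  · rintro ⟨x, hx, rfl⟩
    have : c * (MulAut.conj c⁻¹).toMonoidHom x * c⁻¹ = x := by
      simp [MulAut.conj_apply, mul_assoc]
    rwa [this]
  · intro h
    refine ⟨c * g * c⁻¹, h, ?_⟩
    simp [MulAut.conj_apply, mul_assoc]

lemma coindEvAt_equivariant (c : G) (w : G) (hw : w ∈ conjSub V c) (F : X0 L V ρ) :
    coindEvAt L V ρ c (coind L V ρ w F) = ρ w (coindEvAt L V ρ c F) := by
  have h := F.2.1 (c * w * c⁻¹) (mem_conjSub.mp hw) c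
  have e : c * w * c⁻¹ * c = c * w := by group
  rw [e] at h
  simp only [coindEvAt_apply, coind_apply_coe, h]
  rw [← Module.End.mul_apply, ← map_mul, ← Module.End.mul_apply, ← map_mul]
  congr 2
  group

lemma isPair_mackey (D : Subgroup G) (c : G) :
    IsPair (MonoidHom.id G) (coindEvAt L V ρ c) L D (coind L V ρ) L (D ⊓ conjSub V c) ρ where
  cont U hU := by rw [Subgroup.comap_id]; exact LevelSystem.isOpen_of_mem hU
  map_mem _ hv := hv.1
  equiv w hw F := coindEvAt_equivariant L V ρ c w hw.2 F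

/-- The `c`-component of the Mackey decomposition. -/
def mackeyC (D : Subgroup G) (c : G) : CMap L D (coind L V ρ) L (D ⊓ conjSub V c) ρ :=
  pairC (isPair_mackey L V ρ D c)

lemma isPair_shapiro :
    IsPair (MonoidHom.id G) (coindEv L V ρ) L ⊤ (coind L V ρ) L V ρ where
  cont U hU := by rw [Subgroup.comap_id]; exact LevelSystem.isOpen_of_mem hU
  map_mem _ _ := trivial
  equiv v hv F := coindEv_equivariant L V ρ v hv F

/-- The Shapiro map `F ↦ (g ↦ F g 1)`. -/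
def shapiroC : CMap L ⊤ (coind L V ρ) L V ρ := pairC (isPair_shapiro L V ρ)

/-! ### Task Shapiro-A -/

lemma shapiro_key0 {F : G → X0 L V ρ} (hF : F ∈ X0 L ⊤ (coind L V ρ)) (g₀ x : G) :
    (F g₀ : G → A) x = (F (x * g₀) : G → A) 1 := by
  rw [hF.1 x trivial g₀]
  simp

lemma shapiro_key1 {F : G → G → X0 L V ρ} (hF : F ∈ X1 L ⊤ (coind L V ρ)) (g₀ g₁ x : G) :
    (F g₀ g₁ : G → A) x = (F (x * g₀) (x * g₁) : G → A) 1 := by
  rw [hF.1 x trivial g₀ g₁]
  simp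

lemma shapiro_key2 {F : G → G → G → X0 L V ρ} (hF : F ∈ X2 L ⊤ (coind L V ρ)) (g₀ g₁ g₂ x : G) :
    (F g₀ g₁ g₂ : G → A) x = (F (x * g₀) (x * g₁) (x * g₂) : G → A) 1 := by
  rw [hF.1 x trivial g₀ g₁ g₂]
  simp

lemma shapiro_key3 {F : G → G → G → G → X0 L V ρ} (hF : F ∈ X3 L ⊤ (coind L V ρ))
    (g₀ g₁ g₂ g₃ x : G) :
    (F g₀ g₁ g₂ g₃ : G → A) x = (F (x * g₀) (x * g₁) (x * g₂) (x * g₃) : G → A) 1 := by
  rw [hF.1 x trivial g₀ g₁ g₂ g₃]
  simp

omit [AddCommGroup A] in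
lemma shapiro_conj_eq (x u g : G) : x * u * g = x * g * (g⁻¹ * u * g) := by group

lemma shapiro_conj_mem {U : Subgroup G} (hn : U.Normal) {u : G} (hu : u ∈ U) (g : G) :
    g⁻¹ * u * g ∈ U := by
  have := hn.conj_mem u hu g⁻¹
  simpa using this

/-- Shapiro's lemma, as an isomorphism of complexes (no hypothesis on `V` or `ρ`). -/
theorem shapiroC_isIso : (shapiroC L V ρ).IsIso where
  inj0 F hF h := by
    funext g₀
    ext x
    rw [shapiro_key0 L V ρ hF]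
    exact congrFun h (x * g₀)
  inj1 F hF h := by
    funext g₀ g₁
    ext x
    rw [shapiro_key1 L V ρ hF]
    exact congrFun (congrFun h (x * g₀)) (x * g₁)
  inj2 F hF h := by
    funext g₀ g₁ g₂
    ext x
    rw [shapiro_key2 L V ρ hF]
    exact congrFun (congrFun (congrFun h (x * g₀)) (x * g₁)) (x * g₂)
  inj3 F hF h := by
    funext g₀ g₁ g₂ g₃
    ext x
    rw [shapiro_key3 L V ρ hF]
    exact congrFun (congrFun (congrFun (congrFun h (x * g₀)) (x * g₁)) (x * g₂)) (x * g₃)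
  surj0 f hf := by
    obtain ⟨he, U, hU, hs⟩ := hf
    have hn := L.normal' U hU
    refine ⟨fun g₀ => ⟨fun x => f (x * g₀), fun v hv x => ?_, U, hU, fun x u hu => ?_⟩,
      ⟨fun v _ g₀ => ?_, U, hU, fun g₀ u₀ h₀ => ?_⟩, ?_⟩
    · simp only [mul_assoc]
      exact he v hv _
    · beta_reduce
      rw [shapiro_conj_eq x u g₀]
      exact hs _ _ (shapiro_conj_mem hn hu g₀)
    · ext x
      simp [mul_assoc]
    · ext x
      simp only [← mul_assoc]
      exact hs _ _ h₀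
    · funext g₀
      simp [shapiroC, pairC]
  surj1 f hf := by
    obtain ⟨he, U, hU, hs⟩ := hf
    have hn := L.normal' U hU
    refine ⟨fun g₀ g₁ => ⟨fun x => f (x * g₀) (x * g₁), fun v hv x => ?_, U, hU,
      fun x u hu => ?_⟩, ⟨fun v _ g₀ g₁ => ?_, U, hU, fun g₀ g₁ u₀ h₀ u₁ h₁ => ?_⟩, ?_⟩
    · simp only [mul_assoc]
      exact he v hv _ _
    · beta_reduce
      rw [shapiro_conj_eq x u g₀, shapiro_conj_eq x u g₁]
      exact hs _ _ _ (shapiro_conj_mem hn hu g₀) _ (shapiro_conj_mem hn hu g₁)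
    · ext x
      simp [mul_assoc]
    · ext x
      simp only [← mul_assoc]
      exact hs _ _ _ h₀ _ h₁
    · funext g₀ g₁
      simp [shapiroC, pairC]
  surj2 f hf := by
    obtain ⟨he, U, hU, hs⟩ := hf
    have hn := L.normal' U hU
    refine ⟨fun g₀ g₁ g₂ => ⟨fun x => f (x * g₀) (x * g₁) (x * g₂), fun v hv x => ?_, U, hU,
      fun x u hu => ?_⟩, ⟨fun v _ g₀ g₁ g₂ => ?_, U, hU,
        fun g₀ g₁ g₂ u₀ h₀ u₁ h₁ u₂ h₂ => ?_⟩, ?_⟩
    · simp only [mul_assoc]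
      exact he v hv _ _ _
    · beta_reduce
      rw [shapiro_conj_eq x u g₀, shapiro_conj_eq x u g₁, shapiro_conj_eq x u g₂]
      exact hs _ _ _ _ (shapiro_conj_mem hn hu g₀) _ (shapiro_conj_mem hn hu g₁) _
        (shapiro_conj_mem hn hu g₂)
    · ext x
      simp [mul_assoc]
    · ext x
      simp only [← mul_assoc]
      exact hs _ _ _ _ h₀ _ h₁ _ h₂
    · funext g₀ g₁ g₂
      simp [shapiroC, pairC]
  surj3 f hf := by
    obtain ⟨he, U, hU, hs⟩ := hf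
    have hn := L.normal' U hU
    refine ⟨fun g₀ g₁ g₂ g₃ => ⟨fun x => f (x * g₀) (x * g₁) (x * g₂) (x * g₃),
      fun v hv x => ?_, U, hU, fun x u hu => ?_⟩, ⟨fun v _ g₀ g₁ g₂ g₃ => ?_, U, hU,
        fun g₀ g₁ g₂ g₃ u₀ h₀ u₁ h₁ u₂ h₂ u₃ h₃ => ?_⟩, ?_⟩
    · simp only [mul_assoc]
      exact he v hv _ _ _ _
    · beta_reduce
      rw [shapiro_conj_eq x u g₀, shapiro_conj_eq x u g₁, shapiro_conj_eq x u g₂,
        shapiro_conj_eq x u g₃]
      exact hs _ _ _ _ _ (shapiro_conj_mem hn hu g₀) _ (shapiro_conj_mem hn hu g₁) _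
        (shapiro_conj_mem hn hu g₂) _ (shapiro_conj_mem hn hu g₃)
    · ext x
      simp [mul_assoc]
    · ext x
      simp only [← mul_assoc]
      exact hs _ _ _ _ _ h₀ _ h₁ _ h₂ _ h₃
    · funext g₀ g₁ g₂ g₃
      simp [shapiroC, pairC]
  refl3 F hF h := by
    funext g₀ g₁ g₂ g₃ g₄
    ext x
    have h' := congrFun (congrFun (congrFun (congrFun (congrFun h (x * g₀)) (x * g₁)) (x * g₂))
      (x * g₃)) (x * g₄)
    simp only [shapiroC, pairC, d3_apply, pp3_apply, MonoidHom.id_apply, coindEv_apply,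
      Pi.zero_apply] at h'
    simp only [d3_apply, Pi.zero_apply, Submodule.coe_add, Submodule.coe_sub, Pi.add_apply,
      Pi.sub_apply, Submodule.coe_zero]
    rw [shapiro_key3 L V ρ hF g₁, shapiro_key3 L V ρ hF g₀ g₂, shapiro_key3 L V ρ hF g₀ g₁ g₃,
      shapiro_key3 L V ρ hF g₀ g₁ g₂ g₄, shapiro_key3 L V ρ hF g₀ g₁ g₂ g₃]
    exact h'

theorem shapiro_bijective_H0 : Function.Bijective (shapiroC L V ρ).H0 :=
  (shapiroC_isIso L V ρ).bijective_H0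
theorem shapiro_bijective_H1 : Function.Bijective (shapiroC L V ρ).H1 :=
  (shapiroC_isIso L V ρ).bijective_H1
theorem shapiro_bijective_H2 : Function.Bijective (shapiroC L V ρ).H2 :=
  (shapiroC_isIso L V ρ).bijective_H2
theorem shapiro_bijective_H3 : Function.Bijective (shapiroC L V ρ).H3 :=
  (shapiroC_isIso L V ρ).bijective_H3

/-- `Shapiro ∘ (A → coind)_* = res`. -/
theorem shapiro_coindConst_H2 (hρ : IsSmoothRep L ρ) (x : H2 L ⊤ ρ) :
    (shapiroC L V ρ).H2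
      ((mapC L ⊤ (fun v _ a => coindConst_mem_EHom L V ρ hρ v a)).H2 x) =
      (resC L ρ (le_top : V ≤ ⊤)).H2 x := by
  obtain ⟨z, rfl⟩ := H2.mk_surjective L ⊤ ρ x
  rw [CMap.H2_mk, CMap.H2_mk, CMap.H2_mk]
  congr 1
  apply Subtype.ext
  funext g₀ g₁ g₂
  simp [shapiroC, mapC, resC, pairC]

theorem shapiro_coindConst_H1 (hρ : IsSmoothRep L ρ) (x : H1 L ⊤ ρ) :
    (shapiroC L V ρ).H1
      ((mapC L ⊤ (fun v _ a => coindConst_mem_EHom L V ρ hρ v a)).H1 x) =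
      (resC L ρ (le_top : V ≤ ⊤)).H1 x := by
  obtain ⟨z, rfl⟩ := H1.mk_surjective L ⊤ ρ x
  rw [CMap.H1_mk, CMap.H1_mk, CMap.H1_mk]
  congr 1
  apply Subtype.ext
  funext g₀ g₁
  simp [shapiroC, mapC, resC, pairC]

theorem shapiro_coindConst_H3 (hρ : IsSmoothRep L ρ) (x : H3 L ⊤ ρ) :
    (shapiroC L V ρ).H3
      ((mapC L ⊤ (fun v _ a => coindConst_mem_EHom L V ρ hρ v a)).H3 x) =
      (resC L ρ (le_top : V ≤ ⊤)).H3 x := by
  obtain ⟨z, rfl⟩ := H3.mk_surjective L ⊤ ρ x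
  rw [CMap.H3_mk, CMap.H3_mk, CMap.H3_mk]
  congr 1
  apply Subtype.ext
  funext g₀ g₁ g₂ g₃
  simp [shapiroC, mapC, resC, pairC]

/-! ### Task Shapiro-B: the trace `coind → A` and corestriction -/

/-- The trace `coind L V ρ → A`, `F ↦ ∑_{c ∈ G / V} ρ c (F c⁻¹)` (finite index). -/
def coindTrace [Finite (CosetsIn (⊤ : Subgroup G) V)] : X0 L V ρ →ₗ[k] A :=
  letI := Fintype.ofFinite (CosetsIn (⊤ : Subgroup G) V)
  ∑ q : CosetsIn (⊤ : Subgroup G) V, coindEvAt L V ρ q.rep⁻¹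

lemma shapiro_coindTrace_apply [Finite (CosetsIn (⊤ : Subgroup G) V)]
    [Fintype (CosetsIn (⊤ : Subgroup G) V)] (F : X0 L V ρ) :
    coindTrace L V ρ F =
      ∑ q : CosetsIn (⊤ : Subgroup G) V, ρ q.rep ((F : G → A) q.rep⁻¹) := by
  unfold coindTrace
  rw [LinearMap.sum_apply]
  simp only [coindEvAt_apply, inv_inv]
  exact Finset.sum_congr (by ext; simp) (fun _ _ => rfl)

lemma shapiro_cor0_apply [Finite (CosetsIn (⊤ : Subgroup G) V)]
    [Fintype (CosetsIn (⊤ : Subgroup G) V)] (f : G → A) (g₀ : G) :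
    cor0 ρ ⊤ V f g₀ = ∑ q : CosetsIn (⊤ : Subgroup G) V, ρ q.rep (f (q.rep⁻¹ * g₀)) := by
  unfold cor0
  rw [LinearMap.sum_apply, Finset.sum_apply]
  simp only [tw0_apply]
  exact Finset.sum_congr (by ext; simp) (fun _ _ => rfl)

lemma shapiro_cor1_apply [Finite (CosetsIn (⊤ : Subgroup G) V)]
    [Fintype (CosetsIn (⊤ : Subgroup G) V)] (f : G → G → A) (g₀ g₁ : G) :
    cor1 ρ ⊤ V f g₀ g₁ =
      ∑ q : CosetsIn (⊤ : Subgroup G) V, ρ q.rep (f (q.rep⁻¹ * g₀) (q.rep⁻¹ * g₁)) := by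
  unfold cor1
  rw [LinearMap.sum_apply, Finset.sum_apply, Finset.sum_apply]
  simp only [tw1_apply]
  exact Finset.sum_congr (by ext; simp) (fun _ _ => rfl)

lemma shapiro_cor2_apply [Finite (CosetsIn (⊤ : Subgroup G) V)]
    [Fintype (CosetsIn (⊤ : Subgroup G) V)] (f : G → G → G → A) (g₀ g₁ g₂ : G) :
    cor2 ρ ⊤ V f g₀ g₁ g₂ =
      ∑ q : CosetsIn (⊤ : Subgroup G) V,
        ρ q.rep (f (q.rep⁻¹ * g₀) (q.rep⁻¹ * g₁) (q.rep⁻¹ * g₂)) := by
  unfold cor2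
  rw [LinearMap.sum_apply, Finset.sum_apply, Finset.sum_apply, Finset.sum_apply]
  simp only [tw2_apply]
  exact Finset.sum_congr (by ext; simp) (fun _ _ => rfl)

lemma shapiro_cor3_apply [Finite (CosetsIn (⊤ : Subgroup G) V)]
    [Fintype (CosetsIn (⊤ : Subgroup G) V)] (f : G → G → G → G → A) (g₀ g₁ g₂ g₃ : G) :
    cor3 ρ ⊤ V f g₀ g₁ g₂ g₃ =
      ∑ q : CosetsIn (⊤ : Subgroup G) V,
        ρ q.rep (f (q.rep⁻¹ * g₀) (q.rep⁻¹ * g₁) (q.rep⁻¹ * g₂) (q.rep⁻¹ * g₃)) := by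
  unfold cor3
  rw [LinearMap.sum_apply, Finset.sum_apply, Finset.sum_apply, Finset.sum_apply,
    Finset.sum_apply]
  simp only [tw3_apply]
  exact Finset.sum_congr (by ext; simp) (fun _ _ => rfl)

lemma shapiro_coindTrace_coind [Finite (CosetsIn (⊤ : Subgroup G) V)] (g : G) (F : X0 L V ρ) :
    coindTrace L V ρ (coind L V ρ g F) = cor0 ρ ⊤ V (F : G → A) g := by
  letI := Fintype.ofFinite (CosetsIn (⊤ : Subgroup G) V)
  rw [shapiro_coindTrace_apply, shapiro_cor0_apply]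
  simp only [coind_apply_coe]

theorem coindTrace_mem_EHom [Finite (CosetsIn (⊤ : Subgroup G) V)] :
    coindTrace L V ρ ∈ EHom (coind L V ρ) ρ := by
  intro g F
  have hmem : cor0 ρ ⊤ V (F : G → A) ∈ X0 L ⊤ ρ := cor0_mem F.2
  have h1 := hmem.1 g trivial 1
  rw [mul_one] at h1
  rw [shapiro_coindTrace_coind, h1, ← shapiro_coindTrace_coind, map_one]
  rfl

theorem coindTrace_coindConst [Finite (CosetsIn (⊤ : Subgroup G) V)] (hρ : IsSmoothRep L ρ)
    (a : A) : coindTrace L V ρ (coindConst L V ρ hρ a) = V.index • a := by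
  letI := Fintype.ofFinite (CosetsIn (⊤ : Subgroup G) V)
  rw [shapiro_coindTrace_apply]
  have h : ∀ q : CosetsIn (⊤ : Subgroup G) V,
      ρ q.rep ((coindConst L V ρ hρ a : G → A) q.rep⁻¹) = a := by
    intro q
    rw [coindConst_apply_coe, ← Module.End.mul_apply, ← map_mul, mul_inv_cancel, map_one]
    rfl
  simp only [h, Finset.sum_const, Finset.card_univ]
  congr 1
  rw [← Nat.card_eq_fintype_card, ← Subgroup.relIndex_top_right V]
  rfl

/-- `(trace)_* = cores ∘ Shapiro`. -/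
theorem coindTrace_H2 [Finite (CosetsIn (⊤ : Subgroup G) V)] (x : H2 L ⊤ (coind L V ρ)) :
    (mapC L ⊤ (fun v _ a => coindTrace_mem_EHom L V ρ v a)).H2 x =
      (coresC L ρ ⊤ V).H2 ((shapiroC L V ρ).H2 x) := by
  letI := Fintype.ofFinite (CosetsIn (⊤ : Subgroup G) V)
  obtain ⟨z, rfl⟩ := H2.mk_surjective L ⊤ (coind L V ρ) x
  rw [CMap.H2_mk, CMap.H2_mk, CMap.H2_mk]
  congr 1
  apply Subtype.ext
  funext g₀ g₁ g₂
  simp only [CMap.coe_Z2, mapC, coresC, shapiroC, pairC, pp2_apply, MonoidHom.id_apply]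
  rw [shapiro_coindTrace_apply, shapiro_cor2_apply]
  refine Finset.sum_congr rfl fun q _ => ?_
  rw [shapiro_key2 L V ρ z.2.1 g₀ g₁ g₂ q.rep⁻¹]
  rfl

theorem coindTrace_H1 [Finite (CosetsIn (⊤ : Subgroup G) V)] (x : H1 L ⊤ (coind L V ρ)) :
    (mapC L ⊤ (fun v _ a => coindTrace_mem_EHom L V ρ v a)).H1 x =
      (coresC L ρ ⊤ V).H1 ((shapiroC L V ρ).H1 x) := by
  letI := Fintype.ofFinite (CosetsIn (⊤ : Subgroup G) V)
  obtain ⟨z, rfl⟩ := H1.mk_surjective L ⊤ (coind L V ρ) x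
  rw [CMap.H1_mk, CMap.H1_mk, CMap.H1_mk]
  congr 1
  apply Subtype.ext
  funext g₀ g₁
  simp only [CMap.coe_Z1, mapC, coresC, shapiroC, pairC, pp1_apply, MonoidHom.id_apply]
  rw [shapiro_coindTrace_apply, shapiro_cor1_apply]
  refine Finset.sum_congr rfl fun q _ => ?_
  rw [shapiro_key1 L V ρ z.2.1 g₀ g₁ q.rep⁻¹]
  rfl

theorem coindTrace_H3 [Finite (CosetsIn (⊤ : Subgroup G) V)] (x : H3 L ⊤ (coind L V ρ)) :
    (mapC L ⊤ (fun v _ a => coindTrace_mem_EHom L V ρ v a)).H3 x =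
      (coresC L ρ ⊤ V).H3 ((shapiroC L V ρ).H3 x) := by
  letI := Fintype.ofFinite (CosetsIn (⊤ : Subgroup G) V)
  obtain ⟨z, rfl⟩ := H3.mk_surjective L ⊤ (coind L V ρ) x
  rw [CMap.H3_mk, CMap.H3_mk, CMap.H3_mk]
  congr 1
  apply Subtype.ext
  funext g₀ g₁ g₂ g₃
  simp only [CMap.coe_Z3, mapC, coresC, shapiroC, pairC, pp3_apply, MonoidHom.id_apply]
  rw [shapiro_coindTrace_apply, shapiro_cor3_apply]
  refine Finset.sum_congr rfl fun q _ => ?_
  rw [shapiro_key3 L V ρ z.2.1 g₀ g₁ g₂ g₃ q.rep⁻¹]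
  rfl

/-! ### Task Shapiro-C: Mackey

Inverse: `F g (v * c i * d) = ρ (v * c i) (f i (d g))`; `V` open and `ρ` smooth are needed for the
smoothness of `x ↦ F g x` (`F g (x u) = ρ (x u x⁻¹) (F g x)` for `u` in a level contained in `V`, and
`F g` takes finitely many values up to the action of `V`). -/

/-- `c : I → G` represents the double cosets `V \ G / D`. -/
def IsMackeyReps {I : Type*} (V D : Subgroup G) (c : I → G) : Prop :=
  (∀ g : G, ∃ i, ∃ v ∈ V, ∃ d ∈ D, g = v * c i * d) ∧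
    ∀ i j, ∀ v ∈ V, ∀ d ∈ D, c j = v * c i * d → i = j

/-- The Mackey maps are jointly an isomorphism of complexes. -/
theorem mackey_famIsIso (hV : L.IsOpen V) (hρ : IsSmoothRep L ρ) (D : Subgroup G)
    {I : Type*} [Finite I] {c : I → G} (hc : IsMackeyReps V D c) :
    FamIsIso (fun i : I => mackeyC L V ρ D (c i)) := by
  obtain ⟨hex, huniq⟩ := hc
  have hW : ∀ i w, w ∈ D → c i * w * (c i)⁻¹ ∈ V → w ∈ D ⊓ conjSub V (c i) :=
    fun i w hw h => ⟨hw, mem_conjSub.mpr h⟩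
  refine ⟨?_, ?_, ?_, ?_, ?_, ?_, ?_⟩
  · exact fun F hF h => Mackey.inj0 hex hF fun i g₀ => congrFun (h i) g₀
  · exact fun F hF h => Mackey.inj1 hex hF fun i g₀ g₁ => congrFun (congrFun (h i) g₀) g₁
  · exact fun F hF h => Mackey.inj2 hex hF fun i g₀ g₁ g₂ =>
      congrFun (congrFun (congrFun (h i) g₀) g₁) g₂
  · exact fun F hF h => Mackey.inj3 hex hF fun i g₀ g₁ g₂ g₃ =>
      congrFun (congrFun (congrFun (congrFun (h i) g₀) g₁) g₂) g₃
  · intro f hf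
    obtain ⟨F, hF, h⟩ := Mackey.surj0 hV hρ hex huniq hW f hf
    exact ⟨F, hF, fun i => by funext g₀; exact h i g₀⟩
  · intro f hf
    obtain ⟨F, hF, h⟩ := Mackey.surj1 hV hρ hex huniq hW f hf
    exact ⟨F, hF, fun i => by funext g₀ g₁; exact h i g₀ g₁⟩
  · intro f hf
    obtain ⟨F, hF, h⟩ := Mackey.surj2 hV hρ hex huniq hW f hf
    exact ⟨F, hF, fun i => by funext g₀ g₁ g₂; exact h i g₀ g₁ g₂⟩

theorem mackey_bijective_H0 (hV : L.IsOpen V) (hρ : IsSmoothRep L ρ) (D : Subgroup G)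
    {I : Type*} [Finite I] {c : I → G} (hc : IsMackeyReps V D c) :
    Function.Bijective (fun (x : H0 L D (coind L V ρ)) (i : I) => (mackeyC L V ρ D (c i)).H0 x) :=
  (mackey_famIsIso L V ρ hV hρ D hc).bijective_H0

theorem mackey_bijective_H1 (hV : L.IsOpen V) (hρ : IsSmoothRep L ρ) (D : Subgroup G)
    {I : Type*} [Finite I] {c : I → G} (hc : IsMackeyReps V D c) :
    Function.Bijective (fun (x : H1 L D (coind L V ρ)) (i : I) => (mackeyC L V ρ D (c i)).H1 x) :=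
  (mackey_famIsIso L V ρ hV hρ D hc).bijective_H1

theorem mackey_bijective_H2 (hV : L.IsOpen V) (hρ : IsSmoothRep L ρ) (D : Subgroup G)
    {I : Type*} [Finite I] {c : I → G} (hc : IsMackeyReps V D c) :
    Function.Bijective (fun (x : H2 L D (coind L V ρ)) (i : I) => (mackeyC L V ρ D (c i)).H2 x) :=
  (mackey_famIsIso L V ρ hV hρ D hc).bijective_H2

/-- Compatibility: the `c`-component of `res_D` of a global class is `tw c⁻¹` of its Shapiro image
restricted to `D ⊓ c⁻¹ V c`. -/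
theorem mackey_res_H2 (D : Subgroup G) (c : G) (x : H2 L ⊤ (coind L V ρ)) :
    (mackeyC L V ρ D c).H2 ((resC L (coind L V ρ) (le_top : D ≤ ⊤)).H2 x) =
      (twC L ρ (V := V) (W := D ⊓ conjSub V c) c⁻¹
        (fun w hw => by simpa using mem_conjSub.mp hw.2)).H2 ((shapiroC L V ρ).H2 x) := by
  obtain ⟨z, rfl⟩ := H2.mk_surjective _ _ _ x
  refine congrArg (H2.mk L (D ⊓ conjSub V c) ρ) (Subtype.ext ?_)
  funext g₀ g₁ g₂
  have h1 := congrArg (fun Φ : X0 L V ρ => (Φ : G → A) 1)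
    (z.2.1.1 c (Subgroup.mem_top c) g₀ g₁ g₂)
  simp only [coind_apply_coe, one_mul] at h1
  show ρ c⁻¹ (((z : G → G → G → X0 L V ρ) g₀ g₁ g₂ : G → A) c) =
    ρ c⁻¹ (((z : G → G → G → X0 L V ρ) (c⁻¹⁻¹ * g₀) (c⁻¹⁻¹ * g₁) (c⁻¹⁻¹ * g₂) : G → A) 1)
  rw [inv_inv, h1]

theorem mackey_res_H1 (D : Subgroup G) (c : G) (x : H1 L ⊤ (coind L V ρ)) :
    (mackeyC L V ρ D c).H1 ((resC L (coind L V ρ) (le_top : D ≤ ⊤)).H1 x) =
      (twC L ρ (V := V) (W := D ⊓ conjSub V c) c⁻¹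
        (fun w hw => by simpa using mem_conjSub.mp hw.2)).H1 ((shapiroC L V ρ).H1 x) := by
  obtain ⟨z, rfl⟩ := H1.mk_surjective _ _ _ x
  refine congrArg (H1.mk L (D ⊓ conjSub V c) ρ) (Subtype.ext ?_)
  funext g₀ g₁
  have h1 := congrArg (fun Φ : X0 L V ρ => (Φ : G → A) 1)
    (z.2.1.1 c (Subgroup.mem_top c) g₀ g₁)
  simp only [coind_apply_coe, one_mul] at h1
  show ρ c⁻¹ (((z : G → G → X0 L V ρ) g₀ g₁ : G → A) c) =
    ρ c⁻¹ (((z : G → G → X0 L V ρ) (c⁻¹⁻¹ * g₀) (c⁻¹⁻¹ * g₁) : G → A) 1)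
  rw [inv_inv, h1]

end Fermat.Agent.PT

end
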