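import Fermat.Agent.PT.Coh.ChainMap

/-!
# S55, block F1: the chain map of a compatible pair

`pairC ι φ` for `ι : G' →* G` ("continuous": the preimage of a level of `L` is `L'`-open,
`ι V' ≤ V`) and `φ : A →ₗ[k] A'` with `φ (ρ (ι g) a) = ρ' g (φ a)` for `g ∈ V'`:
`(T f)(g₀, .., gₙ) = φ (f (ι g₀, .., ι gₙ))`.
Special cases: coefficients `mapC`, restriction `resC`, inflation `inflC`, pull-back `pullC`.
-/

set_option autoImplicit false

namespace Fermat.Agent.PT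

variable {k : Type*} [CommRing k]
variable {G G' G'' : Type*} [Group G] [Group G'] [Group G'']
variable {A A' A'' : Type*} [AddCommGroup A] [Module k A] [AddCommGroup A'] [Module k A']
  [AddCommGroup A''] [Module k A'']

section total

variable (ι : G' →* G) (φ : A →ₗ[k] A')

/-- pull-push of functions of one variable -/
def pp0 : (G → A) →ₗ[k] (G' → A') where
  toFun f := fun g₀ => φ (f (ι g₀))
  map_add' f f' := by funext g₀; simp
  map_smul' c f := by funext g₀; simp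

/-- pull-push of functions of two variables -/
def pp1 : (G → G → A) →ₗ[k] (G' → G' → A') where
  toFun f := fun g₀ g₁ => φ (f (ι g₀) (ι g₁))
  map_add' f f' := by funext g₀ g₁; simp
  map_smul' c f := by funext g₀ g₁; simp

/-- pull-push of functions of three variables -/
def pp2 : (G → G → G → A) →ₗ[k] (G' → G' → G' → A') where
  toFun f := fun g₀ g₁ g₂ => φ (f (ι g₀) (ι g₁) (ι g₂))
  map_add' f f' := by funext g₀ g₁ g₂; simp
  map_smul' c f := by funext g₀ g₁ g₂; simp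

/-- pull-push of functions of four variables -/
def pp3 : (G → G → G → G → A) →ₗ[k] (G' → G' → G' → G' → A') where
  toFun f := fun g₀ g₁ g₂ g₃ => φ (f (ι g₀) (ι g₁) (ι g₂) (ι g₃))
  map_add' f f' := by funext g₀ g₁ g₂ g₃; simp
  map_smul' c f := by funext g₀ g₁ g₂ g₃; simp

/-- pull-push of functions of five variables -/
def pp4 : (G → G → G → G → G → A) →ₗ[k] (G' → G' → G' → G' → G' → A') where
  toFun f := fun g₀ g₁ g₂ g₃ g₄ => φ (f (ι g₀) (ι g₁) (ι g₂) (ι g₃) (ι g₄))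
  map_add' f f' := by funext g₀ g₁ g₂ g₃ g₄; simp
  map_smul' c f := by funext g₀ g₁ g₂ g₃ g₄; simp

@[simp] lemma pp0_apply (f : G → A) (g₀ : G') : pp0 ι φ f g₀ = φ (f (ι g₀)) := rfl
@[simp] lemma pp1_apply (f : G → G → A) (g₀ g₁ : G') :
    pp1 ι φ f g₀ g₁ = φ (f (ι g₀) (ι g₁)) := rfl
@[simp] lemma pp2_apply (f : G → G → G → A) (g₀ g₁ g₂ : G') :
    pp2 ι φ f g₀ g₁ g₂ = φ (f (ι g₀) (ι g₁) (ι g₂)) := rfl
@[simp] lemma pp3_apply (f : G → G → G → G → A) (g₀ g₁ g₂ g₃ : G') :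
    pp3 ι φ f g₀ g₁ g₂ g₃ = φ (f (ι g₀) (ι g₁) (ι g₂) (ι g₃)) := rfl
@[simp] lemma pp4_apply (f : G → G → G → G → G → A) (g₀ g₁ g₂ g₃ g₄ : G') :
    pp4 ι φ f g₀ g₁ g₂ g₃ g₄ = φ (f (ι g₀) (ι g₁) (ι g₂) (ι g₃) (ι g₄)) := rfl

lemma d0_pp0 (f : G → A) : d0 (k := k) (pp0 ι φ f) = pp1 ι φ (d0 (k := k) f) := by
  funext g₀ g₁; simp
lemma d1_pp1 (f : G → G → A) : d1 (k := k) (pp1 ι φ f) = pp2 ι φ (d1 (k := k) f) := by
  funext g₀ g₁ g₂; simp
lemma d2_pp2 (f : G → G → G → A) : d2 (k := k) (pp2 ι φ f) = pp3 ι φ (d2 (k := k) f) := by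
  funext g₀ g₁ g₂ g₃; simp
lemma d3_pp3 (f : G → G → G → G → A) : d3 (k := k) (pp3 ι φ f) = pp4 ι φ (d3 (k := k) f) := by
  funext g₀ g₁ g₂ g₃ g₄; simp

end total

/-- The hypotheses making `(ι, φ)` a compatible pair. -/
structure IsPair (ι : G' →* G) (φ : A →ₗ[k] A') (L : LevelSystem G) (V : Subgroup G)
    (ρ : Representation k G A) (L' : LevelSystem G') (V' : Subgroup G')
    (ρ' : Representation k G' A') : Prop where
  cont : ∀ U ∈ L, L'.IsOpen (U.comap ι)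
  map_mem : ∀ v ∈ V', ι v ∈ V
  equiv : ∀ v ∈ V', ∀ a, φ (ρ (ι v) a) = ρ' v (φ a)

/-- The chain map of a compatible pair. -/
def pairC {ι : G' →* G} {φ : A →ₗ[k] A'} {L : LevelSystem G} {V : Subgroup G}
    {ρ : Representation k G A} {L' : LevelSystem G'} {V' : Subgroup G'}
    {ρ' : Representation k G' A'} (h : IsPair ι φ L V ρ L' V' ρ') : CMap L V ρ L' V' ρ' where
  T0 := pp0 ι φ
  T1 := pp1 ι φ
  T2 := pp2 ι φ
  T3 := pp3 ι φ
  mem0 := by
    rintro f ⟨he, U, hU, hs⟩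
    obtain ⟨W, hW, hWU⟩ := h.cont U hU
    exact ⟨fun v hv g₀ => by simp [he _ (h.map_mem v hv), h.equiv v hv], W, hW,
      fun g₀ u₀ h₀ => by simp [hs _ _ (hWU h₀)]⟩
  mem1 := by
    rintro f ⟨he, U, hU, hs⟩
    obtain ⟨W, hW, hWU⟩ := h.cont U hU
    exact ⟨fun v hv g₀ g₁ => by simp [he _ (h.map_mem v hv), h.equiv v hv], W, hW,
      fun g₀ g₁ u₀ h₀ u₁ h₁ => by simp [hs _ _ _ (hWU h₀) _ (hWU h₁)]⟩
  mem2 := by
    rintro f ⟨he, U, hU, hs⟩
    obtain ⟨W, hW, hWU⟩ := h.cont U hU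
    exact ⟨fun v hv g₀ g₁ g₂ => by simp [he _ (h.map_mem v hv), h.equiv v hv], W, hW,
      fun g₀ g₁ g₂ u₀ h₀ u₁ h₁ u₂ h₂ => by simp [hs _ _ _ _ (hWU h₀) _ (hWU h₁) _ (hWU h₂)]⟩
  mem3 := by
    rintro f ⟨he, U, hU, hs⟩
    obtain ⟨W, hW, hWU⟩ := h.cont U hU
    exact ⟨fun v hv g₀ g₁ g₂ g₃ => by simp [he _ (h.map_mem v hv), h.equiv v hv], W, hW,
      fun g₀ g₁ g₂ g₃ u₀ h₀ u₁ h₁ u₂ h₂ u₃ h₃ => by
        simp [hs _ _ _ _ _ (hWU h₀) _ (hWU h₁) _ (hWU h₂) _ (hWU h₃)]⟩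
  comm0 f _ := d0_pp0 ι φ f
  comm1 f _ := d1_pp1 ι φ f
  comm2 f _ := d2_pp2 ι φ f
  comm3 f hf := by
    rw [d3_pp3, (mem_Z3.mp hf).2]
    funext g₀ g₁ g₂ g₃ g₄
    simp

section special

variable (L : LevelSystem G) (V : Subgroup G) {ρ : Representation k G A}
  {σ : Representation k G A'}

lemma LevelSystem.isOpen_of_mem {L : LevelSystem G} {U : Subgroup G} (hU : U ∈ L) : L.IsOpen U :=
  ⟨U, hU, le_rfl⟩

/-- Coefficient maps which are equivariant for `V`. -/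
lemma isPair_map {φ : A →ₗ[k] A'} (hφ : ∀ v ∈ V, ∀ a, φ (ρ v a) = σ v (φ a)) :
    IsPair (MonoidHom.id G) φ L V ρ L V σ where
  cont U hU := by rw [Subgroup.comap_id]; exact LevelSystem.isOpen_of_mem hU
  map_mem _ hv := hv
  equiv := hφ

/-- The chain map induced by a `V`-equivariant map of coefficients. -/
def mapC {φ : A →ₗ[k] A'} (hφ : ∀ v ∈ V, ∀ a, φ (ρ v a) = σ v (φ a)) : CMap L V ρ L V σ :=
  pairC (isPair_map L V hφ)

variable (ρ)

lemma isPair_res {V V' : Subgroup G} (h : V' ≤ V) :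
    IsPair (MonoidHom.id G) (LinearMap.id : A →ₗ[k] A) L V ρ L V' ρ where
  cont U hU := by rw [Subgroup.comap_id]; exact LevelSystem.isOpen_of_mem hU
  map_mem _ hv := h hv
  equiv _ _ _ := rfl

/-- Restriction from `V` to `V' ≤ V` (the inclusion of complexes). -/
def resC {V V' : Subgroup G} (h : V' ≤ V) : CMap L V ρ L V' ρ := pairC (isPair_res L ρ h)

lemma isPair_infl {L L' : LevelSystem G} (h : ∀ U ∈ L, L'.IsOpen U) :
    IsPair (MonoidHom.id G) (LinearMap.id : A →ₗ[k] A) L V ρ L' V ρ where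
  cont U hU := by rw [Subgroup.comap_id]; exact h U hU
  map_mem _ hv := hv
  equiv _ _ _ := rfl

/-- Inflation from the level system `L` to a finer one `L'` (the inclusion of complexes). -/
def inflC {L L' : LevelSystem G} (h : ∀ U ∈ L, L'.IsOpen U) : CMap L V ρ L' V ρ :=
  pairC (isPair_infl V ρ h)

lemma isPair_pull (ι : G' →* G) (V' : Subgroup G') :
    IsPair ι (LinearMap.id : A →ₗ[k] A) L (V'.map ι) ρ (L.comap ι) V' (ρ.comp ι) where
  cont U hU := ⟨U.comap ι, ⟨U, hU, rfl⟩, le_rfl⟩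
  map_mem _ hv := Subgroup.mem_map_of_mem ι hv
  equiv _ _ _ := rfl

/-- Pull-back of functions along `ι : G' →* G` (change of the ambient group). -/
def pullC (ι : G' →* G) (V' : Subgroup G') :
    CMap L (V'.map ι) ρ (L.comap ι) V' (ρ.comp ι) :=
  pairC (isPair_pull L ρ ι V')

end special

end Fermat.Agent.PT
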