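import Fermat.Agent.PT.Coh.Defs

/-!
# S55, block F1: generic chain maps between the truncated complexes `X0 → X1 → X2 → X3`

A `CMap L V ρ L' V' ρ'` consists of `k`-linear maps `T0 .. T3` defined on ALL functions
`G^(n+1) → A`, sending `X_n L V ρ` into `X_n L' V' ρ'`, commuting with the differentials on `X_n`
and sending `Z3` into `Z3`.  It induces linear maps `H0 .. H3`.
All functorialities (coefficients, restriction, inflation, pull-back, conjugation, corestriction,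
Shapiro, Mackey, change of ambient group) are instances.
-/

set_option autoImplicit false

namespace Fermat.Agent.PT

variable {k : Type*} [CommRing k]
variable {G G' G'' : Type*} [Group G] [Group G'] [Group G'']
variable {A A' A'' : Type*} [AddCommGroup A] [Module k A] [AddCommGroup A'] [Module k A']
  [AddCommGroup A''] [Module k A'']

/-- A morphism of truncated cochain complexes. -/
structure CMap (L : LevelSystem G) (V : Subgroup G) (ρ : Representation k G A)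
    (L' : LevelSystem G') (V' : Subgroup G') (ρ' : Representation k G' A') where
  T0 : (G → A) →ₗ[k] (G' → A')
  T1 : (G → G → A) →ₗ[k] (G' → G' → A')
  T2 : (G → G → G → A) →ₗ[k] (G' → G' → G' → A')
  T3 : (G → G → G → G → A) →ₗ[k] (G' → G' → G' → G' → A')
  mem0 : ∀ f ∈ X0 L V ρ, T0 f ∈ X0 L' V' ρ'
  mem1 : ∀ f ∈ X1 L V ρ, T1 f ∈ X1 L' V' ρ'
  mem2 : ∀ f ∈ X2 L V ρ, T2 f ∈ X2 L' V' ρ'
  mem3 : ∀ f ∈ X3 L V ρ, T3 f ∈ X3 L' V' ρ'
  comm0 : ∀ f ∈ X0 L V ρ, d0 (k := k) (T0 f) = T1 (d0 (k := k) f)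
  comm1 : ∀ f ∈ X1 L V ρ, d1 (k := k) (T1 f) = T2 (d1 (k := k) f)
  comm2 : ∀ f ∈ X2 L V ρ, d2 (k := k) (T2 f) = T3 (d2 (k := k) f)
  comm3 : ∀ f ∈ Z3 L V ρ, d3 (k := k) (T3 f) = 0

namespace CMap

variable {L : LevelSystem G} {V : Subgroup G} {ρ : Representation k G A}
  {L' : LevelSystem G'} {V' : Subgroup G'} {ρ' : Representation k G' A'}
  {L'' : LevelSystem G''} {V'' : Subgroup G''} {ρ'' : Representation k G'' A''}

/-- The identity chain map. -/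
def id (L : LevelSystem G) (V : Subgroup G) (ρ : Representation k G A) : CMap L V ρ L V ρ where
  T0 := LinearMap.id
  T1 := LinearMap.id
  T2 := LinearMap.id
  T3 := LinearMap.id
  mem0 _ h := h
  mem1 _ h := h
  mem2 _ h := h
  mem3 _ h := h
  comm0 _ _ := rfl
  comm1 _ _ := rfl
  comm2 _ _ := rfl
  comm3 _ h := h.2

variable (T : CMap L V ρ L' V' ρ')

theorem memZ0 {f : G → A} (hf : f ∈ Z0 L V ρ) : T.T0 f ∈ Z0 L' V' ρ' :=
  ⟨T.mem0 f hf.1, by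
    show d0 (k := k) (T.T0 f) = 0
    rw [T.comm0 f hf.1, (mem_Z0.mp hf).2, map_zero]⟩

theorem memZ1 {f : G → G → A} (hf : f ∈ Z1 L V ρ) : T.T1 f ∈ Z1 L' V' ρ' :=
  ⟨T.mem1 f hf.1, by
    show d1 (k := k) (T.T1 f) = 0
    rw [T.comm1 f hf.1, (mem_Z1.mp hf).2, map_zero]⟩

theorem memZ2 {f : G → G → G → A} (hf : f ∈ Z2 L V ρ) : T.T2 f ∈ Z2 L' V' ρ' :=
  ⟨T.mem2 f hf.1, by
    show d2 (k := k) (T.T2 f) = 0
    rw [T.comm2 f hf.1, (mem_Z2.mp hf).2, map_zero]⟩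

theorem memZ3 {f : G → G → G → G → A} (hf : f ∈ Z3 L V ρ) : T.T3 f ∈ Z3 L' V' ρ' :=
  ⟨T.mem3 f hf.1, T.comm3 f hf⟩

theorem memB1 {f : G → G → A} (hf : f ∈ B1 L V ρ) : T.T1 f ∈ B1 L' V' ρ' := by
  obtain ⟨e, he, rfl⟩ := hf
  exact ⟨T.T0 e, T.mem0 e he, T.comm0 e he⟩

theorem memB2 {f : G → G → G → A} (hf : f ∈ B2 L V ρ) : T.T2 f ∈ B2 L' V' ρ' := by
  obtain ⟨e, he, rfl⟩ := hf
  exact ⟨T.T1 e, T.mem1 e he, T.comm1 e he⟩

theorem memB3 {f : G → G → G → G → A} (hf : f ∈ B3 L V ρ) : T.T3 f ∈ B3 L' V' ρ' := by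
  obtain ⟨e, he, rfl⟩ := hf
  exact ⟨T.T2 e, T.mem2 e he, T.comm2 e he⟩

/-- Composition of chain maps. -/
def comp (T' : CMap L' V' ρ' L'' V'' ρ'') (T : CMap L V ρ L' V' ρ') : CMap L V ρ L'' V'' ρ'' where
  T0 := T'.T0.comp T.T0
  T1 := T'.T1.comp T.T1
  T2 := T'.T2.comp T.T2
  T3 := T'.T3.comp T.T3
  mem0 f h := T'.mem0 _ (T.mem0 f h)
  mem1 f h := T'.mem1 _ (T.mem1 f h)
  mem2 f h := T'.mem2 _ (T.mem2 f h)
  mem3 f h := T'.mem3 _ (T.mem3 f h)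
  comm0 f h := by
    simp only [LinearMap.comp_apply]; rw [T'.comm0 _ (T.mem0 f h), T.comm0 f h]
  comm1 f h := by
    simp only [LinearMap.comp_apply]; rw [T'.comm1 _ (T.mem1 f h), T.comm1 f h]
  comm2 f h := by
    simp only [LinearMap.comp_apply]; rw [T'.comm2 _ (T.mem2 f h), T.comm2 f h]
  comm3 f h := T'.comm3 _ (T.memZ3 h)

/-- The induced map on `0`-cocycles `= H⁰`. -/
def H0 : H0 L V ρ →ₗ[k] H0 L' V' ρ' := T.T0.restrict fun _ h => T.memZ0 h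

/-- The induced map on `1`-cocycles. -/
def Z1 : Z1 L V ρ →ₗ[k] Z1 L' V' ρ' := T.T1.restrict fun _ h => T.memZ1 h

/-- The induced map on `2`-cocycles. -/
def Z2 : Z2 L V ρ →ₗ[k] Z2 L' V' ρ' := T.T2.restrict fun _ h => T.memZ2 h

/-- The induced map on `3`-cocycles. -/
def Z3 : Z3 L V ρ →ₗ[k] Z3 L' V' ρ' := T.T3.restrict fun _ h => T.memZ3 h

/-- The induced map on `H¹`. -/
def H1 : H1 L V ρ →ₗ[k] H1 L' V' ρ' :=
  Submodule.mapQ _ _ T.Z1 fun _ h => T.memB1 h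

/-- The induced map on `H²`. -/
def H2 : H2 L V ρ →ₗ[k] H2 L' V' ρ' :=
  Submodule.mapQ _ _ T.Z2 fun _ h => T.memB2 h

/-- The induced map on `H³`. -/
def H3 : H3 L V ρ →ₗ[k] H3 L' V' ρ' :=
  Submodule.mapQ _ _ T.Z3 fun _ h => T.memB3 h

@[simp] theorem coe_H0 (z : PT.H0 L V ρ) : (T.H0 z : G' → A') = T.T0 z := rfl
@[simp] theorem coe_Z1 (z : PT.Z1 L V ρ) : (T.Z1 z : G' → G' → A') = T.T1 z := rfl
@[simp] theorem coe_Z2 (z : PT.Z2 L V ρ) : (T.Z2 z : G' → G' → G' → A') = T.T2 z := rfl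
@[simp] theorem coe_Z3 (z : PT.Z3 L V ρ) : (T.Z3 z : G' → G' → G' → G' → A') = T.T3 z := rfl

@[simp] theorem H1_mk (z : PT.Z1 L V ρ) : T.H1 (H1.mk L V ρ z) = H1.mk L' V' ρ' (T.Z1 z) := rfl
@[simp] theorem H2_mk (z : PT.Z2 L V ρ) : T.H2 (H2.mk L V ρ z) = H2.mk L' V' ρ' (T.Z2 z) := rfl
@[simp] theorem H3_mk (z : PT.Z3 L V ρ) : T.H3 (H3.mk L V ρ z) = H3.mk L' V' ρ' (T.Z3 z) := rfl

theorem H0_id : (CMap.id L V ρ).H0 = LinearMap.id := by ext z; rfl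
theorem H1_id : (CMap.id L V ρ).H1 = LinearMap.id := by
  apply LinearMap.ext; intro x; obtain ⟨z, rfl⟩ := H1.mk_surjective L V ρ x; rfl
theorem H2_id : (CMap.id L V ρ).H2 = LinearMap.id := by
  apply LinearMap.ext; intro x; obtain ⟨z, rfl⟩ := H2.mk_surjective L V ρ x; rfl
theorem H3_id : (CMap.id L V ρ).H3 = LinearMap.id := by
  apply LinearMap.ext; intro x; obtain ⟨z, rfl⟩ := H3.mk_surjective L V ρ x; rfl

theorem H0_comp (T' : CMap L' V' ρ' L'' V'' ρ'') : (T'.comp T).H0 = T'.H0.comp T.H0 := by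
  ext z; rfl
theorem H1_comp (T' : CMap L' V' ρ' L'' V'' ρ'') : (T'.comp T).H1 = T'.H1.comp T.H1 := by
  apply LinearMap.ext; intro x; obtain ⟨z, rfl⟩ := H1.mk_surjective L V ρ x; rfl
theorem H2_comp (T' : CMap L' V' ρ' L'' V'' ρ'') : (T'.comp T).H2 = T'.H2.comp T.H2 := by
  apply LinearMap.ext; intro x; obtain ⟨z, rfl⟩ := H2.mk_surjective L V ρ x; rfl
theorem H3_comp (T' : CMap L' V' ρ' L'' V'' ρ'') : (T'.comp T).H3 = T'.H3.comp T.H3 := by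
  apply LinearMap.ext; intro x; obtain ⟨z, rfl⟩ := H3.mk_surjective L V ρ x; rfl

/-! ### Equality of induced maps (homotopies) -/

variable {T} {S : CMap L V ρ L' V' ρ'}

theorem H0_eq (h : ∀ z ∈ PT.Z0 L V ρ, T.T0 z = S.T0 z) : T.H0 = S.H0 := by
  ext z : 1
  exact Subtype.ext (h z z.2)

theorem H1_eq (h : ∀ z ∈ PT.Z1 L V ρ, T.T1 z - S.T1 z ∈ B1 L' V' ρ') : T.H1 = S.H1 := by
  apply LinearMap.ext; intro x; obtain ⟨z, rfl⟩ := H1.mk_surjective L V ρ x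
  rw [H1_mk, H1_mk, ← sub_eq_zero, ← map_sub, H1.mk_eq_zero_iff]
  exact h z z.2

theorem H2_eq (h : ∀ z ∈ PT.Z2 L V ρ, T.T2 z - S.T2 z ∈ B2 L' V' ρ') : T.H2 = S.H2 := by
  apply LinearMap.ext; intro x; obtain ⟨z, rfl⟩ := H2.mk_surjective L V ρ x
  rw [H2_mk, H2_mk, ← sub_eq_zero, ← map_sub, H2.mk_eq_zero_iff]
  exact h z z.2

theorem H3_eq (h : ∀ z ∈ PT.Z3 L V ρ, T.T3 z - S.T3 z ∈ B3 L' V' ρ') : T.H3 = S.H3 := by
  apply LinearMap.ext; intro x; obtain ⟨z, rfl⟩ := H3.mk_surjective L V ρ x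
  rw [H3_mk, H3_mk, ← sub_eq_zero, ← map_sub, H3.mk_eq_zero_iff]
  exact h z z.2

/-- Two chain maps which agree on the cochain modules induce the same maps. -/
theorem H1_congr (h : ∀ z ∈ PT.Z1 L V ρ, T.T1 z = S.T1 z) : T.H1 = S.H1 :=
  H1_eq fun z hz => by rw [h z hz, sub_self]; exact zero_mem _

theorem H2_congr (h : ∀ z ∈ PT.Z2 L V ρ, T.T2 z = S.T2 z) : T.H2 = S.H2 :=
  H2_eq fun z hz => by rw [h z hz, sub_self]; exact zero_mem _

theorem H3_congr (h : ∀ z ∈ PT.Z3 L V ρ, T.T3 z = S.T3 z) : T.H3 = S.H3 :=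
  H3_eq fun z hz => by rw [h z hz, sub_self]; exact zero_mem _

end CMap

/-- A pair of mutually inverse chain maps (inverse on the cochain modules): an isomorphism of
complexes. -/
structure CIso (L : LevelSystem G) (V : Subgroup G) (ρ : Representation k G A)
    (L' : LevelSystem G') (V' : Subgroup G') (ρ' : Representation k G' A') where
  hom : CMap L V ρ L' V' ρ'
  inv : CMap L' V' ρ' L V ρ
  inv_hom0 : ∀ f ∈ X0 L V ρ, inv.T0 (hom.T0 f) = f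
  inv_hom1 : ∀ f ∈ X1 L V ρ, inv.T1 (hom.T1 f) = f
  inv_hom2 : ∀ f ∈ X2 L V ρ, inv.T2 (hom.T2 f) = f
  inv_hom3 : ∀ f ∈ X3 L V ρ, inv.T3 (hom.T3 f) = f
  hom_inv0 : ∀ f ∈ X0 L' V' ρ', hom.T0 (inv.T0 f) = f
  hom_inv1 : ∀ f ∈ X1 L' V' ρ', hom.T1 (inv.T1 f) = f
  hom_inv2 : ∀ f ∈ X2 L' V' ρ', hom.T2 (inv.T2 f) = f
  hom_inv3 : ∀ f ∈ X3 L' V' ρ', hom.T3 (inv.T3 f) = f

namespace CIso

variable {L : LevelSystem G} {V : Subgroup G} {ρ : Representation k G A}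
  {L' : LevelSystem G'} {V' : Subgroup G'} {ρ' : Representation k G' A'}

variable (e : CIso L V ρ L' V' ρ')

/-- The induced isomorphism on `H⁰`. -/
def H0 : PT.H0 L V ρ ≃ₗ[k] PT.H0 L' V' ρ' :=
  LinearEquiv.ofLinearMap e.hom.H0 e.inv.H0
    (by ext z : 1; exact Subtype.ext (e.hom_inv0 z z.2.1))
    (by ext z : 1; exact Subtype.ext (e.inv_hom0 z z.2.1))

/-- The induced isomorphism on `H¹`. -/
def H1 : PT.H1 L V ρ ≃ₗ[k] PT.H1 L' V' ρ' :=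
  LinearEquiv.ofLinearMap e.hom.H1 e.inv.H1
    (by
      apply LinearMap.ext; intro x; obtain ⟨z, rfl⟩ := H1.mk_surjective L' V' ρ' x
      exact congrArg (H1.mk L' V' ρ') (Subtype.ext (e.hom_inv1 z z.2.1)))
    (by
      apply LinearMap.ext; intro x; obtain ⟨z, rfl⟩ := H1.mk_surjective L V ρ x
      exact congrArg (H1.mk L V ρ) (Subtype.ext (e.inv_hom1 z z.2.1)))

/-- The induced isomorphism on `H²`. -/
def H2 : PT.H2 L V ρ ≃ₗ[k] PT.H2 L' V' ρ' :=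
  LinearEquiv.ofLinearMap e.hom.H2 e.inv.H2
    (by
      apply LinearMap.ext; intro x; obtain ⟨z, rfl⟩ := H2.mk_surjective L' V' ρ' x
      exact congrArg (H2.mk L' V' ρ') (Subtype.ext (e.hom_inv2 z z.2.1)))
    (by
      apply LinearMap.ext; intro x; obtain ⟨z, rfl⟩ := H2.mk_surjective L V ρ x
      exact congrArg (H2.mk L V ρ) (Subtype.ext (e.inv_hom2 z z.2.1)))

/-- The induced isomorphism on `H³`. -/
def H3 : PT.H3 L V ρ ≃ₗ[k] PT.H3 L' V' ρ' :=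
  LinearEquiv.ofLinearMap e.hom.H3 e.inv.H3
    (by
      apply LinearMap.ext; intro x; obtain ⟨z, rfl⟩ := H3.mk_surjective L' V' ρ' x
      exact congrArg (H3.mk L' V' ρ') (Subtype.ext (e.hom_inv3 z z.2.1)))
    (by
      apply LinearMap.ext; intro x; obtain ⟨z, rfl⟩ := H3.mk_surjective L V ρ x
      exact congrArg (H3.mk L V ρ) (Subtype.ext (e.inv_hom3 z z.2.1)))

@[simp] theorem H0_apply (x : PT.H0 L V ρ) : e.H0 x = e.hom.H0 x := rfl
@[simp] theorem H1_apply (x : PT.H1 L V ρ) : e.H1 x = e.hom.H1 x := rfl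
@[simp] theorem H2_apply (x : PT.H2 L V ρ) : e.H2 x = e.hom.H2 x := rfl
@[simp] theorem H3_apply (x : PT.H3 L V ρ) : e.H3 x = e.hom.H3 x := rfl

end CIso

end Fermat.Agent.PT
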