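import Fermat.Agent.PT.Coh.Inh
import Fermat.Agent.PT.Coh.Pair

/-!
# S55, block F1 (b): `H⁰ = A^V`, and the dictionary homogeneous (`V = ⊤`) ↔ inhomogeneous

`c g = f 1 g`, `c (g, h) = f 1 g (g * h)`; conversely `f g₀ g₁ = ρ g₀ (c (g₀⁻¹ g₁))`,
`f g₀ g₁ g₂ = ρ g₀ (c (g₀⁻¹ g₁, g₁⁻¹ g₂))`.
-/

set_option autoImplicit false

namespace Fermat.Agent.PT

variable {k G A : Type*} [CommRing k] [Group G] [AddCommGroup A] [Module k A]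

/-- The `V`-invariants of `ρ`. -/
def invOf (V : Subgroup G) (ρ : Representation k G A) : Submodule k A where
  carrier := {a | ∀ v ∈ V, ρ v a = a}
  add_mem' := by intro a b ha hb v hv; simp [ha v hv, hb v hv]
  zero_mem' := by intro v _; simp
  smul_mem' := by intro c a ha v hv; simp [ha v hv]

lemma mem_invOf {V : Subgroup G} {ρ : Representation k G A} {a : A} :
    a ∈ invOf V ρ ↔ ∀ v ∈ V, ρ v a = a := Iff.rfl

variable (L : LevelSystem G) (V : Subgroup G) (ρ : Representation k G A)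

/-! ### Task Dict-A: `H⁰` -/

lemma eval_one_mem_invOf {f : G → A} (hf : f ∈ Z0 L V ρ) : f 1 ∈ invOf V ρ := by
  obtain ⟨⟨he, -⟩, hd⟩ := hf
  intro v hv
  have h1 := he v hv 1
  have h2 := congrFun (congrFun hd 1) (v * 1)
  simp only [d0_apply, Pi.zero_apply] at h2
  rw [← h1, sub_eq_zero.mp h2]

lemma const_mem_Z0 {a : A} (ha : a ∈ invOf V ρ) : (fun _ : G => a) ∈ Z0 L V ρ := by
  obtain ⟨U, hU⟩ := L.nonempty'
  refine ⟨⟨fun v hv g₀ => (ha v hv).symm, U, hU, fun _ _ _ => rfl⟩, ?_⟩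
  show d0 (k := k) (fun _ : G => a) = 0
  funext g₀ g₁
  simp

lemma eq_const_of_mem_Z0 {f : G → A} (hf : f ∈ Z0 L V ρ) : f = fun _ => f 1 := by
  obtain ⟨-, hd⟩ := hf
  funext g
  have h2 := congrFun (congrFun hd 1) g
  simp only [d0_apply, Pi.zero_apply] at h2
  exact sub_eq_zero.mp h2

/-- `H⁰(V, A) ≃ A^V`, `f ↦ f 1`. -/
def H0equiv : H0 L V ρ ≃ₗ[k] invOf V ρ where
  toFun f := ⟨(f : G → A) 1, eval_one_mem_invOf L V ρ f.2⟩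
  map_add' _ _ := rfl
  map_smul' _ _ := rfl
  invFun a := ⟨fun _ => a, const_mem_Z0 L V ρ a.2⟩
  left_inv f := Subtype.ext (eq_const_of_mem_Z0 L V ρ f.2).symm
  right_inv _ := rfl

@[simp] lemma coe_H0equiv (f : H0 L V ρ) : (H0equiv L V ρ f : A) = (f : G → A) 1 := rfl

@[simp] lemma coe_H0equiv_symm (a : invOf V ρ) (g : G) :
    ((H0equiv L V ρ).symm a : G → A) g = a := rfl

/-! ### The dictionary maps -/

def toInh1 : (G → G → A) →ₗ[k] (G → A) where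
  toFun f := fun g => f 1 g
  map_add' _ _ := rfl
  map_smul' _ _ := rfl

def toInh2 : (G → G → G → A) →ₗ[k] (G × G → A) where
  toFun f := fun p => f 1 p.1 (p.1 * p.2)
  map_add' _ _ := rfl
  map_smul' _ _ := rfl

def ofInh1 : (G → A) →ₗ[k] (G → G → A) where
  toFun c := fun g₀ g₁ => ρ g₀ (c (g₀⁻¹ * g₁))
  map_add' c c' := by funext g₀ g₁; simp
  map_smul' a c := by funext g₀ g₁; simp

def ofInh2 : (G × G → A) →ₗ[k] (G → G → G → A) where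
  toFun c := fun g₀ g₁ g₂ => ρ g₀ (c (g₀⁻¹ * g₁, g₁⁻¹ * g₂))
  map_add' c c' := by funext g₀ g₁ g₂; simp
  map_smul' a c := by funext g₀ g₁ g₂; simp

@[simp] lemma toInh1_apply (f : G → G → A) (g : G) : toInh1 (k := k) f g = f 1 g := rfl
@[simp] lemma toInh2_apply (f : G → G → G → A) (g h : G) :
    toInh2 (k := k) f (g, h) = f 1 g (g * h) := rfl
@[simp] lemma ofInh1_apply (c : G → A) (g₀ g₁ : G) :
    ofInh1 ρ c g₀ g₁ = ρ g₀ (c (g₀⁻¹ * g₁)) := rfl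
@[simp] lemma ofInh2_apply (c : G × G → A) (g₀ g₁ g₂ : G) :
    ofInh2 ρ c g₀ g₁ g₂ = ρ g₀ (c (g₀⁻¹ * g₁, g₁⁻¹ * g₂)) := rfl

variable {L ρ}

/-! ### Task Dict-B: homogeneous → inhomogeneous -/

lemma toInh1_mem_Z1 {f : G → G → A} (hf : f ∈ Z1 L ⊤ ρ) : toInh1 (k := k) f ∈ Inh.Z1 L ρ := by
  obtain ⟨⟨he, U, hU, hs⟩, hd⟩ := hf
  rw [Inh.mem_Z1]
  refine ⟨⟨U, hU, fun g s hs' => ?_⟩, fun g h => ?_⟩
  · have := hs 1 g 1 U.one_mem s hs'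
    simpa using this
  · have h1 := congrFun (congrFun (congrFun hd 1) g) (g * h)
    simp only [d1_apply, Pi.zero_apply] at h1
    have h2 := he g (Subgroup.mem_top g) 1 h
    rw [mul_one] at h2
    rw [h2] at h1
    simp only [toInh1_apply]
    have h3 : f 1 (g * h) = ρ g (f 1 h) + f 1 g - (ρ g (f 1 h) - f 1 (g * h) + f 1 g) := by abel
    rw [h3, h1, sub_zero]

lemma toInh1_mem_B1 {f : G → G → A} (hf : f ∈ B1 L ⊤ ρ) : toInh1 (k := k) f ∈ Inh.B1 ρ := by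
  obtain ⟨e, ⟨he, -⟩, rfl⟩ := hf
  rw [Inh.mem_B1]
  refine ⟨e 1, fun g => ?_⟩
  have h2 := he g (Subgroup.mem_top g) 1
  rw [mul_one] at h2
  simp [h2]

lemma toInh2_mem_Z2 {f : G → G → G → A} (hf : f ∈ Z2 L ⊤ ρ) :
    toInh2 (k := k) f ∈ Inh.Z2 L ρ := by
  obtain ⟨⟨he, U, hU, hs⟩, hd⟩ := hf
  have hn := L.normal' U hU
  rw [Inh.mem_Z2]
  refine ⟨⟨U, hU, fun g g' s s' hs1 hs2 => ?_⟩, fun g h j => ?_⟩
  · have hmem : g'⁻¹ * s * g' * s' ∈ U := by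
      refine U.mul_mem ?_ hs2
      have := hn.conj_mem s hs1 g'⁻¹
      simpa using this
    have := hs 1 g (g * g') 1 U.one_mem s hs1 (g'⁻¹ * s * g' * s') hmem
    simp only [toInh2_apply]
    rw [mul_one] at this
    rw [← this]
    congr 1
    group
  · have h1 := congrFun (congrFun (congrFun (congrFun hd 1) g) (g * h)) (g * h * j)
    simp only [d2_apply, Pi.zero_apply] at h1
    have h2 := he g (Subgroup.mem_top g) 1 h (h * j)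
    rw [mul_one, ← mul_assoc] at h2
    rw [h2] at h1
    simp only [toInh2_apply]
    rw [← mul_assoc]
    have h3 : f 1 (g * h) (g * h * j) + f 1 g (g * h) =
        ρ g (f 1 h (h * j)) + f 1 g (g * h * j) -
          (ρ g (f 1 h (h * j)) - f 1 (g * h) (g * h * j) + f 1 g (g * h * j) - f 1 g (g * h)) := by
      abel
    rw [h3, h1, sub_zero]

lemma toInh2_mem_B2 {f : G → G → G → A} (hf : f ∈ B2 L ⊤ ρ) :
    toInh2 (k := k) f ∈ Inh.B2 L ρ := by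
  obtain ⟨e, ⟨he, U, hU, hs⟩, rfl⟩ := hf
  rw [Inh.mem_B2]
  refine ⟨toInh1 (k := k) e, ⟨U, hU, fun g s hs' => ?_⟩, ?_⟩
  · have := hs 1 g 1 U.one_mem s hs'
    simpa using this
  · funext ⟨g, h⟩
    have h2 := he g (Subgroup.mem_top g) 1 h
    rw [mul_one] at h2
    simp [h2]

lemma ofInh1_toInh1 {f : G → G → A} (hf : f ∈ X1 L ⊤ ρ) : ofInh1 ρ (toInh1 (k := k) f) = f := by
  obtain ⟨he, -⟩ := hf
  funext g₀ g₁
  have h2 := he g₀ (Subgroup.mem_top g₀) 1 (g₀⁻¹ * g₁)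
  simp only [ofInh1_apply, toInh1_apply]
  rw [← h2]
  simp

lemma ofInh2_toInh2 {f : G → G → G → A} (hf : f ∈ X2 L ⊤ ρ) :
    ofInh2 ρ (toInh2 (k := k) f) = f := by
  obtain ⟨he, -⟩ := hf
  funext g₀ g₁ g₂
  have h2 := he g₀ (Subgroup.mem_top g₀) 1 (g₀⁻¹ * g₁) (g₀⁻¹ * g₁ * (g₁⁻¹ * g₂))
  simp only [ofInh2_apply, toInh2_apply]
  rw [← h2]
  simp [mul_assoc]

lemma toInh1_ofInh1 (c : G → A) : toInh1 (k := k) (ofInh1 ρ c) = c := by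
  funext g
  simp

lemma toInh2_ofInh2 (c : G × G → A) : toInh2 (k := k) (ofInh2 ρ c) = c := by
  funext ⟨g, h⟩
  simp

/-! ### Task Dict-C: inhomogeneous → homogeneous (needs `ρ` smooth; uses that levels are normal of
finite index, so a level-constant function takes finitely many values) -/

/-- a finite set of vectors is fixed by a small level. -/
lemma Dict_exists_level (hρ : IsSmoothRep L ρ) {s : Set A} (hs : s.Finite) {U : Subgroup G}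
    (hU : U ∈ L) : ∃ W ∈ L, W ≤ U ∧ ∀ a ∈ s, ∀ w ∈ W, ρ w a = a := by
  induction s, hs using Set.Finite.induction_on with
  | empty => exact ⟨U, hU, le_rfl, fun a ha => absurd ha (Set.notMem_empty a)⟩
  | insert _ _ ih =>
    rename_i a s _ _
    obtain ⟨W, hW, hWU, hfix⟩ := ih
    obtain ⟨U', hU', hfix'⟩ := hρ a
    obtain ⟨W', hW', h1, h2⟩ := L.directed' W hW U' hU'
    refine ⟨W', hW', h1.trans hWU, ?_⟩
    intro b hb w hw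
    rcases Set.mem_insert_iff.1 hb with rfl | hb
    · exact hfix' w (h2 hw)
    · exact hfix b hb w (h1 hw)

lemma Dict_range_finite1 {U : Subgroup G} (hU : U ∈ L) {c : G → A}
    (h : ∀ g s : G, s ∈ U → c (g * s) = c g) : (Set.range c).Finite := by
  have := L.finiteIndex' U hU
  have hfin : Finite (G ⧸ U) := Subgroup.finite_quotient_of_finiteIndex
  let c' : G ⧸ U → A := fun q => c q.out
  have hsub : Set.range c ⊆ Set.range c' := by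
    rintro _ ⟨g, rfl⟩
    refine ⟨(g : G ⧸ U), ?_⟩
    obtain ⟨u, hu⟩ := QuotientGroup.mk_out_eq_mul U g
    show c (Quotient.out (g : G ⧸ U)) = c g
    rw [hu]
    exact h g u u.2
  exact (Set.finite_range c').subset hsub

lemma Dict_range_finite2 {U : Subgroup G} (hU : U ∈ L) {c : G × G → A}
    (h : ∀ g g' s s' : G, s ∈ U → s' ∈ U → c (g * s, g' * s') = c (g, g')) :
    (Set.range c).Finite := by
  have := L.finiteIndex' U hU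
  have hfin : Finite (G ⧸ U) := Subgroup.finite_quotient_of_finiteIndex
  let c' : (G ⧸ U) × (G ⧸ U) → A := fun q => c (q.1.out, q.2.out)
  have hsub : Set.range c ⊆ Set.range c' := by
    rintro _ ⟨⟨g, g'⟩, rfl⟩
    refine ⟨((g : G ⧸ U), (g' : G ⧸ U)), ?_⟩
    obtain ⟨u, hu⟩ := QuotientGroup.mk_out_eq_mul U g
    obtain ⟨u', hu'⟩ := QuotientGroup.mk_out_eq_mul U g'
    show c (Quotient.out (g : G ⧸ U), Quotient.out (g' : G ⧸ U)) = c (g, g')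
    rw [hu, hu']
    exact h g g' u u' u.2 u'.2
  exact (Set.finite_range c').subset hsub

/-- two-sided invariance. -/
lemma Dict_two_sided {U : Subgroup G} (hU : U ∈ L) (a u s : G) (hu : u ∈ U) (hs : s ∈ U) :
    ∃ t ∈ U, u * a * s = a * t := by
  have hn := L.normal' U hU
  refine ⟨a⁻¹ * u * a * s, U.mul_mem ?_ hs, by group⟩
  have := hn.conj_mem u hu a⁻¹
  simpa using this

lemma ofInh1_mem_X1 (hρ : IsSmoothRep L ρ) {c : G → A} (hc : Inh.LC1 L c) :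
    ofInh1 ρ c ∈ X1 L ⊤ ρ := by
  obtain ⟨U, hU, h⟩ := hc
  obtain ⟨W, hW, hWU, hfix⟩ := Dict_exists_level hρ (Dict_range_finite1 hU h) hU
  refine ⟨fun v _ g₀ g₁ => ?_, W, hW, fun g₀ g₁ u₀ h₀ u₁ h₁ => ?_⟩
  · simp only [ofInh1_apply, mul_inv_rev, map_mul, Module.End.mul_apply]
    congr 3
    group
  · simp only [ofInh1_apply, map_mul, Module.End.mul_apply]
    obtain ⟨t, ht, hEq⟩ := Dict_two_sided hU (g₀⁻¹ * g₁) u₀⁻¹ u₁ (U.inv_mem (hWU h₀)) (hWU h₁)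
    have h2 : (g₀ * u₀)⁻¹ * (g₁ * u₁) = (g₀⁻¹ * g₁) * t := by rw [← hEq]; group
    rw [h2, h _ t ht, hfix _ ⟨_, rfl⟩ u₀ h₀]

lemma ofInh2_mem_X2 (hρ : IsSmoothRep L ρ) {c : G × G → A} (hc : Inh.LC2 L c) :
    ofInh2 ρ c ∈ X2 L ⊤ ρ := by
  obtain ⟨U, hU, h⟩ := hc
  obtain ⟨W, hW, hWU, hfix⟩ := Dict_exists_level hρ (Dict_range_finite2 hU h) hU
  refine ⟨fun v _ g₀ g₁ g₂ => ?_, W, hW, fun g₀ g₁ g₂ u₀ h₀ u₁ h₁ u₂ h₂ => ?_⟩
  · simp only [ofInh2_apply, map_mul, Module.End.mul_apply]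
    have e1 : (v * g₀)⁻¹ * (v * g₁) = g₀⁻¹ * g₁ := by group
    have e2 : (v * g₁)⁻¹ * (v * g₂) = g₁⁻¹ * g₂ := by group
    rw [e1, e2]
  · simp only [ofInh2_apply, map_mul, Module.End.mul_apply]
    obtain ⟨t, ht, hEq⟩ := Dict_two_sided hU (g₀⁻¹ * g₁) u₀⁻¹ u₁ (U.inv_mem (hWU h₀)) (hWU h₁)
    obtain ⟨t', ht', hEq'⟩ := Dict_two_sided hU (g₁⁻¹ * g₂) u₁⁻¹ u₂ (U.inv_mem (hWU h₁)) (hWU h₂)
    have e1 : (g₀ * u₀)⁻¹ * (g₁ * u₁) = (g₀⁻¹ * g₁) * t := by rw [← hEq]; group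
    have e2 : (g₁ * u₁)⁻¹ * (g₂ * u₂) = (g₁⁻¹ * g₂) * t' := by rw [← hEq']; group
    rw [e1, e2, h _ _ t t' ht ht', hfix _ ⟨_, rfl⟩ u₀ h₀]

lemma ofInh1_mem_Z1 (hρ : IsSmoothRep L ρ) {c : G → A} (hc : c ∈ Inh.Z1 L ρ) :
    ofInh1 ρ c ∈ Z1 L ⊤ ρ := by
  obtain ⟨hlc, hcoc⟩ := Inh.mem_Z1.1 hc
  refine mem_Z1.2 ⟨ofInh1_mem_X1 hρ hlc, ?_⟩
  funext g₀ g₁ g₂
  simp only [d1_apply, ofInh1_apply, Pi.zero_apply]
  have e : g₀⁻¹ * g₂ = (g₀⁻¹ * g₁) * (g₁⁻¹ * g₂) := by group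
  have key := hcoc (g₀⁻¹ * g₁) (g₁⁻¹ * g₂)
  rw [← e] at key
  have key2 := congrArg (ρ g₀) key
  rw [map_add, ← Module.End.mul_apply, ← map_mul] at key2
  have e2 : g₀ * (g₀⁻¹ * g₁) = g₁ := by group
  rw [e2] at key2
  rw [key2]
  abel

lemma ofInh2_mem_Z2 (hρ : IsSmoothRep L ρ) {c : G × G → A} (hc : c ∈ Inh.Z2 L ρ) :
    ofInh2 ρ c ∈ Z2 L ⊤ ρ := by
  obtain ⟨hlc, hcoc⟩ := Inh.mem_Z2.1 hc
  refine mem_Z2.2 ⟨ofInh2_mem_X2 hρ hlc, ?_⟩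
  funext g₀ g₁ g₂ g₃
  simp only [d2_apply, ofInh2_apply, Pi.zero_apply]
  have key := hcoc (g₀⁻¹ * g₁) (g₁⁻¹ * g₂) (g₂⁻¹ * g₃)
  have e1 : g₀⁻¹ * g₁ * (g₁⁻¹ * g₂) = g₀⁻¹ * g₂ := by group
  have e2 : g₁⁻¹ * g₂ * (g₂⁻¹ * g₃) = g₁⁻¹ * g₃ := by group
  rw [e1, e2] at key
  have key2 := congrArg (ρ g₀) key
  rw [map_add, map_add, ← Module.End.mul_apply, ← map_mul] at key2
  have e3 : g₀ * (g₀⁻¹ * g₁) = g₁ := by group
  rw [e3] at key2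
  have : ρ g₁ (c (g₁⁻¹ * g₂, g₂⁻¹ * g₃)) - ρ g₀ (c (g₀⁻¹ * g₂, g₂⁻¹ * g₃)) +
      ρ g₀ (c (g₀⁻¹ * g₁, g₁⁻¹ * g₃)) - ρ g₀ (c (g₀⁻¹ * g₁, g₁⁻¹ * g₂)) =
      (ρ g₁ (c (g₁⁻¹ * g₂, g₂⁻¹ * g₃)) + ρ g₀ (c (g₀⁻¹ * g₁, g₁⁻¹ * g₃))) -
      (ρ g₀ (c (g₀⁻¹ * g₂, g₂⁻¹ * g₃)) + ρ g₀ (c (g₀⁻¹ * g₁, g₁⁻¹ * g₂))) := by abel
  rw [this, key2, sub_self]

lemma ofInh1_mem_B1 (hρ : IsSmoothRep L ρ) {c : G → A} (hc : c ∈ Inh.B1 ρ) :
    ofInh1 ρ c ∈ B1 L ⊤ ρ := by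
  obtain ⟨a, ha⟩ := Inh.mem_B1.1 hc
  obtain ⟨U, hU, hfix⟩ := hρ a
  refine mem_B1.2 ⟨fun g => ρ g a, ⟨fun v _ g₀ => by simp, U, hU, fun g₀ u₀ h₀ => ?_⟩, ?_⟩
  · simp only [map_mul, Module.End.mul_apply, hfix u₀ h₀]
  · funext g₀ g₁
    simp only [d0_apply, ofInh1_apply, ha, map_sub, ← Module.End.mul_apply, ← map_mul]
    have e2 : g₀ * (g₀⁻¹ * g₁) = g₁ := by group
    rw [e2]

lemma ofInh2_mem_B2 (hρ : IsSmoothRep L ρ) {c : G × G → A} (hc : c ∈ Inh.B2 L ρ) :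
    ofInh2 ρ c ∈ B2 L ⊤ ρ := by
  obtain ⟨x, hx, rfl⟩ := Inh.mem_B2.1 hc
  refine mem_B2.2 ⟨ofInh1 ρ x, ofInh1_mem_X1 hρ hx, ?_⟩
  funext g₀ g₁ g₂
  simp only [d1_apply, ofInh1_apply, ofInh2_apply, Inh.d12_apply, map_sub, map_add,
    ← Module.End.mul_apply, ← map_mul]
  have e1 : g₀⁻¹ * g₁ * (g₁⁻¹ * g₂) = g₀⁻¹ * g₂ := by group
  have e3 : g₀ * (g₀⁻¹ * g₁) = g₁ := by group
  rw [e1, e3]

variable (L ρ)

/-- The dictionary on `H¹`. -/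
def dictH1 : H1 L ⊤ ρ →ₗ[k] Inh.H1 L ρ :=
  Submodule.mapQ _ _ ((toInh1 (k := k)).restrict fun _ h => toInh1_mem_Z1 h)
    fun _ h => toInh1_mem_B1 h

/-- The dictionary on `H²`. -/
def dictH2 : H2 L ⊤ ρ →ₗ[k] Inh.H2 L ρ :=
  Submodule.mapQ _ _ ((toInh2 (k := k)).restrict fun _ h => toInh2_mem_Z2 h)
    fun _ h => toInh2_mem_B2 h

lemma dictH1_mk (z : Z1 L ⊤ ρ) :
    dictH1 L ρ (H1.mk L ⊤ ρ z) = Inh.H1mk L ρ ⟨toInh1 (k := k) z, toInh1_mem_Z1 z.2⟩ := rfl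

lemma dictH2_mk (z : Z2 L ⊤ ρ) :
    dictH2 L ρ (H2.mk L ⊤ ρ z) = Inh.H2mk L ρ ⟨toInh2 (k := k) z, toInh2_mem_Z2 z.2⟩ := rfl

/-! ### Task Dict-D -/

theorem dictH1_bijective (hρ : IsSmoothRep L ρ) : Function.Bijective (dictH1 L ρ) := by
  constructor
  · rw [injective_iff_map_eq_zero]
    intro x hx
    obtain ⟨z, rfl⟩ := H1.mk_surjective L ⊤ ρ x
    rw [dictH1_mk, Inh.H1mk_eq_zero_iff] at hx
    rw [H1.mk_eq_zero_iff]
    have := ofInh1_mem_B1 (L := L) hρ hx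
    rwa [ofInh1_toInh1 (mem_Z1.1 z.2).1] at this
  · intro y
    obtain ⟨c, rfl⟩ := Inh.H1mk_surjective y
    refine ⟨H1.mk L ⊤ ρ ⟨ofInh1 ρ c, ofInh1_mem_Z1 hρ c.2⟩, ?_⟩
    rw [dictH1_mk]
    congr 1
    exact Subtype.ext (toInh1_ofInh1 (c : G → A))

theorem dictH2_bijective (hρ : IsSmoothRep L ρ) : Function.Bijective (dictH2 L ρ) := by
  constructor
  · rw [injective_iff_map_eq_zero]
    intro x hx
    obtain ⟨z, rfl⟩ := H2.mk_surjective L ⊤ ρ x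
    rw [dictH2_mk, Inh.H2mk_eq_zero_iff] at hx
    rw [H2.mk_eq_zero_iff]
    have := ofInh2_mem_B2 hρ hx
    rwa [ofInh2_toInh2 (mem_Z2.1 z.2).1] at this
  · intro y
    obtain ⟨c, rfl⟩ := Inh.H2mk_surjective y
    refine ⟨H2.mk L ⊤ ρ ⟨ofInh2 ρ c, ofInh2_mem_Z2 hρ c.2⟩, ?_⟩
    rw [dictH2_mk]
    congr 1
    exact Subtype.ext (toInh2_ofInh2 (c : G × G → A))

end Fermat.Agent.PT
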