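import Fermat.Agent.PT.Coh.Rel
import Fermat.Agent.PT.Coh.Dict

/-!
# S55, block F1 (b)+(g): the dictionary for an ARBITRARY subgroup `V ≤ G`

Explicit cocycle work is done with ordinary inhomogeneous cochains restricted to `V`
(functions on `G` of which only the values on `V` matter):
`f ∈ Z1 L V ρ ↦ (v ↦ f 1 v)`, `z ∈ Z2 L V ρ ↦ ((v, w) ↦ z 1 v (v * w))`.

(D1), (D1') have direct proofs (`e g = f 1 g + a`).  (D2), (D2') follow from `Coh/Rel.lean` applied to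
`V.subtype` (`relSubC`, `rel_injective_H2`, `rel_surjective_Z2`) and `Coh/Dict.lean` applied to the group
`↥V` with the level system `L.induced V` and the representation `ρ.comp V.subtype`.
-/

set_option autoImplicit false

namespace Fermat.Agent.PT

variable {k G A : Type*} [CommRing k] [Group G] [AddCommGroup A] [Module k A]
variable {L : LevelSystem G} {V : Subgroup G} {ρ : Representation k G A}

/-- `c` restricted to `V` is right-invariant under `V ⊓ U` for some level `U`. -/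
def SmoothOn1 (L : LevelSystem G) (V : Subgroup G) {X : Type*} (c : G → X) : Prop :=
  ∃ U ∈ L, ∀ v ∈ V, ∀ u ∈ V, u ∈ U → c (v * u) = c v

/-- `c` restricted to `V × V` is right-invariant under `V ⊓ U` for some level `U`. -/
def SmoothOn2 (L : LevelSystem G) (V : Subgroup G) {X : Type*} (c : G → G → X) : Prop :=
  ∃ U ∈ L, ∀ v ∈ V, ∀ w ∈ V, ∀ u ∈ V, ∀ u' ∈ V, u ∈ U → u' ∈ U → c (v * u) (w * u') = c v w

lemma isSmoothRep_induced (hρ : IsSmoothRep L ρ) (V : Subgroup G) :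
    IsSmoothRep (L.induced V) (ρ.comp V.subtype) := by
  intro a
  obtain ⟨U, hU, h⟩ := hρ a
  exact ⟨U.comap V.subtype, ⟨U, hU, rfl⟩, fun u hu => h u hu⟩

/-! ### From homogeneous to inhomogeneous -/

theorem inh1_cocycle {f : G → G → A} (hf : f ∈ Z1 L V ρ) :
    ∀ v ∈ V, ∀ g : G, f 1 (v * g) = ρ v (f 1 g) + f 1 v := by
  obtain ⟨⟨he, -⟩, hd⟩ := hf
  intro v hv g
  have h1 := congrFun (congrFun (congrFun hd 1) v) (v * g)
  simp only [d1_apply, Pi.zero_apply] at h1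
  have h2 := he v hv 1 g
  rw [mul_one] at h2
  rw [h2] at h1
  have h3 : f 1 (v * g) = ρ v (f 1 g) + f 1 v - (ρ v (f 1 g) - f 1 (v * g) + f 1 v) := by abel
  rw [h3, h1, sub_zero]

theorem inh1_smoothOn {f : G → G → A} (hf : f ∈ X1 L V ρ) : SmoothOn1 L V (fun v => f 1 v) := by
  obtain ⟨-, U, hU, hs⟩ := hf
  refine ⟨U, hU, fun v _ u _ hu => ?_⟩
  have := hs 1 v 1 U.one_mem u hu
  simpa using this

theorem inh2_cocycle {z : G → G → G → A} (hz : z ∈ Z2 L V ρ) :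
    ∀ u ∈ V, ∀ v w : G, z 1 (u * v) (u * v * w) + z 1 u (u * v) =
      ρ u (z 1 v (v * w)) + z 1 u (u * (v * w)) := by
  obtain ⟨⟨he, -⟩, hd⟩ := hz
  intro u hu v w
  have h1 := congrFun (congrFun (congrFun (congrFun hd 1) u) (u * v)) (u * v * w)
  simp only [d2_apply, Pi.zero_apply] at h1
  have h2 := he u hu 1 v (v * w)
  rw [mul_one, ← mul_assoc] at h2
  rw [h2] at h1
  rw [← mul_assoc]
  have h3 : z 1 (u * v) (u * v * w) + z 1 u (u * v) =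
      ρ u (z 1 v (v * w)) + z 1 u (u * v * w) -
        (ρ u (z 1 v (v * w)) - z 1 (u * v) (u * v * w) + z 1 u (u * v * w) - z 1 u (u * v)) := by
    abel
  rw [h3, h1, sub_zero]

theorem inh2_smoothOn {z : G → G → G → A} (hz : z ∈ X2 L V ρ) :
    SmoothOn2 L V (fun v w => z 1 v (v * w)) := by
  obtain ⟨-, U, hU, hs⟩ := hz
  have hn := L.normal' U hU
  refine ⟨U, hU, fun v _ w _ u _ u' _ hu hu' => ?_⟩
  have hmem : w⁻¹ * u * w * u' ∈ U := by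
    refine U.mul_mem ?_ hu'
    have := hn.conj_mem u hu w⁻¹
    simpa using this
  have := hs 1 v (v * w) 1 U.one_mem u hu (w⁻¹ * u * w * u') hmem
  rw [mul_one] at this
  show z 1 (v * u) (v * u * (w * u')) = z 1 v (v * w)
  rw [← this]
  congr 1
  group

/-! ### (D1), (D2): coboundaries -/

/-- (D1) -/
theorem mem_B1_iff {f : G → G → A} (hf : f ∈ Z1 L V ρ) :
    f ∈ B1 L V ρ ↔ ∃ a : A, ∀ v ∈ V, f 1 v = ρ v a - a := by
  constructor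
  · rintro ⟨e, ⟨he, -⟩, rfl⟩
    refine ⟨e 1, fun v hv => ?_⟩
    have h2 := he v hv 1
    rw [mul_one] at h2
    simp [h2]
  · rintro ⟨a, ha⟩
    have hc := inh1_cocycle hf
    obtain ⟨⟨-, U, hU, hs⟩, hd⟩ := hf
    refine ⟨fun g => f 1 g + a, ⟨fun v hv g => ?_, U, hU, fun g u hu => ?_⟩, ?_⟩
    · show f 1 (v * g) + a = ρ v (f 1 g + a)
      rw [hc v hv g, ha v hv, map_add]
      abel
    · show f 1 (g * u) + a = f 1 g + a
      have := hs 1 g 1 U.one_mem u hu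
      rw [mul_one] at this
      rw [this]
    · funext g₀ g₁
      have h1 := congrFun (congrFun (congrFun hd 1) g₀) g₁
      simp only [d1_apply, Pi.zero_apply] at h1
      simp only [d0_apply]
      have h3 : f 1 g₁ + a - (f 1 g₀ + a) = f g₀ g₁ - (f g₀ g₁ - f 1 g₁ + f 1 g₀) := by abel
      rw [h3, h1, sub_zero]

/-- (D2), the direct implication. -/
theorem mem_B2_imp {z : G → G → G → A} (hz : z ∈ B2 L V ρ) :
    ∃ c : G → A, SmoothOn1 L V c ∧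
      ∀ v ∈ V, ∀ w ∈ V, z 1 v (v * w) = ρ v (c w) - c (v * w) + c v := by
  obtain ⟨e, he, rfl⟩ := hz
  refine ⟨fun g => e 1 g, inh1_smoothOn he, fun v hv w _ => ?_⟩
  have h2 := he.1 v hv 1 w
  rw [mul_one] at h2
  simp [h2]

lemma dictV_LC1 {X : Type*} {c : G → X} (hs : SmoothOn1 L V c) :
    Inh.LC1 (L.induced V) (fun v : V => c v) := by
  obtain ⟨U, hU, h⟩ := hs
  exact ⟨U.comap V.subtype, ⟨U, hU, rfl⟩, fun g s hs => h g g.2 s s.2 hs⟩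

lemma dictV_LC2 {X : Type*} {c : G → G → X} (hs : SmoothOn2 L V c) :
    Inh.LC2 (L.induced V) (fun p : V × V => c p.1 p.2) := by
  obtain ⟨U, hU, h⟩ := hs
  exact ⟨U.comap V.subtype, ⟨U, hU, rfl⟩,
    fun g g' s s' hs hs' => h g g.2 g' g'.2 s s.2 s' s'.2 hs hs'⟩

theorem mem_B2_of_inh (hρ : IsSmoothRep L ρ) {z : G → G → G → A} (hz : z ∈ Z2 L V ρ)
    (h : ∃ c : G → A, SmoothOn1 L V c ∧
      ∀ v ∈ V, ∀ w ∈ V, z 1 v (v * w) = ρ v (c w) - c (v * w) + c v) : z ∈ B2 L V ρ := by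
  obtain ⟨c, hs, hc⟩ := h
  have hρ' := isSmoothRep_induced hρ V
  have hzV : (relSubC L ρ V).T2 z ∈ Z2 (L.induced V) ⊤ (ρ.comp V.subtype) :=
    (relSubC L ρ V).memZ2 hz
  have h1 : toInh2 (k := k) ((relSubC L ρ V).T2 z) =
      Inh.d12 (ρ.comp V.subtype) (fun v : V => c v) := by
    funext ⟨v, w⟩
    have := hc v v.2 w w.2
    simpa [relSubC, pairC] using this
  have h2 : toInh2 (k := k) ((relSubC L ρ V).T2 z) ∈ Inh.B2 (L.induced V) (ρ.comp V.subtype) :=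
    Inh.mem_B2.2 ⟨_, dictV_LC1 hs, h1.symm⟩
  have h3 : (relSubC L ρ V).T2 z ∈ B2 (L.induced V) ⊤ (ρ.comp V.subtype) := by
    have := ofInh2_mem_B2 hρ' h2
    rwa [ofInh2_toInh2 hzV.1] at this
  have h4 : (relSubC L ρ V).H2 (H2.mk L V ρ ⟨z, hz⟩) = 0 := by
    rw [CMap.H2_mk, H2.mk_eq_zero_iff]
    exact h3
  have h5 : H2.mk L V ρ ⟨z, hz⟩ = 0 :=
    (relSub_bijective_H2 L ρ V).1 (by rw [h4, map_zero])
  exact (H2.mk_eq_zero_iff L V ρ ⟨z, hz⟩).1 h5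

/-- (D2) -/
theorem mem_B2_iff (hρ : IsSmoothRep L ρ) {z : G → G → G → A} (hz : z ∈ Z2 L V ρ) :
    z ∈ B2 L V ρ ↔ ∃ c : G → A, SmoothOn1 L V c ∧
      ∀ v ∈ V, ∀ w ∈ V, z 1 v (v * w) = ρ v (c w) - c (v * w) + c v :=
  ⟨mem_B2_imp, mem_B2_of_inh hρ hz⟩

/-! ### (D1'), (D2'): every smooth inhomogeneous cocycle on `V` comes from the relative model -/

/-- (D1') -/
theorem exists_Z1_of_inh (hρ : IsSmoothRep L ρ) {c : G → A} (hs : SmoothOn1 L V c)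
    (hc : ∀ v ∈ V, ∀ w ∈ V, c (v * w) = ρ v (c w) + c v) :
    ∃ f ∈ Z1 L V ρ, ∀ v ∈ V, f 1 v = c v := by
  have hρ' := isSmoothRep_induced hρ V
  have hc' : (fun v : V => c v) ∈ Inh.Z1 (L.induced V) (ρ.comp V.subtype) :=
    Inh.mem_Z1.2 ⟨dictV_LC1 hs, fun g h => hc g g.2 h h.2⟩
  obtain ⟨f, hf, hfc⟩ := rel_surjective_Z1 (L := L) (ρ := ρ) (ι := V.subtype)
    (map_subtype_top V) (ofInh1_mem_Z1 hρ' hc')
  refine ⟨f, hf, fun v hv => ?_⟩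
  have := congrFun (congrFun hfc 1) ⟨v, hv⟩
  simpa using this

/-- (D2') -/
theorem exists_Z2_of_inh (hρ : IsSmoothRep L ρ) {c : G → G → A} (hs : SmoothOn2 L V c)
    (hc : ∀ u ∈ V, ∀ v ∈ V, ∀ w ∈ V, c (u * v) w + c u v = ρ u (c v w) + c u (v * w)) :
    ∃ z ∈ Z2 L V ρ, ∀ v ∈ V, ∀ w ∈ V, z 1 v (v * w) = c v w := by
  have hρ' := isSmoothRep_induced hρ V
  have hc' : (fun p : V × V => c p.1 p.2) ∈ Inh.Z2 (L.induced V) (ρ.comp V.subtype) :=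
    Inh.mem_Z2.2 ⟨dictV_LC2 hs, fun g h j => hc g g.2 h h.2 j j.2⟩
  obtain ⟨z, hz, hzc⟩ := rel_surjective_Z2 (L := L) (ρ := ρ) (ι := V.subtype)
    (map_subtype_top V) (ofInh2_mem_Z2 hρ' hc')
  refine ⟨z, hz, fun v hv w hw => ?_⟩
  have := congrFun (congrFun (congrFun hzc 1) ⟨v, hv⟩) (⟨v, hv⟩ * ⟨w, hw⟩)
  simpa using this

/-- A cochain version: every smooth inhomogeneous `1`-cochain on `V` comes from `X1 L V ρ`. -/
theorem exists_X1_of_inh (hρ : IsSmoothRep L ρ) {c : G → A} (hs : SmoothOn1 L V c) :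
    ∃ f ∈ X1 L V ρ, ∀ v ∈ V, f 1 v = c v := by
  have hρ' := isSmoothRep_induced hρ V
  obtain ⟨he, U', ⟨U, hU, rfl⟩, hs'⟩ := ofInh1_mem_X1 hρ' (dictV_LC1 hs)
  obtain ⟨r, hr2, hr3, hr4⟩ := exists_retraction V.subtype (L.normal' U hU)
  set h' : V → V → A := ofInh1 (ρ.comp V.subtype) (fun v : V => c v) with hh'
  refine ⟨fun g₀ g₁ => h' (r g₀) (r g₁), ⟨fun v hv g₀ g₁ => ?_, U, hU,
    fun g₀ g₁ u₀ h₀ u₁ h₁ => ?_⟩, fun v hv => ?_⟩
  · have e : ∀ g : G, r (v * g) =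
        (⟨v, hv⟩ : V) * r g * ((r g)⁻¹ * (⟨v, hv⟩ : V)⁻¹ * r (V.subtype ⟨v, hv⟩ * g)) := by
      intro g
      show r (v * g) = (⟨v, hv⟩ : V) * r g * ((r g)⁻¹ * (⟨v, hv⟩ : V)⁻¹ * r (v * g))
      group
    beta_reduce
    rw [e g₀, e g₁, hs' _ _ _ (hr2 ⟨v, hv⟩ g₀) _ (hr2 ⟨v, hv⟩ g₁), he ⟨v, hv⟩ trivial]
    rfl
  · have e : ∀ g u : G, r (g * u) = r g * ((r g)⁻¹ * r (g * u)) := by
      intro g u; group
    beta_reduce
    rw [e g₀ u₀, e g₁ u₁, hs' _ _ _ (hr3 g₀ u₀ h₀) _ (hr3 g₁ u₁ h₁)]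
  · have e1 : r 1 = (1 : V) * ((1 : V)⁻¹ * r (V.subtype 1)) := by simp
    have e2 : r v = (⟨v, hv⟩ : V) * ((⟨v, hv⟩ : V)⁻¹ * r (V.subtype ⟨v, hv⟩)) := by simp
    beta_reduce
    rw [e1, e2, hs' _ _ _ (hr4 1) _ (hr4 ⟨v, hv⟩)]
    simp [hh']

/-- Two cocycles with the same inhomogeneous restriction to `V` are cohomologous. -/
theorem sub_mem_B2_of_inh_eq (hρ : IsSmoothRep L ρ) {z z' : G → G → G → A} (hz : z ∈ Z2 L V ρ)
    (hz' : z' ∈ Z2 L V ρ) (h : ∀ v ∈ V, ∀ w ∈ V, z 1 v (v * w) = z' 1 v (v * w)) :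
    z - z' ∈ B2 L V ρ := by
  refine mem_B2_of_inh hρ ((Z2 L V ρ).sub_mem hz hz') ⟨fun _ => 0, ?_, fun v hv w hw => ?_⟩
  · obtain ⟨U, hU⟩ := L.nonempty'
    exact ⟨U, hU, fun _ _ _ _ _ => rfl⟩
  · simp [h v hv w hw]

theorem sub_mem_B1_of_inh_eq {f f' : G → G → A} (hf : f ∈ Z1 L V ρ)
    (hf' : f' ∈ Z1 L V ρ) (h : ∀ v ∈ V, f 1 v = f' 1 v) : f - f' ∈ B1 L V ρ := by
  rw [mem_B1_iff ((Z1 L V ρ).sub_mem hf hf')]
  refine ⟨0, fun v hv => ?_⟩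
  simp [h v hv]

end Fermat.Agent.PT
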