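import Fermat.Agent.PT.Coh.Defs

/-!
# S55, block F1 (b): inhomogeneous smooth cochains in the shapes of Mathlib / the Prelude

`A`, `G → A`, `G × G → A`, `G × G × G → A`, with the differentials of
`groupCohomology.LowDegree` (`d₀₁`, `d₁₂`, `d₂₃`).  `Inh.H1 L ρ`, `Inh.H2 L ρ` have exactly the shape of
the Prelude's `continuousH1` (as a quotient) and `continuousH2 / continuousH2S`.
The dictionary with the homogeneous model (`V = ⊤`) is in `Coh/Dict.lean`.
-/

set_option autoImplicit false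

namespace Fermat.Agent.PT.Inh

variable {k G A : Type*} [CommRing k] [Group G] [AddCommGroup A] [Module k A]

/-- `f : G → X` is right-invariant under some level. -/
def LC1 (L : LevelSystem G) {X : Type*} (f : G → X) : Prop :=
  ∃ U ∈ L, ∀ g s : G, s ∈ U → f (g * s) = f g

/-- `f : G × G → X` is right-invariant under some level in both variables. -/
def LC2 (L : LevelSystem G) {X : Type*} (f : G × G → X) : Prop :=
  ∃ U ∈ L, ∀ g g' s s' : G, s ∈ U → s' ∈ U → f (g * s, g' * s') = f (g, g')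

/-- `f : G × G × G → X` is right-invariant under some level in all variables. -/
def LC3 (L : LevelSystem G) {X : Type*} (f : G × G × G → X) : Prop :=
  ∃ U ∈ L, ∀ g g' g'' s s' s'' : G, s ∈ U → s' ∈ U → s'' ∈ U →
    f (g * s, g' * s', g'' * s'') = f (g, g', g'')

variable (L : LevelSystem G)

variable (k A) in
/-- Level-constant `1`-cochains. -/
def C1 : Submodule k (G → A) where
  carrier := {f | LC1 L f}
  add_mem' := by
    rintro f f' ⟨U, hU, h⟩ ⟨U', hU', h'⟩
    obtain ⟨W, hW, h1, h2⟩ := L.directed' U hU U' hU'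
    exact ⟨W, hW, fun g s hs => by simp [h g s (h1 hs), h' g s (h2 hs)]⟩
  zero_mem' := by
    obtain ⟨U, hU⟩ := L.nonempty'
    exact ⟨U, hU, fun _ _ _ => rfl⟩
  smul_mem' := by
    rintro c f ⟨U, hU, h⟩
    exact ⟨U, hU, fun g s hs => by simp [h g s hs]⟩

variable (k A) in
/-- Level-constant `2`-cochains. -/
def C2 : Submodule k (G × G → A) where
  carrier := {f | LC2 L f}
  add_mem' := by
    rintro f f' ⟨U, hU, h⟩ ⟨U', hU', h'⟩
    obtain ⟨W, hW, h1, h2⟩ := L.directed' U hU U' hU'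
    exact ⟨W, hW, fun g g' s s' hs hs' => by
      simp [h g g' s s' (h1 hs) (h1 hs'), h' g g' s s' (h2 hs) (h2 hs')]⟩
  zero_mem' := by
    obtain ⟨U, hU⟩ := L.nonempty'
    exact ⟨U, hU, fun _ _ _ _ _ _ => rfl⟩
  smul_mem' := by
    rintro c f ⟨U, hU, h⟩
    exact ⟨U, hU, fun g g' s s' hs hs' => by simp [h g g' s s' hs hs']⟩

/-- `(d⁰ a)(g) = g a - a`. -/
def d01 (ρ : Representation k G A) : A →ₗ[k] (G → A) where
  toFun a g := ρ g a - a
  map_add' x y := by ext g; simp; abel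
  map_smul' c x := by ext g; simp [smul_sub]

/-- `(d¹ f)(g, h) = g f(h) - f(g h) + f(g)`. -/
def d12 (ρ : Representation k G A) : (G → A) →ₗ[k] (G × G → A) where
  toFun f g := ρ g.1 (f g.2) - f (g.1 * g.2) + f g.1
  map_add' x y := by ext g; simp; abel
  map_smul' c x := by ext g; simp [smul_sub, smul_add]

/-- `(d² f)(g, h, j) = g f(h, j) - f(g h, j) + f(g, h j) - f(g, h)`. -/
def d23 (ρ : Representation k G A) : (G × G → A) →ₗ[k] (G × G × G → A) where
  toFun f g := ρ g.1 (f (g.2.1, g.2.2)) - f (g.1 * g.2.1, g.2.2) + f (g.1, g.2.1 * g.2.2)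
    - f (g.1, g.2.1)
  map_add' x y := by ext g; simp; abel
  map_smul' c x := by ext g; simp [smul_sub, smul_add]

@[simp] theorem d01_apply (ρ : Representation k G A) (a : A) (g : G) : d01 ρ a g = ρ g a - a := rfl

@[simp] theorem d12_apply (ρ : Representation k G A) (f : G → A) (g h : G) :
    d12 ρ f (g, h) = ρ g (f h) - f (g * h) + f g := rfl

@[simp] theorem d23_apply (ρ : Representation k G A) (f : G × G → A) (g h j : G) :
    d23 ρ f (g, h, j) = ρ g (f (h, j)) - f (g * h, j) + f (g, h * j) - f (g, h) := rfl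

variable (ρ : Representation k G A)

/-- Level-constant `1`-cocycles. -/
def Z1 : Submodule k (G → A) := C1 k A L ⊓ LinearMap.ker (d12 ρ)

/-- `1`-coboundaries. -/
def B1 : Submodule k (G → A) := LinearMap.range (d01 ρ)

/-- Level-constant `2`-cocycles. -/
def Z2 : Submodule k (G × G → A) := C2 k A L ⊓ LinearMap.ker (d23 ρ)

/-- Coboundaries of level-constant `1`-cochains. -/
def B2 : Submodule k (G × G → A) := (C1 k A L).map (d12 ρ)

/-- Smooth inhomogeneous `H¹`. -/
abbrev H1 : Type _ := ↥(Z1 L ρ) ⧸ (B1 ρ).comap (Z1 L ρ).subtype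

/-- Smooth inhomogeneous `H²`. -/
abbrev H2 : Type _ := ↥(Z2 L ρ) ⧸ (B2 L ρ).comap (Z2 L ρ).subtype

/-- The class of a `1`-cocycle. -/
abbrev H1mk : ↥(Z1 L ρ) →ₗ[k] H1 L ρ := Submodule.mkQ _

/-- The class of a `2`-cocycle. -/
abbrev H2mk : ↥(Z2 L ρ) →ₗ[k] H2 L ρ := Submodule.mkQ _

variable {L ρ}

theorem mem_Z1 {f : G → A} :
    f ∈ Z1 L ρ ↔ LC1 L f ∧ ∀ g h, f (g * h) = ρ g (f h) + f g := by
  simp only [Z1, Submodule.mem_inf, LinearMap.mem_ker]
  refine and_congr Iff.rfl ⟨fun h g h' => ?_, fun h => ?_⟩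
  · have := congrFun h (g, h')
    simp only [d12_apply, Pi.zero_apply] at this
    rw [sub_add_eq_add_sub, sub_eq_zero] at this
    exact this.symm
  · ext ⟨g, h'⟩
    simp only [d12_apply, Pi.zero_apply, h g h']
    abel

theorem mem_Z2 {f : G × G → A} :
    f ∈ Z2 L ρ ↔ LC2 L f ∧ ∀ g h j, f (g * h, j) + f (g, h) = ρ g (f (h, j)) + f (g, h * j) := by
  simp only [Z2, Submodule.mem_inf, LinearMap.mem_ker]
  refine and_congr Iff.rfl ⟨fun h g h' j => ?_, fun h => ?_⟩
  · have := congrFun h (g, h', j)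
    simp only [d23_apply, Pi.zero_apply] at this
    have h2 : ρ g (f (h', j)) + f (g, h' * j) - (f (g * h', j) + f (g, h')) = 0 := by
      rw [← this]; abel
    exact (sub_eq_zero.mp h2).symm
  · ext ⟨g, h', j⟩
    simp only [d23_apply, Pi.zero_apply]
    have := h g h' j
    have h2 : ρ g (f (h', j)) - f (g * h', j) + f (g, h' * j) - f (g, h') =
        ρ g (f (h', j)) + f (g, h' * j) - (f (g * h', j) + f (g, h')) := by abel
    rw [h2, this, sub_self]

theorem mem_B1 {f : G → A} : f ∈ B1 ρ ↔ ∃ a : A, ∀ g, f g = ρ g a - a := by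
  simp only [B1, LinearMap.mem_range]
  exact ⟨fun ⟨a, h⟩ => ⟨a, fun g => by rw [← h]; rfl⟩, fun ⟨a, h⟩ => ⟨a, by ext g; rw [h]; rfl⟩⟩

theorem mem_B2 {f : G × G → A} : f ∈ B2 L ρ ↔ ∃ x : G → A, LC1 L x ∧ d12 ρ x = f := by
  simp only [B2, Submodule.mem_map]; rfl

theorem H1mk_surjective : Function.Surjective (H1mk L ρ) := Submodule.mkQ_surjective _

theorem H2mk_surjective : Function.Surjective (H2mk L ρ) := Submodule.mkQ_surjective _

theorem H1mk_eq_zero_iff (z : ↥(Z1 L ρ)) : H1mk L ρ z = 0 ↔ (z : G → A) ∈ B1 ρ := by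
  simp [Submodule.Quotient.mk_eq_zero, Submodule.mem_comap]

theorem H2mk_eq_zero_iff (z : ↥(Z2 L ρ)) : H2mk L ρ z = 0 ↔ (z : G × G → A) ∈ B2 L ρ := by
  simp [Submodule.Quotient.mk_eq_zero, Submodule.mem_comap]

end Fermat.Agent.PT.Inh
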