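import Fermat.Agent.PT.Coh.Lift

/-!
# S55, block F1 (c), part 2: the long exact cohomology sequence (degrees 0..3)

For `S : SES L ρA ρB ρC i p` and any subgroup `V ≤ G`:
* `S.iC V`, `S.pC V` : the chain maps induced by `i` and `p`;
* `S.δ0 V : H0 → H1`, `S.δ1 V : H1 → H2`, `S.δ2 V : H2 → H3` : the connecting maps, characterised by
  `S.δn_mk` (`y` a cochain lifting `z`, `i x = d y`  ⟹  `δ [z] = [x]`);
* exactness everywhere (as `Function.Exact`);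
* `SES.δn_natural` : naturality with respect to ARBITRARY chain maps `TA TB TC` commuting with
  `i` and `p` on cochains (covers res, infl, pull-back, conjugation, cores, Shapiro, ...).
-/

set_option autoImplicit false

namespace Fermat.Agent.PT

variable {k : Type*} [CommRing k] {G : Type*} [Group G]
variable {A B C : Type*} [AddCommGroup A] [Module k A] [AddCommGroup B] [Module k B]
  [AddCommGroup C] [Module k C]

namespace SES

variable {L : LevelSystem G} {ρA : Representation k G A} {ρB : Representation k G B}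
  {ρC : Representation k G C} {i : A →ₗ[k] B} {p : B →ₗ[k] C} (S : SES L ρA ρB ρC i p)

/-- the chain map induced by `i`. -/
def iC (V : Subgroup G) : CMap L V ρA L V ρB := mapC L V (fun v _ => S.i_equiv v)

/-- the chain map induced by `p`. -/
def pC (V : Subgroup G) : CMap L V ρB L V ρC := mapC L V (fun v _ => S.p_equiv v)

/-! ### degree 0 -/

/-- the linear relation defining `δ0`. -/
def rel0 (_S : SES L ρA ρB ρC i p) (V : Subgroup G) : Submodule k (H0 L V ρC × H1 L V ρA) where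
  carrier := {c | ∃ (z : Z0 L V ρC) (x : Z1 L V ρA) (y : G → B), y ∈ X0 L V ρB ∧
      pp0 (MonoidHom.id G) p y = z ∧ pp1 (MonoidHom.id G) i x = d0 (k := k) y ∧
      c = (z, H1.mk L V ρA x)}
  add_mem' := by
    rintro _ _ ⟨z, x, y, hy, h1, h2, rfl⟩ ⟨z', x', y', hy', h1', h2', rfl⟩
    exact ⟨z + z', x + x', y + y', add_mem hy hy', by rw [LinearMap.map_add, h1, h1']; rfl, by
      rw [LinearMap.map_add, ← h2, ← h2', ← LinearMap.map_add]; rfl, by simp only [LinearMap.map_add, Prod.mk_add_mk]⟩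
  zero_mem' := ⟨0, 0, 0, zero_mem _, by simp, by simp, by simp only [LinearMap.map_zero]; rfl⟩
  smul_mem' := by
    rintro c _ ⟨z, x, y, hy, h1, h2, rfl⟩
    exact ⟨c • z, c • x, c • y, Submodule.smul_mem _ c hy, by rw [LinearMap.map_smul, h1]; rfl, by
      rw [LinearMap.map_smul, ← h2, ← LinearMap.map_smul]; rfl, by simp only [LinearMap.map_smul, Prod.smul_mk]⟩

include S in
theorem exists_snake0 (V : Subgroup G) (z : Z0 L V ρC) :
    ∃ (x : Z1 L V ρA) (y : G → B), y ∈ X0 L V ρB ∧ pp0 (MonoidHom.id G) p y = z ∧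
      pp1 (MonoidHom.id G) i x = d0 (k := k) y := by
  obtain ⟨y, hy, hyz⟩ := S.exists_lift0 V z.2.1
  have hd : pp1 (MonoidHom.id G) p (d0 (k := k) y) = 0 := by
    rw [← d0_pp0, hyz]; exact (mem_Z0.mp z.2).2
  obtain ⟨x, hx, hxy⟩ := S.exists_pre1 V (d0_mem hy) hd
  refine ⟨⟨x, hx, ?_⟩, y, hy, hyz, hxy⟩
  show d1 (k := k) x = 0
  apply S.pp2_inj
  rw [← d1_pp1, hxy, d1_d0, LinearMap.map_zero]

theorem sv0 (V : Subgroup G) (a : H1 L V ρA) (h : ((0 : H0 L V ρC), a) ∈ S.rel0 V) : a = 0 := by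
  obtain ⟨z, x, y, hy, h1, h2, he⟩ := h
  obtain ⟨e1, rfl⟩ := Prod.mk.inj he
  rw [H1.mk_eq_zero_iff]
  have h0 : pp0 (MonoidHom.id G) p y = 0 := by rw [h1, ← e1]; rfl
  obtain ⟨a, ha, hay⟩ := S.exists_pre0 V hy h0
  refine ⟨a, ha, S.pp1_inj ?_⟩
  rw [← d0_pp0, hay, h2]

theorem tot0 (V : Subgroup G) (z : H0 L V ρC) : ∃ a, (z, a) ∈ S.rel0 V := by
  obtain ⟨x, y, hy, h1, h2⟩ := S.exists_snake0 V z
  exact ⟨_, z, x, y, hy, h1, h2, rfl⟩

/-- the connecting map `H⁰(V,C) → H¹(V,A)`. -/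
noncomputable def δ0 (V : Subgroup G) : H0 L V ρC →ₗ[k] H1 L V ρA :=
  linOfRel (S.rel0 V) (S.tot0 V) (S.sv0 V)

theorem δ0_mk (V : Subgroup G) (z : Z0 L V ρC) (x : Z1 L V ρA) (y : G → B) (hy : y ∈ X0 L V ρB)
    (h1 : pp0 (MonoidHom.id G) p y = z) (h2 : pp1 (MonoidHom.id G) i x = d0 (k := k) y) :
    S.δ0 V z = H1.mk L V ρA x :=
  linOfRel_eq _ _ _ ⟨z, x, y, hy, h1, h2, rfl⟩

theorem injective_iH0 (V : Subgroup G) : Function.Injective (S.iC V).H0 := by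
  intro a a' h
  exact Subtype.ext (S.pp0_inj (congrArg Subtype.val h))

theorem exact_iH0_pH0 (V : Subgroup G) : Function.Exact (S.iC V).H0 (S.pC V).H0 := by
  intro b
  constructor
  · intro h
    have h0 : pp0 (MonoidHom.id G) p b = 0 := congrArg Subtype.val h
    obtain ⟨a, ha, hab⟩ := S.exists_pre0 V b.2.1 h0
    have haZ : a ∈ Z0 L V ρA := by
      refine ⟨ha, ?_⟩
      show d0 (k := k) a = 0
      apply S.pp1_inj
      rw [← d0_pp0, hab, (mem_Z0.mp b.2).2, LinearMap.map_zero]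
    exact ⟨⟨a, haZ⟩, Subtype.ext hab⟩
  · rintro ⟨a, rfl⟩
    exact Subtype.ext (S.pp0_p_i _)

theorem exact_pH0_δ0 (V : Subgroup G) : Function.Exact (S.pC V).H0 (S.δ0 V) := by
  intro z
  constructor
  · intro h
    obtain ⟨x, y, hy, h1, h2⟩ := S.exists_snake0 V z
    rw [S.δ0_mk V z x y hy h1 h2, H1.mk_eq_zero_iff] at h
    obtain ⟨a, ha, hax⟩ := h
    have hy' : y - pp0 (MonoidHom.id G) i a ∈ Z0 L V ρB := by
      refine ⟨sub_mem hy ((S.iC V).mem0 a ha), ?_⟩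
      show d0 (k := k) (y - pp0 (MonoidHom.id G) i a) = 0
      rw [LinearMap.map_sub, d0_pp0, hax, h2, sub_self]
    refine ⟨⟨_, hy'⟩, Subtype.ext ?_⟩
    show pp0 (MonoidHom.id G) p (y - pp0 (MonoidHom.id G) i a) = z
    rw [LinearMap.map_sub, S.pp0_p_i, sub_zero, h1]
  · rintro ⟨y, rfl⟩
    rw [S.δ0_mk V _ 0 y y.2.1 rfl (by rw [(mem_Z0.mp y.2).2]; simp), LinearMap.map_zero]

theorem exact_δ0_iH1 (V : Subgroup G) : Function.Exact (S.δ0 V) (S.iC V).H1 := by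
  intro a
  constructor
  · intro h
    obtain ⟨x, rfl⟩ := H1.mk_surjective L V ρA a
    rw [CMap.H1_mk, H1.mk_eq_zero_iff] at h
    obtain ⟨y, hy, hyx⟩ := h
    have hz : pp0 (MonoidHom.id G) p y ∈ Z0 L V ρC := by
      refine ⟨(S.pC V).mem0 y hy, ?_⟩
      show d0 (k := k) (pp0 (MonoidHom.id G) p y) = 0
      rw [d0_pp0, hyx]
      exact S.pp1_p_i _
    exact ⟨⟨_, hz⟩, S.δ0_mk V ⟨_, hz⟩ x y hy rfl hyx.symm⟩
  · rintro ⟨z, rfl⟩
    obtain ⟨x, y, hy, h1, h2⟩ := S.exists_snake0 V z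
    rw [S.δ0_mk V z x y hy h1 h2, CMap.H1_mk, H1.mk_eq_zero_iff]
    exact ⟨y, hy, h2.symm⟩

/-! ### degree 1 -/

theorem exact_iH1_pH1 (V : Subgroup G) : Function.Exact (S.iC V).H1 (S.pC V).H1 := by
  intro b
  constructor
  · intro h
    obtain ⟨y, rfl⟩ := H1.mk_surjective L V ρB b
    rw [CMap.H1_mk, H1.mk_eq_zero_iff] at h
    obtain ⟨w, hw, hwy⟩ := h
    obtain ⟨w', hw', hww⟩ := S.exists_lift0 V hw
    have h0 : pp1 (MonoidHom.id G) p ((y : G → G → B) - d0 (k := k) w') = 0 := by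
      rw [LinearMap.map_sub, ← d0_pp0, hww, hwy]; exact sub_self _
    obtain ⟨a, ha, hay⟩ := S.exists_pre1 V (sub_mem y.2.1 (d0_mem hw')) h0
    have haZ : a ∈ Z1 L V ρA := by
      refine ⟨ha, ?_⟩
      show d1 (k := k) a = 0
      apply S.pp2_inj
      rw [← d1_pp1, hay, LinearMap.map_sub, (mem_Z1.mp y.2).2, d1_d0, sub_zero, LinearMap.map_zero]
    refine ⟨H1.mk L V ρA ⟨a, haZ⟩, ?_⟩
    rw [CMap.H1_mk, ← sub_eq_zero, ← LinearMap.map_sub, H1.mk_eq_zero_iff]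
    refine ⟨-w', neg_mem hw', ?_⟩
    show d0 (k := k) (-w') = pp1 (MonoidHom.id G) i a - y
    rw [hay, LinearMap.map_neg]; abel
  · rintro ⟨a, rfl⟩
    obtain ⟨x, rfl⟩ := H1.mk_surjective L V ρA a
    rw [CMap.H1_mk, CMap.H1_mk, H1.mk_eq_zero_iff]
    have : (((S.pC V).Z1 ((S.iC V).Z1 x) : Z1 L V ρC) : G → G → C) = 0 :=
      S.pp1_p_i _
    rw [this]; exact zero_mem _

/-- the linear relation defining `δ1`. -/
def rel1 (_S : SES L ρA ρB ρC i p) (V : Subgroup G) :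
    Submodule k (H1 L V ρC × H2 L V ρA) where
  carrier := {c | ∃ (z : Z1 L V ρC) (x : Z2 L V ρA) (y : G → G → B), y ∈ X1 L V ρB ∧
      pp1 (MonoidHom.id G) p y = z ∧ pp2 (MonoidHom.id G) i x = d1 (k := k) y ∧
      c = (H1.mk L V ρC z, H2.mk L V ρA x)}
  add_mem' := by
    rintro _ _ ⟨z, x, y, hy, h1, h2, rfl⟩ ⟨z', x', y', hy', h1', h2', rfl⟩
    exact ⟨z + z', x + x', y + y', add_mem hy hy', by rw [LinearMap.map_add, h1, h1']; rfl, by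
      rw [LinearMap.map_add, ← h2, ← h2', ← LinearMap.map_add]; rfl, by simp only [LinearMap.map_add, Prod.mk_add_mk]⟩
  zero_mem' := ⟨0, 0, 0, zero_mem _, by simp, by simp, by simp only [LinearMap.map_zero]; rfl⟩
  smul_mem' := by
    rintro c _ ⟨z, x, y, hy, h1, h2, rfl⟩
    exact ⟨c • z, c • x, c • y, Submodule.smul_mem _ c hy, by rw [LinearMap.map_smul, h1]; rfl, by
      rw [LinearMap.map_smul, ← h2, ← LinearMap.map_smul]; rfl, by simp only [LinearMap.map_smul, Prod.smul_mk]⟩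

include S in
theorem exists_snake1 (V : Subgroup G) (z : Z1 L V ρC) :
    ∃ (x : Z2 L V ρA) (y : G → G → B), y ∈ X1 L V ρB ∧ pp1 (MonoidHom.id G) p y = z ∧
      pp2 (MonoidHom.id G) i x = d1 (k := k) y := by
  obtain ⟨y, hy, hyz⟩ := S.exists_lift1 V z.2.1
  have hd : pp2 (MonoidHom.id G) p (d1 (k := k) y) = 0 := by
    rw [← d1_pp1, hyz]; exact (mem_Z1.mp z.2).2
  obtain ⟨x, hx, hxy⟩ := S.exists_pre2 V (d1_mem hy) hd
  refine ⟨⟨x, hx, ?_⟩, y, hy, hyz, hxy⟩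
  show d2 (k := k) x = 0
  apply S.pp3_inj
  rw [← d2_pp2, hxy, d2_d1, LinearMap.map_zero]

theorem sv1 (V : Subgroup G) (a : H2 L V ρA) (h : ((0 : H1 L V ρC), a) ∈ S.rel1 V) :
    a = 0 := by
  obtain ⟨z, x, y, hy, h1, h2, he⟩ := h
  obtain ⟨e1, rfl⟩ := Prod.mk.inj he
  rw [H2.mk_eq_zero_iff]
  obtain ⟨w, hw, hwz⟩ := (H1.mk_eq_zero_iff L V ρC z).mp e1.symm
  obtain ⟨w', hw', hww⟩ := S.exists_lift0 V hw
  have h0 : pp1 (MonoidHom.id G) p (y - d0 (k := k) w') = 0 := by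
    rw [LinearMap.map_sub, h1, ← d0_pp0, hww, hwz, sub_self]
  obtain ⟨a, ha, hay⟩ := S.exists_pre1 V (sub_mem hy (d0_mem hw')) h0
  refine ⟨a, ha, S.pp2_inj ?_⟩
  rw [← d1_pp1, hay, LinearMap.map_sub, d1_d0, sub_zero, h2]

theorem tot1 (V : Subgroup G) (c : H1 L V ρC) : ∃ a, (c, a) ∈ S.rel1 V := by
  obtain ⟨z, rfl⟩ := H1.mk_surjective L V ρC c
  obtain ⟨x, y, hy, h1, h2⟩ := S.exists_snake1 V z
  exact ⟨_, z, x, y, hy, h1, h2, rfl⟩

/-- the connecting map `H^1(V,C) → H^2(V,A)`. -/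
noncomputable def δ1 (V : Subgroup G) : H1 L V ρC →ₗ[k] H2 L V ρA :=
  linOfRel (S.rel1 V) (S.tot1 V) (S.sv1 V)

theorem δ1_mk (V : Subgroup G) (z : Z1 L V ρC) (x : Z2 L V ρA) (y : G → G → B)
    (hy : y ∈ X1 L V ρB) (h1 : pp1 (MonoidHom.id G) p y = z)
    (h2 : pp2 (MonoidHom.id G) i x = d1 (k := k) y) :
    S.δ1 V (H1.mk L V ρC z) = H2.mk L V ρA x :=
  linOfRel_eq _ _ _ ⟨z, x, y, hy, h1, h2, rfl⟩

theorem exact_pH1_δ1 (V : Subgroup G) : Function.Exact (S.pC V).H1 (S.δ1 V) := by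
  intro c
  constructor
  · intro h
    obtain ⟨z, rfl⟩ := H1.mk_surjective L V ρC c
    obtain ⟨x, y, hy, h1, h2⟩ := S.exists_snake1 V z
    rw [S.δ1_mk V z x y hy h1 h2, H2.mk_eq_zero_iff] at h
    obtain ⟨a, ha, hax⟩ := h
    have hy' : y - pp1 (MonoidHom.id G) i a ∈ Z1 L V ρB := by
      refine ⟨sub_mem hy ((S.iC V).mem1 a ha), ?_⟩
      show d1 (k := k) (y - pp1 (MonoidHom.id G) i a) = 0
      rw [LinearMap.map_sub, d1_pp1, hax, h2, sub_self]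
    refine ⟨H1.mk L V ρB ⟨_, hy'⟩, ?_⟩
    rw [CMap.H1_mk]
    congr 1
    apply Subtype.ext
    show pp1 (MonoidHom.id G) p (y - pp1 (MonoidHom.id G) i a) = z
    rw [LinearMap.map_sub, S.pp1_p_i, sub_zero, h1]
  · rintro ⟨b, rfl⟩
    obtain ⟨y, rfl⟩ := H1.mk_surjective L V ρB b
    rw [CMap.H1_mk, S.δ1_mk V _ 0 y y.2.1 rfl (by rw [(mem_Z1.mp y.2).2]; simp), LinearMap.map_zero]

theorem exact_δ1_iH2 (V : Subgroup G) : Function.Exact (S.δ1 V) (S.iC V).H2 := by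
  intro a
  constructor
  · intro h
    obtain ⟨x, rfl⟩ := H2.mk_surjective L V ρA a
    rw [CMap.H2_mk, H2.mk_eq_zero_iff] at h
    obtain ⟨y, hy, hyx⟩ := h
    have hz : pp1 (MonoidHom.id G) p y ∈ Z1 L V ρC := by
      refine ⟨(S.pC V).mem1 y hy, ?_⟩
      show d1 (k := k) (pp1 (MonoidHom.id G) p y) = 0
      rw [d1_pp1, hyx]
      exact S.pp2_p_i _
    exact ⟨H1.mk L V ρC ⟨_, hz⟩, S.δ1_mk V ⟨_, hz⟩ x y hy rfl hyx.symm⟩
  · rintro ⟨c, rfl⟩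
    obtain ⟨z, rfl⟩ := H1.mk_surjective L V ρC c
    obtain ⟨x, y, hy, h1, h2⟩ := S.exists_snake1 V z
    rw [S.δ1_mk V z x y hy h1 h2, CMap.H2_mk, H2.mk_eq_zero_iff]
    exact ⟨y, hy, h2.symm⟩

/-! ### degree 2 -/

theorem exact_iH2_pH2 (V : Subgroup G) : Function.Exact (S.iC V).H2 (S.pC V).H2 := by
  intro b
  constructor
  · intro h
    obtain ⟨y, rfl⟩ := H2.mk_surjective L V ρB b
    rw [CMap.H2_mk, H2.mk_eq_zero_iff] at h
    obtain ⟨w, hw, hwy⟩ := h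
    obtain ⟨w', hw', hww⟩ := S.exists_lift1 V hw
    have h0 : pp2 (MonoidHom.id G) p ((y : G → G → G → B) - d1 (k := k) w') = 0 := by
      rw [LinearMap.map_sub, ← d1_pp1, hww, hwy]; exact sub_self _
    obtain ⟨a, ha, hay⟩ := S.exists_pre2 V (sub_mem y.2.1 (d1_mem hw')) h0
    have haZ : a ∈ Z2 L V ρA := by
      refine ⟨ha, ?_⟩
      show d2 (k := k) a = 0
      apply S.pp3_inj
      rw [← d2_pp2, hay, LinearMap.map_sub, (mem_Z2.mp y.2).2, d2_d1, sub_zero, LinearMap.map_zero]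
    refine ⟨H2.mk L V ρA ⟨a, haZ⟩, ?_⟩
    rw [CMap.H2_mk, ← sub_eq_zero, ← LinearMap.map_sub, H2.mk_eq_zero_iff]
    refine ⟨-w', neg_mem hw', ?_⟩
    show d1 (k := k) (-w') = pp2 (MonoidHom.id G) i a - y
    rw [hay, LinearMap.map_neg]; abel
  · rintro ⟨a, rfl⟩
    obtain ⟨x, rfl⟩ := H2.mk_surjective L V ρA a
    rw [CMap.H2_mk, CMap.H2_mk, H2.mk_eq_zero_iff]
    have : (((S.pC V).Z2 ((S.iC V).Z2 x) : Z2 L V ρC) : G → G → G → C) = 0 :=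
      S.pp2_p_i _
    rw [this]; exact zero_mem _

/-- the linear relation defining `δ2`. -/
def rel2 (_S : SES L ρA ρB ρC i p) (V : Subgroup G) :
    Submodule k (H2 L V ρC × H3 L V ρA) where
  carrier := {c | ∃ (z : Z2 L V ρC) (x : Z3 L V ρA) (y : G → G → G → B), y ∈ X2 L V ρB ∧
      pp2 (MonoidHom.id G) p y = z ∧ pp3 (MonoidHom.id G) i x = d2 (k := k) y ∧
      c = (H2.mk L V ρC z, H3.mk L V ρA x)}
  add_mem' := by
    rintro _ _ ⟨z, x, y, hy, h1, h2, rfl⟩ ⟨z', x', y', hy', h1', h2', rfl⟩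
    exact ⟨z + z', x + x', y + y', add_mem hy hy', by rw [LinearMap.map_add, h1, h1']; rfl, by
      rw [LinearMap.map_add, ← h2, ← h2', ← LinearMap.map_add]; rfl, by simp only [LinearMap.map_add, Prod.mk_add_mk]⟩
  zero_mem' := ⟨0, 0, 0, zero_mem _, by simp, by simp, by simp only [LinearMap.map_zero]; rfl⟩
  smul_mem' := by
    rintro c _ ⟨z, x, y, hy, h1, h2, rfl⟩
    exact ⟨c • z, c • x, c • y, Submodule.smul_mem _ c hy, by rw [LinearMap.map_smul, h1]; rfl, by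
      rw [LinearMap.map_smul, ← h2, ← LinearMap.map_smul]; rfl, by simp only [LinearMap.map_smul, Prod.smul_mk]⟩

include S in
theorem exists_snake2 (V : Subgroup G) (z : Z2 L V ρC) :
    ∃ (x : Z3 L V ρA) (y : G → G → G → B), y ∈ X2 L V ρB ∧ pp2 (MonoidHom.id G) p y = z ∧
      pp3 (MonoidHom.id G) i x = d2 (k := k) y := by
  obtain ⟨y, hy, hyz⟩ := S.exists_lift2 V z.2.1
  have hd : pp3 (MonoidHom.id G) p (d2 (k := k) y) = 0 := by
    rw [← d2_pp2, hyz]; exact (mem_Z2.mp z.2).2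
  obtain ⟨x, hx, hxy⟩ := S.exists_pre3 V (d2_mem hy) hd
  refine ⟨⟨x, hx, ?_⟩, y, hy, hyz, hxy⟩
  show d3 (k := k) x = 0
  apply S.pp4_inj
  rw [← d3_pp3, hxy, d3_d2, LinearMap.map_zero]

theorem sv2 (V : Subgroup G) (a : H3 L V ρA) (h : ((0 : H2 L V ρC), a) ∈ S.rel2 V) :
    a = 0 := by
  obtain ⟨z, x, y, hy, h1, h2, he⟩ := h
  obtain ⟨e1, rfl⟩ := Prod.mk.inj he
  rw [H3.mk_eq_zero_iff]
  obtain ⟨w, hw, hwz⟩ := (H2.mk_eq_zero_iff L V ρC z).mp e1.symm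
  obtain ⟨w', hw', hww⟩ := S.exists_lift1 V hw
  have h0 : pp2 (MonoidHom.id G) p (y - d1 (k := k) w') = 0 := by
    rw [LinearMap.map_sub, h1, ← d1_pp1, hww, hwz, sub_self]
  obtain ⟨a, ha, hay⟩ := S.exists_pre2 V (sub_mem hy (d1_mem hw')) h0
  refine ⟨a, ha, S.pp3_inj ?_⟩
  rw [← d2_pp2, hay, LinearMap.map_sub, d2_d1, sub_zero, h2]

theorem tot2 (V : Subgroup G) (c : H2 L V ρC) : ∃ a, (c, a) ∈ S.rel2 V := by
  obtain ⟨z, rfl⟩ := H2.mk_surjective L V ρC c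
  obtain ⟨x, y, hy, h1, h2⟩ := S.exists_snake2 V z
  exact ⟨_, z, x, y, hy, h1, h2, rfl⟩

/-- the connecting map `H^2(V,C) → H^3(V,A)`. -/
noncomputable def δ2 (V : Subgroup G) : H2 L V ρC →ₗ[k] H3 L V ρA :=
  linOfRel (S.rel2 V) (S.tot2 V) (S.sv2 V)

theorem δ2_mk (V : Subgroup G) (z : Z2 L V ρC) (x : Z3 L V ρA) (y : G → G → G → B)
    (hy : y ∈ X2 L V ρB) (h1 : pp2 (MonoidHom.id G) p y = z)
    (h2 : pp3 (MonoidHom.id G) i x = d2 (k := k) y) :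
    S.δ2 V (H2.mk L V ρC z) = H3.mk L V ρA x :=
  linOfRel_eq _ _ _ ⟨z, x, y, hy, h1, h2, rfl⟩

theorem exact_pH2_δ2 (V : Subgroup G) : Function.Exact (S.pC V).H2 (S.δ2 V) := by
  intro c
  constructor
  · intro h
    obtain ⟨z, rfl⟩ := H2.mk_surjective L V ρC c
    obtain ⟨x, y, hy, h1, h2⟩ := S.exists_snake2 V z
    rw [S.δ2_mk V z x y hy h1 h2, H3.mk_eq_zero_iff] at h
    obtain ⟨a, ha, hax⟩ := h
    have hy' : y - pp2 (MonoidHom.id G) i a ∈ Z2 L V ρB := by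
      refine ⟨sub_mem hy ((S.iC V).mem2 a ha), ?_⟩
      show d2 (k := k) (y - pp2 (MonoidHom.id G) i a) = 0
      rw [LinearMap.map_sub, d2_pp2, hax, h2, sub_self]
    refine ⟨H2.mk L V ρB ⟨_, hy'⟩, ?_⟩
    rw [CMap.H2_mk]
    congr 1
    apply Subtype.ext
    show pp2 (MonoidHom.id G) p (y - pp2 (MonoidHom.id G) i a) = z
    rw [LinearMap.map_sub, S.pp2_p_i, sub_zero, h1]
  · rintro ⟨b, rfl⟩
    obtain ⟨y, rfl⟩ := H2.mk_surjective L V ρB b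
    rw [CMap.H2_mk, S.δ2_mk V _ 0 y y.2.1 rfl (by rw [(mem_Z2.mp y.2).2]; simp), LinearMap.map_zero]

theorem exact_δ2_iH3 (V : Subgroup G) : Function.Exact (S.δ2 V) (S.iC V).H3 := by
  intro a
  constructor
  · intro h
    obtain ⟨x, rfl⟩ := H3.mk_surjective L V ρA a
    rw [CMap.H3_mk, H3.mk_eq_zero_iff] at h
    obtain ⟨y, hy, hyx⟩ := h
    have hz : pp2 (MonoidHom.id G) p y ∈ Z2 L V ρC := by
      refine ⟨(S.pC V).mem2 y hy, ?_⟩
      show d2 (k := k) (pp2 (MonoidHom.id G) p y) = 0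
      rw [d2_pp2, hyx]
      exact S.pp3_p_i _
    exact ⟨H2.mk L V ρC ⟨_, hz⟩, S.δ2_mk V ⟨_, hz⟩ x y hy rfl hyx.symm⟩
  · rintro ⟨c, rfl⟩
    obtain ⟨z, rfl⟩ := H2.mk_surjective L V ρC c
    obtain ⟨x, y, hy, h1, h2⟩ := S.exists_snake2 V z
    rw [S.δ2_mk V z x y hy h1 h2, CMap.H3_mk, H3.mk_eq_zero_iff]
    exact ⟨y, hy, h2.symm⟩

/-! ### degree 3 -/

theorem exact_iH3_pH3 (V : Subgroup G) : Function.Exact (S.iC V).H3 (S.pC V).H3 := by
  intro b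
  constructor
  · intro h
    obtain ⟨y, rfl⟩ := H3.mk_surjective L V ρB b
    rw [CMap.H3_mk, H3.mk_eq_zero_iff] at h
    obtain ⟨w, hw, hwy⟩ := h
    obtain ⟨w', hw', hww⟩ := S.exists_lift2 V hw
    have h0 : pp3 (MonoidHom.id G) p ((y : G → G → G → G → B) - d2 (k := k) w') = 0 := by
      rw [LinearMap.map_sub, ← d2_pp2, hww, hwy]; exact sub_self _
    obtain ⟨a, ha, hay⟩ := S.exists_pre3 V (sub_mem y.2.1 (d2_mem hw')) h0
    have haZ : a ∈ Z3 L V ρA := by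
      refine ⟨ha, ?_⟩
      show d3 (k := k) a = 0
      apply S.pp4_inj
      rw [← d3_pp3, hay, LinearMap.map_sub, (mem_Z3.mp y.2).2, d3_d2, sub_zero, LinearMap.map_zero]
    refine ⟨H3.mk L V ρA ⟨a, haZ⟩, ?_⟩
    rw [CMap.H3_mk, ← sub_eq_zero, ← LinearMap.map_sub, H3.mk_eq_zero_iff]
    refine ⟨-w', neg_mem hw', ?_⟩
    show d2 (k := k) (-w') = pp3 (MonoidHom.id G) i a - y
    rw [hay, LinearMap.map_neg]; abel
  · rintro ⟨a, rfl⟩
    obtain ⟨x, rfl⟩ := H3.mk_surjective L V ρA a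
    rw [CMap.H3_mk, CMap.H3_mk, H3.mk_eq_zero_iff]
    have : (((S.pC V).Z3 ((S.iC V).Z3 x) : Z3 L V ρC) : G → G → G → G → C) = 0 :=
      S.pp3_p_i _
    rw [this]; exact zero_mem _

/-! ### naturality -/

section natural

variable {G' : Type*} [Group G'] {A' B' C' : Type*} [AddCommGroup A'] [Module k A']
  [AddCommGroup B'] [Module k B'] [AddCommGroup C'] [Module k C']
  {L' : LevelSystem G'} {ρA' : Representation k G' A'} {ρB' : Representation k G' B'}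
  {ρC' : Representation k G' C'} {i' : A' →ₗ[k] B'} {p' : B' →ₗ[k] C'}
  (S' : SES L' ρA' ρB' ρC' i' p') {V : Subgroup G} {V' : Subgroup G'}

theorem δ0_natural (TA : CMap L V ρA L' V' ρA') (TB : CMap L V ρB L' V' ρB')
    (TC : CMap L V ρC L' V' ρC')
    (hi : ∀ f ∈ X1 L V ρA, TB.T1 (pp1 (MonoidHom.id G) i f)
      = pp1 (MonoidHom.id G') i' (TA.T1 f))
    (hp : ∀ f ∈ X0 L V ρB, TC.T0 (pp0 (MonoidHom.id G) p f)
      = pp0 (MonoidHom.id G') p' (TB.T0 f))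
    (c : H0 L V ρC) : S'.δ0 V' (TC.H0 c) = TA.H1 (S.δ0 V c) := by
  obtain ⟨z, rfl⟩ : ∃ z : Z0 L V ρC, z = c := ⟨c, rfl⟩
  obtain ⟨x, y, hy, h1, h2⟩ := S.exists_snake0 V z
  rw [S.δ0_mk V z x y hy h1 h2, CMap.H1_mk]
  refine S'.δ0_mk V' _ _ (TB.T0 y) (TB.mem0 y hy) ?_ ?_
  · rw [← hp y hy, h1]; rfl
  · show pp1 (MonoidHom.id G') i' (TA.T1 x) = _
    rw [← hi x x.2.1, h2, TB.comm0 y hy]

theorem δ1_natural (TA : CMap L V ρA L' V' ρA') (TB : CMap L V ρB L' V' ρB')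
    (TC : CMap L V ρC L' V' ρC')
    (hi : ∀ f ∈ X2 L V ρA, TB.T2 (pp2 (MonoidHom.id G) i f)
      = pp2 (MonoidHom.id G') i' (TA.T2 f))
    (hp : ∀ f ∈ X1 L V ρB, TC.T1 (pp1 (MonoidHom.id G) p f)
      = pp1 (MonoidHom.id G') p' (TB.T1 f))
    (c : H1 L V ρC) : S'.δ1 V' (TC.H1 c) = TA.H2 (S.δ1 V c) := by
  obtain ⟨z, rfl⟩ := H1.mk_surjective L V ρC c
  obtain ⟨x, y, hy, h1, h2⟩ := S.exists_snake1 V z
  rw [S.δ1_mk V z x y hy h1 h2, CMap.H1_mk, CMap.H2_mk]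
  refine S'.δ1_mk V' _ _ (TB.T1 y) (TB.mem1 y hy) ?_ ?_
  · rw [← hp y hy, h1]; rfl
  · show pp2 (MonoidHom.id G') i' (TA.T2 x) = _
    rw [← hi x x.2.1, h2, TB.comm1 y hy]

theorem δ2_natural (TA : CMap L V ρA L' V' ρA') (TB : CMap L V ρB L' V' ρB')
    (TC : CMap L V ρC L' V' ρC')
    (hi : ∀ f ∈ X3 L V ρA, TB.T3 (pp3 (MonoidHom.id G) i f)
      = pp3 (MonoidHom.id G') i' (TA.T3 f))
    (hp : ∀ f ∈ X2 L V ρB, TC.T2 (pp2 (MonoidHom.id G) p f)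
      = pp2 (MonoidHom.id G') p' (TB.T2 f))
    (c : H2 L V ρC) : S'.δ2 V' (TC.H2 c) = TA.H3 (S.δ2 V c) := by
  obtain ⟨z, rfl⟩ := H2.mk_surjective L V ρC c
  obtain ⟨x, y, hy, h1, h2⟩ := S.exists_snake2 V z
  rw [S.δ2_mk V z x y hy h1 h2, CMap.H2_mk, CMap.H3_mk]
  refine S'.δ2_mk V' _ _ (TB.T2 y) (TB.mem2 y hy) ?_ ?_
  · rw [← hp y hy, h1]; rfl
  · show pp3 (MonoidHom.id G') i' (TA.T3 x) = _
    rw [← hi x x.2.1, h2, TB.comm2 y hy]

end natural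

end SES

end Fermat.Agent.PT
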