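import Fermat.Agent.PT.Coh.Pair

/-!
# S55, block F1 (c), part 1: short exact sequences of smooth representations give short exact
sequences of cochain complexes

* `SES L ρA ρB ρC i p` : `0 → A → B → C → 0` exact, `G`-equivariant, `B` smooth.
* `SES.exists_lift0..3` : `X_n L V ρB → X_n L V ρC` is surjective
  (`f~ g = ρB g₀ (s (ρC g₀⁻¹ (f g)))`, `s` any set-theoretic section).
* `SES.exists_pre0..3` : the kernel of `X_n L V ρB → X_n L V ρC` is the image of `X_n L V ρA`.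
* `linOfRel` : the linear map defined by a total, single-valued linear relation.
-/

set_option autoImplicit false

namespace Fermat.Agent.PT

variable {k : Type*} [CommRing k]

/-! ### linear maps from linear relations -/

section Rel

variable {M N : Type*} [AddCommGroup M] [Module k M] [AddCommGroup N] [Module k N]

/-- the linear map whose graph is a total and single-valued linear relation. -/
noncomputable def linOfRel (R : Submodule k (M × N)) (tot : ∀ m, ∃ n, (m, n) ∈ R)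
    (sv : ∀ n, ((0 : M), n) ∈ R → n = 0) : M →ₗ[k] N where
  toFun m := (tot m).choose
  map_add' m m' := by
    apply eq_of_sub_eq_zero
    apply sv
    have := R.sub_mem (tot (m + m')).choose_spec
      (R.add_mem (tot m).choose_spec (tot m').choose_spec)
    simpa using this
  map_smul' c m := by
    apply eq_of_sub_eq_zero
    apply sv
    have := R.sub_mem (tot (c • m)).choose_spec (R.smul_mem c (tot m).choose_spec)
    simpa using this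

theorem linOfRel_eq (R : Submodule k (M × N)) (tot : ∀ m, ∃ n, (m, n) ∈ R)
    (sv : ∀ n, ((0 : M), n) ∈ R → n = 0) {m : M} {n : N} (h : (m, n) ∈ R) :
    linOfRel R tot sv m = n := by
  apply eq_of_sub_eq_zero
  apply sv
  have := R.sub_mem (tot m).choose_spec h
  change ((0 : M), (tot m).choose - n) ∈ R
  simpa using this

theorem linOfRel_mem (R : Submodule k (M × N)) (tot : ∀ m, ∃ n, (m, n) ∈ R)
    (sv : ∀ n, ((0 : M), n) ∈ R → n = 0) (m : M) : (m, linOfRel R tot sv m) ∈ R :=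
  (tot m).choose_spec

end Rel

variable {G : Type*} [Group G]

/-! ### finiteness lemmas for smooth representations -/

section Smooth

variable {A : Type*} [AddCommGroup A] [Module k A] {L : LevelSystem G} {ρ : Representation k G A}

theorem rho_mul_inv_apply (ρ : Representation k G A) (v g : G) (c : A) :
    ρ (v * g)⁻¹ (ρ v c) = ρ g⁻¹ c := by
  rw [← Module.End.mul_apply, ← map_mul]
  congr 2
  group

theorem rho_self_inv_apply (ρ : Representation k G A) (g : G) (c : A) : ρ g (ρ g⁻¹ c) = c := by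
  rw [← Module.End.mul_apply, ← map_mul, mul_inv_cancel, map_one, Module.End.one_apply]

/-- a finite set of vectors of a smooth representation is fixed by a common level. -/
theorem IsSmoothRep.exists_level_fixing (hρ : IsSmoothRep L ρ) {S : Set A} (hS : S.Finite) :
    ∃ U ∈ L, ∀ u ∈ U, ∀ a ∈ S, ρ u a = a := by
  induction S, hS using Set.Finite.induction_on with
  | empty =>
    obtain ⟨U, hU⟩ := L.nonempty'
    exact ⟨U, hU, fun _ _ a ha => absurd ha (Set.notMem_empty a)⟩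
  | @insert a S _ _ ih =>
    obtain ⟨U, hU, h⟩ := ih
    obtain ⟨U', hU', h'⟩ := hρ a
    obtain ⟨W, hW, h1, h2⟩ := L.directed' U hU U' hU'
    refine ⟨W, hW, fun u hu b hb => ?_⟩
    rcases Set.mem_insert_iff.mp hb with rfl | hb
    · exact h' u (h2 hu)
    · exact h u (h1 hu) b hb

/-- the union of the orbits of a finite set of vectors of a smooth representation is finite. -/
theorem IsSmoothRep.finite_orbit (hρ : IsSmoothRep L ρ) {S : Set A} (hS : S.Finite) :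
    {b | ∃ g : G, ∃ a ∈ S, ρ g a = b}.Finite := by
  obtain ⟨U, hU, hfix⟩ := hρ.exists_level_fixing hS
  have := L.finiteIndex' U hU
  have : Finite S := hS
  refine (Set.finite_range (fun q : (G ⧸ U) × S => ρ q.1.out (q.2 : A))).subset ?_
  rintro _ ⟨g, a, ha, rfl⟩
  obtain ⟨h, e⟩ := QuotientGroup.mk_out_eq_mul U g
  refine ⟨((g : G ⧸ U), ⟨a, ha⟩), ?_⟩
  simp only [e, map_mul, Module.End.mul_apply, hfix _ h.2 a ha]

end Smooth

variable {A B C : Type*} [AddCommGroup A] [Module k A] [AddCommGroup B] [Module k B]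
  [AddCommGroup C] [Module k C]

/-- the arity-free core of the lifting lemma. -/
theorem lift_aux {L : LevelSystem G} {ρB : Representation k G B} {ρC : Representation k G C}
    (hB : IsSmoothRep L ρB) (hC : IsSmoothRep L ρC) (s : C → B) {T : Type*} (hd : T → G)
    (f : T → C) (hfin : (Set.range f).Finite) :
    ∃ W ∈ L, ∀ t t' : T, f t' = f t → ∀ u ∈ W, hd t' = hd t * u →
      ρB (hd t') (s (ρC (hd t')⁻¹ (f t'))) = ρB (hd t) (s (ρC (hd t)⁻¹ (f t))) := by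
  have h1 := hC.finite_orbit hfin
  obtain ⟨U₁, hU₁, fix₁⟩ := hC.exists_level_fixing h1
  obtain ⟨U₂, hU₂, fix₂⟩ := hB.exists_level_fixing (h1.image s)
  obtain ⟨W, hW, le₁, le₂⟩ := L.directed' U₁ hU₁ U₂ hU₂
  refine ⟨W, hW, fun t t' hf u hu hh => ?_⟩
  have hmem : ρC (hd t)⁻¹ (f t) ∈ {b | ∃ g : G, ∃ a ∈ Set.range f, ρC g a = b} :=
    ⟨(hd t)⁻¹, f t, ⟨t, rfl⟩, rfl⟩
  have e1 : ρC (hd t')⁻¹ (f t') = ρC (hd t)⁻¹ (f t) := by
    rw [hf, hh, mul_inv_rev, map_mul, Module.End.mul_apply]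
    exact fix₁ _ (U₁.inv_mem (le₁ hu)) _ hmem
  rw [e1, hh, map_mul, Module.End.mul_apply, fix₂ u (le₂ hu) _ ⟨_, hmem, rfl⟩]

/-- A short exact sequence `0 → A → B → C → 0` of representations of `G`, with `B` smooth. -/
structure SES (L : LevelSystem G) (ρA : Representation k G A) (ρB : Representation k G B)
    (ρC : Representation k G C) (i : A →ₗ[k] B) (p : B →ₗ[k] C) : Prop where
  i_equiv : ∀ g a, i (ρA g a) = ρB g (i a)
  p_equiv : ∀ g b, p (ρB g b) = ρC g (p b)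
  inj : Function.Injective i
  surj : Function.Surjective p
  exact : Function.Exact i p
  smooth : IsSmoothRep L ρB

namespace SES

variable {L : LevelSystem G} {ρA : Representation k G A} {ρB : Representation k G B}
  {ρC : Representation k G C} {i : A →ₗ[k] B} {p : B →ₗ[k] C} (S : SES L ρA ρB ρC i p)

include S

theorem smoothC : IsSmoothRep L ρC := by
  intro c
  obtain ⟨b, rfl⟩ := S.surj c
  obtain ⟨U, hU, h⟩ := S.smooth b
  exact ⟨U, hU, fun u hu => by rw [← S.p_equiv, h u hu]⟩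

theorem smoothA : IsSmoothRep L ρA := by
  intro a
  obtain ⟨U, hU, h⟩ := S.smooth (i a)
  exact ⟨U, hU, fun u hu => S.inj (by rw [S.i_equiv, h u hu])⟩

theorem p_i (a : A) : p (i a) = 0 := (S.exact (i a)).mpr ⟨a, rfl⟩

theorem exists_lift0 (V : Subgroup G) {f : G → C} (hf : f ∈ X0 L V ρC) :
    ∃ y ∈ X0 L V ρB, pp0 (MonoidHom.id G) p y = f := by
  obtain ⟨he, U, hU, hs⟩ := hf
  have := L.finiteIndex' U hU
  have hfin : (Set.range (fun t : G => f t)).Finite := by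
    refine (Set.finite_range (fun q : (G ⧸ U) => f (q).out)).subset ?_
    rintro _ ⟨g₀, rfl⟩
    obtain ⟨k₀, e₀⟩ := QuotientGroup.mk_out_eq_mul U g₀
    refine ⟨((g₀ : G ⧸ U)), ?_⟩
    show f (g₀ : G ⧸ U).out = f g₀
    rw [e₀]
    exact hs _ _ k₀.2
  obtain ⟨W, hW, hl⟩ := lift_aux S.smooth S.smoothC (Function.surjInv S.surj)
    (fun t : G => t) _ hfin
  obtain ⟨W', hW', le₁, le₂⟩ := L.directed' U hU W hW
  refine ⟨fun g₀ => ρB g₀ (Function.surjInv S.surj (ρC g₀⁻¹ (f g₀))),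
    ⟨fun v hv g₀ => ?_, W', hW', fun g₀ u₀ h₀ => ?_⟩, ?_⟩
  · beta_reduce
    rw [he v hv, rho_mul_inv_apply, map_mul, Module.End.mul_apply]
  · exact hl (g₀) (g₀ * u₀) (hs _ _ (le₁ h₀)) u₀ (le₂ h₀) rfl
  · funext g₀
    simp only [pp0_apply, MonoidHom.id_apply, S.p_equiv, Function.surjInv_eq,
      rho_self_inv_apply]

theorem exists_pre0 (V : Subgroup G) {y : G → B} (hy : y ∈ X0 L V ρB)
    (h0 : pp0 (MonoidHom.id G) p y = 0) :
    ∃ a ∈ X0 L V ρA, pp0 (MonoidHom.id G) i a = y := by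
  obtain ⟨he, U, hU, hs⟩ := hy
  have hex : ∀ g₀, ∃ a, i a = y g₀ := fun g₀ => (S.exact _).mp (congrFun h0 g₀)
  choose a ha using hex
  refine ⟨a, ⟨fun v hv g₀ => S.inj ?_, U, hU, fun g₀ u₀ h₀ => S.inj ?_⟩, ?_⟩
  · rw [ha, he v hv, S.i_equiv, ha]
  · rw [ha, ha, hs _ _ h₀]
  · funext g₀
    exact ha g₀

theorem exists_lift1 (V : Subgroup G) {f : G → G → C} (hf : f ∈ X1 L V ρC) :
    ∃ y ∈ X1 L V ρB, pp1 (MonoidHom.id G) p y = f := by
  obtain ⟨he, U, hU, hs⟩ := hf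
  have := L.finiteIndex' U hU
  have hfin : (Set.range (fun t : G × G => f t.1 t.2)).Finite := by
    refine (Set.finite_range (fun q : (G ⧸ U) × (G ⧸ U) => f (q.1).out (q.2).out)).subset ?_
    rintro _ ⟨⟨g₀, g₁⟩, rfl⟩
    obtain ⟨k₀, e₀⟩ := QuotientGroup.mk_out_eq_mul U g₀
    obtain ⟨k₁, e₁⟩ := QuotientGroup.mk_out_eq_mul U g₁
    refine ⟨((g₀ : G ⧸ U), (g₁ : G ⧸ U)), ?_⟩
    show f (g₀ : G ⧸ U).out (g₁ : G ⧸ U).out = f g₀ g₁
    rw [e₀, e₁]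
    exact hs _ _ _ k₀.2 _ k₁.2
  obtain ⟨W, hW, hl⟩ := lift_aux S.smooth S.smoothC (Function.surjInv S.surj)
    (fun t : G × G => t.1) _ hfin
  obtain ⟨W', hW', le₁, le₂⟩ := L.directed' U hU W hW
  refine ⟨fun g₀ g₁ => ρB g₀ (Function.surjInv S.surj (ρC g₀⁻¹ (f g₀ g₁))),
    ⟨fun v hv g₀ g₁ => ?_, W', hW', fun g₀ g₁ u₀ h₀ u₁ h₁ => ?_⟩, ?_⟩
  · beta_reduce
    rw [he v hv, rho_mul_inv_apply, map_mul, Module.End.mul_apply]
  · exact hl (g₀, g₁) (g₀ * u₀, g₁ * u₁) (hs _ _ _ (le₁ h₀) _ (le₁ h₁)) u₀ (le₂ h₀) rfl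
  · funext g₀ g₁
    simp only [pp1_apply, MonoidHom.id_apply, S.p_equiv, Function.surjInv_eq,
      rho_self_inv_apply]

theorem exists_pre1 (V : Subgroup G) {y : G → G → B} (hy : y ∈ X1 L V ρB)
    (h0 : pp1 (MonoidHom.id G) p y = 0) :
    ∃ a ∈ X1 L V ρA, pp1 (MonoidHom.id G) i a = y := by
  obtain ⟨he, U, hU, hs⟩ := hy
  have hex : ∀ g₀ g₁, ∃ a, i a = y g₀ g₁ := fun g₀ g₁ => (S.exact _).mp (congrFun (congrFun h0 g₀) g₁)
  choose a ha using hex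
  refine ⟨a, ⟨fun v hv g₀ g₁ => S.inj ?_, U, hU, fun g₀ g₁ u₀ h₀ u₁ h₁ => S.inj ?_⟩, ?_⟩
  · rw [ha, he v hv, S.i_equiv, ha]
  · rw [ha, ha, hs _ _ _ h₀ _ h₁]
  · funext g₀ g₁
    exact ha g₀ g₁

theorem exists_lift2 (V : Subgroup G) {f : G → G → G → C} (hf : f ∈ X2 L V ρC) :
    ∃ y ∈ X2 L V ρB, pp2 (MonoidHom.id G) p y = f := by
  obtain ⟨he, U, hU, hs⟩ := hf
  have := L.finiteIndex' U hU
  have hfin : (Set.range (fun t : G × G × G => f t.1 t.2.1 t.2.2)).Finite := by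
    refine (Set.finite_range (fun q : (G ⧸ U) × (G ⧸ U) × (G ⧸ U) => f (q.1).out (q.2.1).out (q.2.2).out)).subset ?_
    rintro _ ⟨⟨g₀, g₁, g₂⟩, rfl⟩
    obtain ⟨k₀, e₀⟩ := QuotientGroup.mk_out_eq_mul U g₀
    obtain ⟨k₁, e₁⟩ := QuotientGroup.mk_out_eq_mul U g₁
    obtain ⟨k₂, e₂⟩ := QuotientGroup.mk_out_eq_mul U g₂
    refine ⟨((g₀ : G ⧸ U), (g₁ : G ⧸ U), (g₂ : G ⧸ U)), ?_⟩
    show f (g₀ : G ⧸ U).out (g₁ : G ⧸ U).out (g₂ : G ⧸ U).out = f g₀ g₁ g₂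
    rw [e₀, e₁, e₂]
    exact hs _ _ _ _ k₀.2 _ k₁.2 _ k₂.2
  obtain ⟨W, hW, hl⟩ := lift_aux S.smooth S.smoothC (Function.surjInv S.surj)
    (fun t : G × G × G => t.1) _ hfin
  obtain ⟨W', hW', le₁, le₂⟩ := L.directed' U hU W hW
  refine ⟨fun g₀ g₁ g₂ => ρB g₀ (Function.surjInv S.surj (ρC g₀⁻¹ (f g₀ g₁ g₂))),
    ⟨fun v hv g₀ g₁ g₂ => ?_, W', hW', fun g₀ g₁ g₂ u₀ h₀ u₁ h₁ u₂ h₂ => ?_⟩, ?_⟩
  · beta_reduce
    rw [he v hv, rho_mul_inv_apply, map_mul, Module.End.mul_apply]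
  · exact hl (g₀, g₁, g₂) (g₀ * u₀, g₁ * u₁, g₂ * u₂) (hs _ _ _ _ (le₁ h₀) _ (le₁ h₁) _ (le₁ h₂)) u₀ (le₂ h₀) rfl
  · funext g₀ g₁ g₂
    simp only [pp2_apply, MonoidHom.id_apply, S.p_equiv, Function.surjInv_eq,
      rho_self_inv_apply]

theorem exists_pre2 (V : Subgroup G) {y : G → G → G → B} (hy : y ∈ X2 L V ρB)
    (h0 : pp2 (MonoidHom.id G) p y = 0) :
    ∃ a ∈ X2 L V ρA, pp2 (MonoidHom.id G) i a = y := by
  obtain ⟨he, U, hU, hs⟩ := hy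
  have hex : ∀ g₀ g₁ g₂, ∃ a, i a = y g₀ g₁ g₂ := fun g₀ g₁ g₂ => (S.exact _).mp (congrFun (congrFun (congrFun h0 g₀) g₁) g₂)
  choose a ha using hex
  refine ⟨a, ⟨fun v hv g₀ g₁ g₂ => S.inj ?_, U, hU, fun g₀ g₁ g₂ u₀ h₀ u₁ h₁ u₂ h₂ => S.inj ?_⟩, ?_⟩
  · rw [ha, he v hv, S.i_equiv, ha]
  · rw [ha, ha, hs _ _ _ _ h₀ _ h₁ _ h₂]
  · funext g₀ g₁ g₂
    exact ha g₀ g₁ g₂

theorem exists_lift3 (V : Subgroup G) {f : G → G → G → G → C} (hf : f ∈ X3 L V ρC) :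
    ∃ y ∈ X3 L V ρB, pp3 (MonoidHom.id G) p y = f := by
  obtain ⟨he, U, hU, hs⟩ := hf
  have := L.finiteIndex' U hU
  have hfin : (Set.range (fun t : G × G × G × G => f t.1 t.2.1 t.2.2.1 t.2.2.2)).Finite := by
    refine (Set.finite_range (fun q : (G ⧸ U) × (G ⧸ U) × (G ⧸ U) × (G ⧸ U) => f (q.1).out (q.2.1).out (q.2.2.1).out (q.2.2.2).out)).subset ?_
    rintro _ ⟨⟨g₀, g₁, g₂, g₃⟩, rfl⟩
    obtain ⟨k₀, e₀⟩ := QuotientGroup.mk_out_eq_mul U g₀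
    obtain ⟨k₁, e₁⟩ := QuotientGroup.mk_out_eq_mul U g₁
    obtain ⟨k₂, e₂⟩ := QuotientGroup.mk_out_eq_mul U g₂
    obtain ⟨k₃, e₃⟩ := QuotientGroup.mk_out_eq_mul U g₃
    refine ⟨((g₀ : G ⧸ U), (g₁ : G ⧸ U), (g₂ : G ⧸ U), (g₃ : G ⧸ U)), ?_⟩
    show f (g₀ : G ⧸ U).out (g₁ : G ⧸ U).out (g₂ : G ⧸ U).out (g₃ : G ⧸ U).out = f g₀ g₁ g₂ g₃
    rw [e₀, e₁, e₂, e₃]
    exact hs _ _ _ _ _ k₀.2 _ k₁.2 _ k₂.2 _ k₃.2
  obtain ⟨W, hW, hl⟩ := lift_aux S.smooth S.smoothC (Function.surjInv S.surj)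
    (fun t : G × G × G × G => t.1) _ hfin
  obtain ⟨W', hW', le₁, le₂⟩ := L.directed' U hU W hW
  refine ⟨fun g₀ g₁ g₂ g₃ => ρB g₀ (Function.surjInv S.surj (ρC g₀⁻¹ (f g₀ g₁ g₂ g₃))),
    ⟨fun v hv g₀ g₁ g₂ g₃ => ?_, W', hW', fun g₀ g₁ g₂ g₃ u₀ h₀ u₁ h₁ u₂ h₂ u₃ h₃ => ?_⟩, ?_⟩
  · beta_reduce
    rw [he v hv, rho_mul_inv_apply, map_mul, Module.End.mul_apply]
  · exact hl (g₀, g₁, g₂, g₃) (g₀ * u₀, g₁ * u₁, g₂ * u₂, g₃ * u₃) (hs _ _ _ _ _ (le₁ h₀) _ (le₁ h₁) _ (le₁ h₂) _ (le₁ h₃)) u₀ (le₂ h₀) rfl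
  · funext g₀ g₁ g₂ g₃
    simp only [pp3_apply, MonoidHom.id_apply, S.p_equiv, Function.surjInv_eq,
      rho_self_inv_apply]

theorem exists_pre3 (V : Subgroup G) {y : G → G → G → G → B} (hy : y ∈ X3 L V ρB)
    (h0 : pp3 (MonoidHom.id G) p y = 0) :
    ∃ a ∈ X3 L V ρA, pp3 (MonoidHom.id G) i a = y := by
  obtain ⟨he, U, hU, hs⟩ := hy
  have hex : ∀ g₀ g₁ g₂ g₃, ∃ a, i a = y g₀ g₁ g₂ g₃ := fun g₀ g₁ g₂ g₃ => (S.exact _).mp (congrFun (congrFun (congrFun (congrFun h0 g₀) g₁) g₂) g₃)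
  choose a ha using hex
  refine ⟨a, ⟨fun v hv g₀ g₁ g₂ g₃ => S.inj ?_, U, hU, fun g₀ g₁ g₂ g₃ u₀ h₀ u₁ h₁ u₂ h₂ u₃ h₃ => S.inj ?_⟩, ?_⟩
  · rw [ha, he v hv, S.i_equiv, ha]
  · rw [ha, ha, hs _ _ _ _ _ h₀ _ h₁ _ h₂ _ h₃]
  · funext g₀ g₁ g₂ g₃
    exact ha g₀ g₁ g₂ g₃

theorem pp0_p_i (f : G → A) :
    pp0 (MonoidHom.id G) p (pp0 (MonoidHom.id G) i f) = 0 := by
  funext g₀
  exact S.p_i _

theorem pp0_inj {f f' : G → A}
    (h : pp0 (MonoidHom.id G) i f = pp0 (MonoidHom.id G) i f') : f = f' := by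
  funext g₀
  exact S.inj (congrFun h g₀)

theorem pp1_p_i (f : G → G → A) :
    pp1 (MonoidHom.id G) p (pp1 (MonoidHom.id G) i f) = 0 := by
  funext g₀ g₁
  exact S.p_i _

theorem pp1_inj {f f' : G → G → A}
    (h : pp1 (MonoidHom.id G) i f = pp1 (MonoidHom.id G) i f') : f = f' := by
  funext g₀ g₁
  exact S.inj (congrFun (congrFun h g₀) g₁)

theorem pp2_p_i (f : G → G → G → A) :
    pp2 (MonoidHom.id G) p (pp2 (MonoidHom.id G) i f) = 0 := by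
  funext g₀ g₁ g₂
  exact S.p_i _

theorem pp2_inj {f f' : G → G → G → A}
    (h : pp2 (MonoidHom.id G) i f = pp2 (MonoidHom.id G) i f') : f = f' := by
  funext g₀ g₁ g₂
  exact S.inj (congrFun (congrFun (congrFun h g₀) g₁) g₂)

theorem pp3_p_i (f : G → G → G → G → A) :
    pp3 (MonoidHom.id G) p (pp3 (MonoidHom.id G) i f) = 0 := by
  funext g₀ g₁ g₂ g₃
  exact S.p_i _

theorem pp3_inj {f f' : G → G → G → G → A}
    (h : pp3 (MonoidHom.id G) i f = pp3 (MonoidHom.id G) i f') : f = f' := by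
  funext g₀ g₁ g₂ g₃
  exact S.inj (congrFun (congrFun (congrFun (congrFun h g₀) g₁) g₂) g₃)

theorem pp4_p_i (f : G → G → G → G → G → A) :
    pp4 (MonoidHom.id G) p (pp4 (MonoidHom.id G) i f) = 0 := by
  funext g₀ g₁ g₂ g₃ g₄
  exact S.p_i _

theorem pp4_inj {f f' : G → G → G → G → G → A}
    (h : pp4 (MonoidHom.id G) i f = pp4 (MonoidHom.id G) i f') : f = f' := by
  funext g₀ g₁ g₂ g₃ g₄
  exact S.inj (congrFun (congrFun (congrFun (congrFun (congrFun h g₀) g₁) g₂) g₃) g₄)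

end SES

end Fermat.Agent.PT
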