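import Fermat.Agent.PT.Coh.IsoCrit

/-!
# S55, block F1 (g): change of the ambient group

For `ι : G' →* G`, `V' ≤ G'` and `V = ι V'`, pulling back functions along `ι`
`X_n L V ρ → X_n (L.comap ι) V' (ρ ∘ ι)` induces bijections on `H⁰ .. H³`.

Proof.  Fix a level `U` (normal).  Choose a map `r : G → G'` with
 (R1) `ι (r g) ∈ ...`: for `g = ι(d) t u` (`t` in a fixed set of representatives of `ι(G') \ G / U`,
      the representative of the trivial double coset being `1`) put `r g = d` (any choice).  Then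
 (R2) `r (ι d * g) ∈ d * r g * ι⁻¹(U)`, (R3) `r (g * u) ∈ r g * ι⁻¹(U)`, (R4) `r (ι d) ∈ d * ι⁻¹(U)`.
Surjectivity on cocycles: `c ↦ c ∘ r` for `c` of level `ι⁻¹ U`.  Injectivity: if `f` is a cocycle whose
pull-back is `d e`, replace `f` by `f - d (e ∘ r)`; then `f` vanishes on `ι(G')^(n+1) U^(n+1)` and
`f = d (h f)` with the prism operator
`(h f)(x₀..x_{n-1}) = ∑_j (-1)^j f (x₀, .., x_j, ι r x_j, .., ι r x_{n-1})`.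
-/

set_option autoImplicit false

namespace Fermat.Agent.PT

variable {k : Type*} [CommRing k] {G G' : Type*} [Group G] [Group G']
  {A : Type*} [AddCommGroup A] [Module k A]
variable {L : LevelSystem G} {ρ : Representation k G A} {ι : G' →* G}
  {V : Subgroup G} {V' : Subgroup G'}

/-- the double coset relation `ι(G') g U` -/
def relSetoid (ι : G' →* G) (U : Subgroup G) : Setoid G where
  r g g' := ∃ d : G', ∃ u ∈ U, g' = ι d * g * u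
  iseqv := by
    refine ⟨fun g => ⟨1, 1, U.one_mem, by simp⟩, ?_, ?_⟩
    · rintro g g' ⟨d, u, hu, rfl⟩
      exact ⟨d⁻¹, u⁻¹, U.inv_mem hu, by simp [mul_assoc]⟩
    · rintro g g' g'' ⟨d, u, hu, rfl⟩ ⟨d', u', hu', rfl⟩
      exact ⟨d' * d, u * u', U.mul_mem hu hu', by simp [mul_assoc]⟩

theorem rel_exists_rep (ι : G' →* G) (U : Subgroup G) :
    ∃ (t : G → G) (r : G → G'), (∀ g, ∃ u ∈ U, g = ι (r g) * t g * u) ∧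
      (∀ (d : G') (g : G), t (ι d * g) = t g) ∧ (∀ (g u : G), u ∈ U → t (g * u) = t g) ∧
      t 1 = 1 := by
  classical
  let s := relSetoid ι U
  let t : G → G := fun g => if s.r g 1 then 1 else (Quotient.mk s g).out
  have ht : ∀ g, s.r (t g) g := by
    intro g
    by_cases h : s.r g 1
    · simp only [t, if_pos h]; exact s.symm h
    · simp only [t, if_neg h]; exact Quotient.exact (Quotient.out_eq _)
  have hcongr : ∀ g g', s.r g g' → t g = t g' := by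
    intro g g' h
    by_cases h1 : s.r g 1
    · have h2 : s.r g' 1 := s.trans (s.symm h) h1
      simp only [t, if_pos h1, if_pos h2]
    · have h2 : ¬ s.r g' 1 := fun h2 => h1 (s.trans h h2)
      simp only [t, if_neg h1, if_neg h2]
      rw [Quotient.sound (s := s) h]
  choose r u hu hr using ht
  refine ⟨t, r, fun g => ⟨u g, hu g, hr g⟩, fun d g => ?_, fun g u hu => ?_, ?_⟩
  · exact (hcongr g (ι d * g) ⟨d, 1, U.one_mem, by simp⟩).symm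
  · exact (hcongr g (g * u) ⟨1, u, hu, by simp⟩).symm
  · simp only [t, if_pos (s.refl 1)]

/-- The level-wise retraction. -/
theorem exists_retraction (ι : G' →* G) {U : Subgroup G} (hU : U.Normal) :
    ∃ r : G → G', (∀ (d : G') (g : G), (r g)⁻¹ * d⁻¹ * r (ι d * g) ∈ U.comap ι) ∧
      (∀ (g u : G), u ∈ U → (r g)⁻¹ * r (g * u) ∈ U.comap ι) ∧
      (∀ d : G', d⁻¹ * r (ι d) ∈ U.comap ι) := by
  obtain ⟨t, r, hr, h1, h2, h3⟩ := rel_exists_rep ι U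
  have key : ∀ (a b : G') (x u u' : G), u ∈ U → u' ∈ U → ι a * x * u = ι b * x * u' →
      a⁻¹ * b ∈ U.comap ι := by
    intro a b x u u' hu hu' h
    rw [Subgroup.mem_comap, map_mul, map_inv]
    have : (ι a)⁻¹ * ι b = x * (u * u'⁻¹) * x⁻¹ := by
      have h' : ι b = ι a * x * u * u'⁻¹ * x⁻¹ := by rw [h]; group
      rw [h']; group
    rw [this]
    exact hU.conj_mem _ (U.mul_mem hu (U.inv_mem hu')) x
  refine ⟨r, fun d g => ?_, fun g u hu => ?_, fun d => ?_⟩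
  · obtain ⟨u, hu, hg⟩ := hr g
    obtain ⟨u', hu', hg'⟩ := hr (ι d * g)
    rw [h1] at hg'
    have := key (d * r g) (r (ι d * g)) (t g) u u' hu hu' (by
      rw [← hg', map_mul, mul_assoc (ι d), mul_assoc (ι d), ← hg])
    simpa [mul_inv_rev] using this
  · obtain ⟨u₁, hu₁, hg⟩ := hr g
    obtain ⟨u', hu', hg'⟩ := hr (g * u)
    rw [h2 g u hu] at hg'
    exact key (r g) (r (g * u)) (t g) (u₁ * u) u' (U.mul_mem hu₁ hu) hu' (by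
      rw [← hg', ← mul_assoc, ← hg])
  · obtain ⟨u', hu', hg'⟩ := hr (ι d)
    have ht : t (ι d) = 1 := by have := h1 d 1; rwa [mul_one, h3] at this
    rw [ht] at hg'
    exact key d (r (ι d)) 1 1 u' U.one_mem hu' (by rw [← hg']; simp)


/-- abstract prism lemma, degree 1 -/
theorem Rel_prism1 {U : Subgroup G} (hU : U ∈ L) {f : G → G → A} (hf : f ∈ Z1 L V ρ)
    (hs : ∀ g₀ g₁, ∀ u₀ ∈ U, ∀ u₁ ∈ U, f (g₀ * u₀) (g₁ * u₁) = f g₀ g₁)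
    (s : G → G) (S1 : ∀ v ∈ V, ∀ x, ∃ u ∈ U, s (v * x) = v * s x * u)
    (S2 : ∀ x, ∀ u ∈ U, ∃ u' ∈ U, s (x * u) = s x * u')
    (S3 : ∀ x₀ x₁, f (s x₀) (s x₁) = 0) : f ∈ B1 L V ρ := by
  obtain ⟨⟨he, -⟩, hd⟩ := mem_Z1.mp hf
  refine ⟨fun x₀ => - f x₀ (s x₀), ⟨?_, U, hU, ?_⟩, ?_⟩
  · intro v hv x₀
    obtain ⟨u, hu, e⟩ := S1 v hv x₀
    have := hs (v * x₀) (v * s x₀) 1 U.one_mem u hu
    rw [mul_one] at this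
    simp only [e, this, he v hv, map_neg]
  · intro x₀ u₀ h₀
    obtain ⟨u', hu', e⟩ := S2 x₀ u₀ h₀
    simp only [e, hs x₀ (s x₀) u₀ h₀ u' hu']
  · funext x₀ x₁
    have e1 := congrFun (congrFun (congrFun hd x₀) x₁) (s x₁)
    have e2 := congrFun (congrFun (congrFun hd x₀) (s x₀)) (s x₁)
    simp only [d1_apply, Pi.zero_apply, S3] at e1 e2
    simp only [d0_apply]
    linear_combination (norm := abel) e2 - e1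

/-- abstract prism lemma, degree 2 -/
theorem Rel_prism2 {U : Subgroup G} (hU : U ∈ L) {f : G → G → G → A} (hf : f ∈ Z2 L V ρ)
    (hs : ∀ g₀ g₁ g₂, ∀ u₀ ∈ U, ∀ u₁ ∈ U, ∀ u₂ ∈ U, f (g₀ * u₀) (g₁ * u₁) (g₂ * u₂) = f g₀ g₁ g₂)
    (s : G → G) (S1 : ∀ v ∈ V, ∀ x, ∃ u ∈ U, s (v * x) = v * s x * u)
    (S2 : ∀ x, ∀ u ∈ U, ∃ u' ∈ U, s (x * u) = s x * u')
    (S3 : ∀ x₀ x₁ x₂, f (s x₀) (s x₁) (s x₂) = 0) : f ∈ B2 L V ρ := by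
  obtain ⟨⟨he, -⟩, hd⟩ := mem_Z2.mp hf
  refine ⟨fun x₀ x₁ => - (f x₀ (s x₀) (s x₁) - f x₀ x₁ (s x₁)), ⟨?_, U, hU, ?_⟩, ?_⟩
  · intro v hv x₀ x₁
    obtain ⟨u, hu, e⟩ := S1 v hv x₀
    obtain ⟨u', hu', e'⟩ := S1 v hv x₁
    have h1 := hs (v * x₀) (v * s x₀) (v * s x₁) 1 U.one_mem u hu u' hu'
    have h2 := hs (v * x₀) (v * x₁) (v * s x₁) 1 U.one_mem 1 U.one_mem u' hu'
    rw [mul_one] at h1 h2
    rw [mul_one] at h2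
    simp only [e, e', h1, h2, he v hv, map_neg, map_sub]
  · intro x₀ x₁ u₀ h₀ u₁ h₁
    obtain ⟨u, hu, e⟩ := S2 x₀ u₀ h₀
    obtain ⟨u', hu', e'⟩ := S2 x₁ u₁ h₁
    simp only [e, e', hs x₀ (s x₀) (s x₁) u₀ h₀ u hu u' hu', hs x₀ x₁ (s x₁) u₀ h₀ u₁ h₁ u' hu']
  · funext x₀ x₁ x₂
    have e1 := congrFun (congrFun (congrFun (congrFun hd x₀) (s x₀)) (s x₁)) (s x₂)
    have e2 := congrFun (congrFun (congrFun (congrFun hd x₀) x₁) (s x₁)) (s x₂)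
    have e3 := congrFun (congrFun (congrFun (congrFun hd x₀) x₁) x₂) (s x₂)
    simp only [d2_apply, Pi.zero_apply, S3] at e1 e2 e3
    simp only [d1_apply]
    linear_combination (norm := abel) e1 - e2 + e3

/-- abstract prism lemma, degree 3 -/
theorem Rel_prism3 {U : Subgroup G} (hU : U ∈ L) {f : G → G → G → G → A} (hf : f ∈ Z3 L V ρ)
    (hs : ∀ g₀ g₁ g₂ g₃, ∀ u₀ ∈ U, ∀ u₁ ∈ U, ∀ u₂ ∈ U, ∀ u₃ ∈ U,
      f (g₀ * u₀) (g₁ * u₁) (g₂ * u₂) (g₃ * u₃) = f g₀ g₁ g₂ g₃)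
    (s : G → G) (S1 : ∀ v ∈ V, ∀ x, ∃ u ∈ U, s (v * x) = v * s x * u)
    (S2 : ∀ x, ∀ u ∈ U, ∃ u' ∈ U, s (x * u) = s x * u')
    (S3 : ∀ x₀ x₁ x₂ x₃, f (s x₀) (s x₁) (s x₂) (s x₃) = 0) : f ∈ B3 L V ρ := by
  obtain ⟨⟨he, -⟩, hd⟩ := mem_Z3.mp hf
  refine ⟨fun x₀ x₁ x₂ => - (f x₀ (s x₀) (s x₁) (s x₂) - f x₀ x₁ (s x₁) (s x₂)
    + f x₀ x₁ x₂ (s x₂)), ⟨?_, U, hU, ?_⟩, ?_⟩
  · intro v hv x₀ x₁ x₂
    obtain ⟨u, hu, e⟩ := S1 v hv x₀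
    obtain ⟨u', hu', e'⟩ := S1 v hv x₁
    obtain ⟨u'', hu'', e''⟩ := S1 v hv x₂
    have h1 := hs (v * x₀) (v * s x₀) (v * s x₁) (v * s x₂) 1 U.one_mem u hu u' hu' u'' hu''
    have h2 := hs (v * x₀) (v * x₁) (v * s x₁) (v * s x₂) 1 U.one_mem 1 U.one_mem u' hu' u'' hu''
    have h3 := hs (v * x₀) (v * x₁) (v * x₂) (v * s x₂) 1 U.one_mem 1 U.one_mem 1 U.one_mem u'' hu''
    simp only [mul_one] at h1 h2 h3
    simp only [e, e', e'', h1, h2, h3, he v hv, map_neg, map_sub, map_add]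
  · intro x₀ x₁ x₂ u₀ h₀ u₁ h₁ u₂ h₂
    obtain ⟨u, hu, e⟩ := S2 x₀ u₀ h₀
    obtain ⟨u', hu', e'⟩ := S2 x₁ u₁ h₁
    obtain ⟨u'', hu'', e''⟩ := S2 x₂ u₂ h₂
    simp only [e, e', e'', hs x₀ (s x₀) (s x₁) (s x₂) u₀ h₀ u hu u' hu' u'' hu'',
      hs x₀ x₁ (s x₁) (s x₂) u₀ h₀ u₁ h₁ u' hu' u'' hu'',
      hs x₀ x₁ x₂ (s x₂) u₀ h₀ u₁ h₁ u₂ h₂ u'' hu'']
  · funext x₀ x₁ x₂ x₃
    have e1 := congrFun (congrFun (congrFun (congrFun (congrFun hd x₀) (s x₀)) (s x₁)) (s x₂)) (s x₃)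
    have e2 := congrFun (congrFun (congrFun (congrFun (congrFun hd x₀) x₁) (s x₁)) (s x₂)) (s x₃)
    have e3 := congrFun (congrFun (congrFun (congrFun (congrFun hd x₀) x₁) x₂) (s x₂)) (s x₃)
    have e4 := congrFun (congrFun (congrFun (congrFun (congrFun hd x₀) x₁) x₂) x₃) (s x₃)
    simp only [d3_apply, Pi.zero_apply, S3] at e1 e2 e3 e4
    simp only [d2_apply]
    linear_combination (norm := abel) e1 - e2 + e3 - e4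

/-- The retraction in a convenient form. -/
theorem Rel_exists_retraction (ι : G' →* G) {U : Subgroup G} (hU : U.Normal) :
    ∃ r : G → G', (∀ (d : G') (g : G), ∃ w ∈ U.comap ι, r (ι d * g) = d * r g * w) ∧
      (∀ (g u : G), u ∈ U → ∃ w ∈ U.comap ι, r (g * u) = r g * w) ∧
      (∀ d : G', ∃ w ∈ U.comap ι, r (ι d) = d * w) := by
  obtain ⟨r, h1, h2, h3⟩ := exists_retraction ι hU
  refine ⟨r, fun d g => ⟨_, h1 d g, by group⟩, fun g u hu => ⟨_, h2 g u hu, by group⟩,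
    fun d => ⟨_, h3 d, by group⟩⟩

theorem Rel_S1 (hV : V'.map ι = V) {U : Subgroup G} {r : G → G'}
    (h1 : ∀ (d : G') (g : G), ∃ w ∈ U.comap ι, r (ι d * g) = d * r g * w) :
    ∀ v ∈ V, ∀ x, ∃ u ∈ U, ι (r (v * x)) = v * ι (r x) * u := by
  subst hV
  rintro _ ⟨v', -, rfl⟩ x
  obtain ⟨w, hw, e⟩ := h1 v' x
  exact ⟨ι w, hw, by rw [e, map_mul, map_mul]⟩

theorem Rel_S2 {U : Subgroup G} {r : G → G'}
    (h2 : ∀ (g u : G), u ∈ U → ∃ w ∈ U.comap ι, r (g * u) = r g * w) :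
    ∀ x, ∀ u ∈ U, ∃ u' ∈ U, ι (r (x * u)) = ι (r x) * u' := by
  intro x u hu
  obtain ⟨w, hw, e⟩ := h2 x u hu
  exact ⟨ι w, hw, by rw [e, map_mul]⟩

theorem rel_bijective_H0 (h : IsPair ι (LinearMap.id : A →ₗ[k] A) L V ρ (L.comap ι) V' (ρ.comp ι))
    (hV : V'.map ι = V) : Function.Bijective (pairC h).H0 := by
  constructor
  · rw [injective_iff_map_eq_zero]
    intro z hz
    have hz' : ∀ g', (z : G → A) (ι g') = 0 := fun g' => by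
      have := congrFun (congrArg Subtype.val hz) g'
      simpa [pairC] using this
    have hd : ∀ g₀ g₁, (z : G → A) g₁ - (z : G → A) g₀ = 0 := fun g₀ g₁ =>
      congrFun (congrFun (mem_Z0.mp z.2).2 g₀) g₁
    apply Subtype.ext
    funext g
    have := hd (ι 1) g
    rw [hz' 1, sub_zero] at this
    simpa using this
  · intro z'
    obtain ⟨⟨he, -⟩, hd⟩ := z'.2
    have hd' : ∀ g₀ g₁, (z' : G' → A) g₁ = (z' : G' → A) g₀ := fun g₀ g₁ =>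
      sub_eq_zero.mp (congrFun (congrFun hd g₀) g₁)
    obtain ⟨U, hU⟩ := L.nonempty'
    refine ⟨⟨fun _ => (z' : G' → A) 1, ⟨?_, U, hU, fun _ _ _ => rfl⟩, ?_⟩, ?_⟩
    · intro v hv g₀
      rw [← hV] at hv
      obtain ⟨v', hv', rfl⟩ := hv
      have := he v' hv' 1
      rw [hd' 1 (v' * 1)] at this
      exact this
    · show d0 (k := k) _ = 0
      funext g₀ g₁
      simp
    · apply Subtype.ext
      funext g'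
      simpa [pairC] using (hd' g' 1)

/-- Surjectivity already holds on cocycles: `f = c ∘ r`. -/
theorem rel_surjective_Z1 (hV : V'.map ι = V) {c : G' → G' → A}
    (hc : c ∈ Z1 (L.comap ι) V' (ρ.comp ι)) :
    ∃ f ∈ Z1 L V ρ, pp1 ι (LinearMap.id : A →ₗ[k] A) f = c := by
  obtain ⟨⟨he, W, ⟨U, hU, rfl⟩, hs⟩, hd⟩ := hc
  obtain ⟨r, r2, r3, r4⟩ := exists_retraction ι (L.normal' U hU)
  have e2 : ∀ d g, ∃ w ∈ U.comap ι, r (ι d * g) = d * r g * w := fun d g =>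
    ⟨_, r2 d g, by group⟩
  have e3 : ∀ g u, u ∈ U → ∃ w ∈ U.comap ι, r (g * u) = r g * w := fun g u hu =>
    ⟨_, r3 g u hu, by group⟩
  have e4 : ∀ d, ∃ w ∈ U.comap ι, r (ι d) = d * w := fun d => ⟨_, r4 d, by group⟩
  refine ⟨fun g₀ g₁ => c (r g₀) (r g₁), ⟨⟨?_, U, hU, ?_⟩, ?_⟩, ?_⟩
  · intro v hv g₀ g₁
    rw [← hV] at hv
    obtain ⟨v', hv', rfl⟩ := hv
    obtain ⟨w₀, hw₀, h₀⟩ := e2 v' g₀
    obtain ⟨w₁, hw₁, h₁⟩ := e2 v' g₁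
    show c _ _ = _
    rw [h₀, h₁, hs _ _ _ hw₀ _ hw₁, he v' hv']
    rfl
  · intro g₀ g₁ u₀ hu₀ u₁ hu₁
    obtain ⟨w₀, hw₀, h₀⟩ := e3 g₀ u₀ hu₀
    obtain ⟨w₁, hw₁, h₁⟩ := e3 g₁ u₁ hu₁
    show c _ _ = _
    rw [h₀, h₁, hs _ _ _ hw₀ _ hw₁]
  · show d1 (k := k) _ = 0
    funext g₀ g₁ g₂
    exact (congrFun (congrFun (congrFun hd (r g₀)) (r g₁)) (r g₂))
  · funext g₀ g₁
    obtain ⟨w₀, hw₀, h₀⟩ := e4 g₀
    obtain ⟨w₁, hw₁, h₁⟩ := e4 g₁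
    simp only [pp1_apply, LinearMap.id_apply]
    rw [h₀, h₁, hs _ _ _ hw₀ _ hw₁]

theorem rel_surjective_Z2 (hV : V'.map ι = V) {c : G' → G' → G' → A}
    (hc : c ∈ Z2 (L.comap ι) V' (ρ.comp ι)) :
    ∃ f ∈ Z2 L V ρ, pp2 ι (LinearMap.id : A →ₗ[k] A) f = c := by
  obtain ⟨⟨he, W, ⟨U, hU, rfl⟩, hs⟩, hd⟩ := hc
  obtain ⟨r, r2, r3, r4⟩ := exists_retraction ι (L.normal' U hU)
  have e2 : ∀ d g, ∃ w ∈ U.comap ι, r (ι d * g) = d * r g * w := fun d g =>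
    ⟨_, r2 d g, by group⟩
  have e3 : ∀ g u, u ∈ U → ∃ w ∈ U.comap ι, r (g * u) = r g * w := fun g u hu =>
    ⟨_, r3 g u hu, by group⟩
  have e4 : ∀ d, ∃ w ∈ U.comap ι, r (ι d) = d * w := fun d => ⟨_, r4 d, by group⟩
  refine ⟨fun g₀ g₁ g₂ => c (r g₀) (r g₁) (r g₂), ⟨⟨?_, U, hU, ?_⟩, ?_⟩, ?_⟩
  · intro v hv g₀ g₁ g₂
    rw [← hV] at hv
    obtain ⟨v', hv', rfl⟩ := hv
    obtain ⟨w₀, hw₀, h₀⟩ := e2 v' g₀
    obtain ⟨w₁, hw₁, h₁⟩ := e2 v' g₁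
    obtain ⟨w₂, hw₂, h₂⟩ := e2 v' g₂
    show c _ _ _ = _
    rw [h₀, h₁, h₂, hs _ _ _ _ hw₀ _ hw₁ _ hw₂, he v' hv']
    rfl
  · intro g₀ g₁ g₂ u₀ hu₀ u₁ hu₁ u₂ hu₂
    obtain ⟨w₀, hw₀, h₀⟩ := e3 g₀ u₀ hu₀
    obtain ⟨w₁, hw₁, h₁⟩ := e3 g₁ u₁ hu₁
    obtain ⟨w₂, hw₂, h₂⟩ := e3 g₂ u₂ hu₂
    show c _ _ _ = _
    rw [h₀, h₁, h₂, hs _ _ _ _ hw₀ _ hw₁ _ hw₂]
  · show d2 (k := k) _ = 0
    funext g₀ g₁ g₂ g₃
    exact (congrFun (congrFun (congrFun (congrFun hd (r g₀)) (r g₁)) (r g₂)) (r g₃))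
  · funext g₀ g₁ g₂
    obtain ⟨w₀, hw₀, h₀⟩ := e4 g₀
    obtain ⟨w₁, hw₁, h₁⟩ := e4 g₁
    obtain ⟨w₂, hw₂, h₂⟩ := e4 g₂
    simp only [pp2_apply, LinearMap.id_apply]
    rw [h₀, h₁, h₂, hs _ _ _ _ hw₀ _ hw₁ _ hw₂]

theorem rel_surjective_Z3 (hV : V'.map ι = V) {c : G' → G' → G' → G' → A}
    (hc : c ∈ Z3 (L.comap ι) V' (ρ.comp ι)) :
    ∃ f ∈ Z3 L V ρ, pp3 ι (LinearMap.id : A →ₗ[k] A) f = c := by
  obtain ⟨⟨he, W, ⟨U, hU, rfl⟩, hs⟩, hd⟩ := hc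
  obtain ⟨r, r2, r3, r4⟩ := exists_retraction ι (L.normal' U hU)
  have e2 : ∀ d g, ∃ w ∈ U.comap ι, r (ι d * g) = d * r g * w := fun d g =>
    ⟨_, r2 d g, by group⟩
  have e3 : ∀ g u, u ∈ U → ∃ w ∈ U.comap ι, r (g * u) = r g * w := fun g u hu =>
    ⟨_, r3 g u hu, by group⟩
  have e4 : ∀ d, ∃ w ∈ U.comap ι, r (ι d) = d * w := fun d => ⟨_, r4 d, by group⟩
  refine ⟨fun g₀ g₁ g₂ g₃ => c (r g₀) (r g₁) (r g₂) (r g₃), ⟨⟨?_, U, hU, ?_⟩, ?_⟩, ?_⟩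
  · intro v hv g₀ g₁ g₂ g₃
    rw [← hV] at hv
    obtain ⟨v', hv', rfl⟩ := hv
    obtain ⟨w₀, hw₀, h₀⟩ := e2 v' g₀
    obtain ⟨w₁, hw₁, h₁⟩ := e2 v' g₁
    obtain ⟨w₂, hw₂, h₂⟩ := e2 v' g₂
    obtain ⟨w₃, hw₃, h₃⟩ := e2 v' g₃
    show c _ _ _ _ = _
    rw [h₀, h₁, h₂, h₃, hs _ _ _ _ _ hw₀ _ hw₁ _ hw₂ _ hw₃, he v' hv']
    rfl
  · intro g₀ g₁ g₂ g₃ u₀ hu₀ u₁ hu₁ u₂ hu₂ u₃ hu₃
    obtain ⟨w₀, hw₀, h₀⟩ := e3 g₀ u₀ hu₀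
    obtain ⟨w₁, hw₁, h₁⟩ := e3 g₁ u₁ hu₁
    obtain ⟨w₂, hw₂, h₂⟩ := e3 g₂ u₂ hu₂
    obtain ⟨w₃, hw₃, h₃⟩ := e3 g₃ u₃ hu₃
    show c _ _ _ _ = _
    rw [h₀, h₁, h₂, h₃, hs _ _ _ _ _ hw₀ _ hw₁ _ hw₂ _ hw₃]
  · show d3 (k := k) _ = 0
    funext g₀ g₁ g₂ g₃ g₄
    exact (congrFun (congrFun (congrFun (congrFun (congrFun hd (r g₀)) (r g₁)) (r g₂)) (r g₃)) (r g₄))
  · funext g₀ g₁ g₂ g₃
    obtain ⟨w₀, hw₀, h₀⟩ := e4 g₀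
    obtain ⟨w₁, hw₁, h₁⟩ := e4 g₁
    obtain ⟨w₂, hw₂, h₂⟩ := e4 g₂
    obtain ⟨w₃, hw₃, h₃⟩ := e4 g₃
    simp only [pp3_apply, LinearMap.id_apply]
    rw [h₀, h₁, h₂, h₃, hs _ _ _ _ _ hw₀ _ hw₁ _ hw₂ _ hw₃]

theorem rel_surjective_H1 (h : IsPair ι (LinearMap.id : A →ₗ[k] A) L V ρ (L.comap ι) V' (ρ.comp ι))
    (hV : V'.map ι = V) : Function.Surjective (pairC h).H1 := by
  intro x
  obtain ⟨c, rfl⟩ := H1.mk_surjective _ _ _ x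
  obtain ⟨⟨he, W, ⟨U, hU, rfl⟩, hs⟩, hd⟩ := c.2
  obtain ⟨r, r2, r3, r4⟩ := exists_retraction ι (L.normal' U hU)
  have e2 : ∀ d g, ∃ w ∈ U.comap ι, r (ι d * g) = d * r g * w := fun d g =>
    ⟨_, r2 d g, by group⟩
  have e3 : ∀ g u, u ∈ U → ∃ w ∈ U.comap ι, r (g * u) = r g * w := fun g u hu =>
    ⟨_, r3 g u hu, by group⟩
  have e4 : ∀ d, ∃ w ∈ U.comap ι, r (ι d) = d * w := fun d => ⟨_, r4 d, by group⟩
  have hf : (fun g₀ g₁ => (c : G' → G' → A) (r g₀) (r g₁)) ∈ Z1 L V ρ := by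
    refine ⟨⟨?_, U, hU, ?_⟩, ?_⟩
    · intro v hv g₀ g₁
      rw [← hV] at hv
      obtain ⟨v', hv', rfl⟩ := hv
      obtain ⟨w₀, hw₀, h₀⟩ := e2 v' g₀
      obtain ⟨w₁, hw₁, h₁⟩ := e2 v' g₁
      show (c : G' → G' → A) _ _ = _
      rw [h₀, h₁, hs _ _ _ hw₀ _ hw₁, he v' hv']
      rfl
    · intro g₀ g₁ u₀ hu₀ u₁ hu₁
      obtain ⟨w₀, hw₀, h₀⟩ := e3 g₀ u₀ hu₀
      obtain ⟨w₁, hw₁, h₁⟩ := e3 g₁ u₁ hu₁
      show (c : G' → G' → A) _ _ = _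
      rw [h₀, h₁, hs _ _ _ hw₀ _ hw₁]
    · show d1 (k := k) _ = 0
      funext g₀ g₁ g₂
      exact (congrFun (congrFun (congrFun hd (r g₀)) (r g₁)) (r g₂))
  refine ⟨H1.mk L V ρ ⟨_, hf⟩, ?_⟩
  rw [CMap.H1_mk]
  congr 1
  apply Subtype.ext
  funext g₀ g₁
  obtain ⟨w₀, hw₀, h₀⟩ := e4 g₀
  obtain ⟨w₁, hw₁, h₁⟩ := e4 g₁
  simp only [CMap.coe_Z1, pairC, pp1_apply, LinearMap.id_apply]
  rw [h₀, h₁, hs _ _ _ hw₀ _ hw₁]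

theorem rel_injective_H1 (h : IsPair ι (LinearMap.id : A →ₗ[k] A) L V ρ (L.comap ι) V' (ρ.comp ι))
    (hV : V'.map ι = V) : Function.Injective (pairC h).H1 := by
  rw [injective_iff_map_eq_zero]
  intro x hx
  obtain ⟨⟨f, hf⟩, rfl⟩ := H1.mk_surjective L V ρ x
  rw [CMap.H1_mk, H1.mk_eq_zero_iff] at hx
  rw [H1.mk_eq_zero_iff]
  obtain ⟨e, ⟨hee, _, ⟨Ue, hUe, rfl⟩, hes⟩, hde⟩ := hx
  obtain ⟨⟨hfe, Uf, hUf, hfs⟩, hfd⟩ := mem_Z1.mp hf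
  obtain ⟨U, hU, hUUf, hUUe⟩ := L.directed' Uf hUf Ue hUe
  obtain ⟨r, R2, R3, R4⟩ := Rel_exists_retraction ι (L.normal' U hU)
  have hle : U.comap ι ≤ Ue.comap ι := Subgroup.comap_mono hUUe
  -- the cochain `e ∘ r`
  have hE : (fun x₀ => e (r x₀)) ∈ X0 L V ρ := by
    refine ⟨?_, U, hU, ?_⟩
    · subst hV
      rintro _ ⟨v', hv', rfl⟩ x₀
      obtain ⟨w, hw, e0⟩ := R2 v' x₀
      simp only [e0, hes _ _ (hle hw), hee v' hv']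
      rfl
    · intro x₀ u₀ h₀
      obtain ⟨w, hw, e0⟩ := R3 x₀ u₀ h₀
      simp only [e0, hes _ _ (hle hw)]
  have hEι : ∀ d, e (r (ι d)) = e d := by
    intro d
    obtain ⟨w, hw, e0⟩ := R4 d
    rw [e0, hes _ _ (hle hw)]
  have hdE : d0 (k := k) (fun x₀ => e (r x₀)) ∈ B1 L V ρ := ⟨_, hE, rfl⟩
  have hf' : f - d0 (k := k) (fun x₀ => e (r x₀)) ∈ B1 L V ρ := by
    apply Rel_prism1 hU (sub_mem hf (B1_le_Z1 hdE)) _ (fun x => ι (r x)) (Rel_S1 hV R2) (Rel_S2 R3)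
    · intro x₀ x₁
      have h1 := congrFun (congrFun hde (r x₀)) (r x₁)
      simp only [d0_apply, CMap.coe_Z1] at h1
      simp only [Pi.sub_apply, d0_apply, hEι]
      rw [h1]
      exact sub_self _
    · intro g₀ g₁ u₀ h₀ u₁ h₁
      obtain ⟨w₀, hw₀, e0⟩ := R3 g₀ u₀ h₀
      obtain ⟨w₁, hw₁, e1⟩ := R3 g₁ u₁ h₁
      simp only [Pi.sub_apply, d0_apply, hfs _ _ _ (hUUf h₀) _ (hUUf h₁), e0, e1,
        hes _ _ (hle hw₀), hes _ _ (hle hw₁)]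
  have := add_mem hf' hdE
  rwa [sub_add_cancel] at this

theorem rel_surjective_H2 (h : IsPair ι (LinearMap.id : A →ₗ[k] A) L V ρ (L.comap ι) V' (ρ.comp ι))
    (hV : V'.map ι = V) : Function.Surjective (pairC h).H2 := by
  intro x
  obtain ⟨c, rfl⟩ := H2.mk_surjective _ _ _ x
  obtain ⟨⟨he, W, ⟨U, hU, rfl⟩, hs⟩, hd⟩ := c.2
  obtain ⟨r, r2, r3, r4⟩ := exists_retraction ι (L.normal' U hU)
  have e2 : ∀ d g, ∃ w ∈ U.comap ι, r (ι d * g) = d * r g * w := fun d g =>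
    ⟨_, r2 d g, by group⟩
  have e3 : ∀ g u, u ∈ U → ∃ w ∈ U.comap ι, r (g * u) = r g * w := fun g u hu =>
    ⟨_, r3 g u hu, by group⟩
  have e4 : ∀ d, ∃ w ∈ U.comap ι, r (ι d) = d * w := fun d => ⟨_, r4 d, by group⟩
  have hf : (fun g₀ g₁ g₂ => (c : G' → G' → G' → A) (r g₀) (r g₁) (r g₂)) ∈ Z2 L V ρ := by
    refine ⟨⟨?_, U, hU, ?_⟩, ?_⟩
    · intro v hv g₀ g₁ g₂
      rw [← hV] at hv
      obtain ⟨v', hv', rfl⟩ := hv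
      obtain ⟨w₀, hw₀, h₀⟩ := e2 v' g₀
      obtain ⟨w₁, hw₁, h₁⟩ := e2 v' g₁
      obtain ⟨w₂, hw₂, h₂⟩ := e2 v' g₂
      show (c : G' → G' → G' → A) _ _ _ = _
      rw [h₀, h₁, h₂, hs _ _ _ _ hw₀ _ hw₁ _ hw₂, he v' hv']
      rfl
    · intro g₀ g₁ g₂ u₀ hu₀ u₁ hu₁ u₂ hu₂
      obtain ⟨w₀, hw₀, h₀⟩ := e3 g₀ u₀ hu₀
      obtain ⟨w₁, hw₁, h₁⟩ := e3 g₁ u₁ hu₁
      obtain ⟨w₂, hw₂, h₂⟩ := e3 g₂ u₂ hu₂
      show (c : G' → G' → G' → A) _ _ _ = _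
      rw [h₀, h₁, h₂, hs _ _ _ _ hw₀ _ hw₁ _ hw₂]
    · show d2 (k := k) _ = 0
      funext g₀ g₁ g₂ g₃
      exact (congrFun (congrFun (congrFun (congrFun hd (r g₀)) (r g₁)) (r g₂)) (r g₃))
  refine ⟨H2.mk L V ρ ⟨_, hf⟩, ?_⟩
  rw [CMap.H2_mk]
  congr 1
  apply Subtype.ext
  funext g₀ g₁ g₂
  obtain ⟨w₀, hw₀, h₀⟩ := e4 g₀
  obtain ⟨w₁, hw₁, h₁⟩ := e4 g₁
  obtain ⟨w₂, hw₂, h₂⟩ := e4 g₂
  simp only [CMap.coe_Z2, pairC, pp2_apply, LinearMap.id_apply]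
  rw [h₀, h₁, h₂, hs _ _ _ _ hw₀ _ hw₁ _ hw₂]

theorem rel_injective_H2 (h : IsPair ι (LinearMap.id : A →ₗ[k] A) L V ρ (L.comap ι) V' (ρ.comp ι))
    (hV : V'.map ι = V) : Function.Injective (pairC h).H2 := by
  rw [injective_iff_map_eq_zero]
  intro x hx
  obtain ⟨⟨f, hf⟩, rfl⟩ := H2.mk_surjective L V ρ x
  rw [CMap.H2_mk, H2.mk_eq_zero_iff] at hx
  rw [H2.mk_eq_zero_iff]
  obtain ⟨e, ⟨hee, _, ⟨Ue, hUe, rfl⟩, hes⟩, hde⟩ := hx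
  obtain ⟨⟨hfe, Uf, hUf, hfs⟩, hfd⟩ := mem_Z2.mp hf
  obtain ⟨U, hU, hUUf, hUUe⟩ := L.directed' Uf hUf Ue hUe
  obtain ⟨r, R2, R3, R4⟩ := Rel_exists_retraction ι (L.normal' U hU)
  have hle : U.comap ι ≤ Ue.comap ι := Subgroup.comap_mono hUUe
  -- the cochain `e ∘ r`
  have hE : (fun x₀ x₁ => e (r x₀) (r x₁)) ∈ X1 L V ρ := by
    refine ⟨?_, U, hU, ?_⟩
    · subst hV
      rintro _ ⟨v', hv', rfl⟩ x₀ x₁
      obtain ⟨w₀, hw₀, e0⟩ := R2 v' x₀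
      obtain ⟨w₁, hw₁, e1⟩ := R2 v' x₁
      simp only [e0, e1, hes _ _ _ (hle hw₀) _ (hle hw₁), hee v' hv']
      rfl
    · intro x₀ x₁ u₀ h₀ u₁ h₁
      obtain ⟨w₀, hw₀, e0⟩ := R3 x₀ u₀ h₀
      obtain ⟨w₁, hw₁, e1⟩ := R3 x₁ u₁ h₁
      simp only [e0, e1, hes _ _ _ (hle hw₀) _ (hle hw₁)]
  have hEι : ∀ d₀ d₁, e (r (ι d₀)) (r (ι d₁)) = e d₀ d₁ := by
    intro d₀ d₁
    obtain ⟨w₀, hw₀, e0⟩ := R4 d₀
    obtain ⟨w₁, hw₁, e1⟩ := R4 d₁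
    rw [e0, e1, hes _ _ _ (hle hw₀) _ (hle hw₁)]
  have hdE : d1 (k := k) (fun x₀ x₁ => e (r x₀) (r x₁)) ∈ B2 L V ρ := ⟨_, hE, rfl⟩
  have hf' : f - d1 (k := k) (fun x₀ x₁ => e (r x₀) (r x₁)) ∈ B2 L V ρ := by
    apply Rel_prism2 hU (sub_mem hf (B2_le_Z2 hdE)) _ (fun x => ι (r x)) (Rel_S1 hV R2) (Rel_S2 R3)
    · intro x₀ x₁ x₂
      have h1 := congrFun (congrFun (congrFun hde (r x₀)) (r x₁)) (r x₂)
      simp only [d1_apply, CMap.coe_Z2] at h1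
      simp only [Pi.sub_apply, d1_apply, hEι]
      rw [h1]
      exact sub_self _
    · intro g₀ g₁ g₂ u₀ h₀ u₁ h₁ u₂ h₂
      obtain ⟨w₀, hw₀, e0⟩ := R3 g₀ u₀ h₀
      obtain ⟨w₁, hw₁, e1⟩ := R3 g₁ u₁ h₁
      obtain ⟨w₂, hw₂, e2⟩ := R3 g₂ u₂ h₂
      simp only [Pi.sub_apply, d1_apply, hfs _ _ _ _ (hUUf h₀) _ (hUUf h₁) _ (hUUf h₂), e0, e1, e2,
        hes _ _ _ (hle hw₀) _ (hle hw₁), hes _ _ _ (hle hw₀) _ (hle hw₂),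
        hes _ _ _ (hle hw₁) _ (hle hw₂)]
  have := add_mem hf' hdE
  rwa [sub_add_cancel] at this

theorem rel_surjective_H3 (h : IsPair ι (LinearMap.id : A →ₗ[k] A) L V ρ (L.comap ι) V' (ρ.comp ι))
    (hV : V'.map ι = V) : Function.Surjective (pairC h).H3 := by
  intro x
  obtain ⟨c, rfl⟩ := H3.mk_surjective _ _ _ x
  obtain ⟨⟨he, W, ⟨U, hU, rfl⟩, hs⟩, hd⟩ := c.2
  obtain ⟨r, r2, r3, r4⟩ := exists_retraction ι (L.normal' U hU)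
  have e2 : ∀ d g, ∃ w ∈ U.comap ι, r (ι d * g) = d * r g * w := fun d g =>
    ⟨_, r2 d g, by group⟩
  have e3 : ∀ g u, u ∈ U → ∃ w ∈ U.comap ι, r (g * u) = r g * w := fun g u hu =>
    ⟨_, r3 g u hu, by group⟩
  have e4 : ∀ d, ∃ w ∈ U.comap ι, r (ι d) = d * w := fun d => ⟨_, r4 d, by group⟩
  have hf : (fun g₀ g₁ g₂ g₃ => (c : G' → G' → G' → G' → A) (r g₀) (r g₁) (r g₂) (r g₃)) ∈ Z3 L V ρ := by
    refine ⟨⟨?_, U, hU, ?_⟩, ?_⟩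
    · intro v hv g₀ g₁ g₂ g₃
      rw [← hV] at hv
      obtain ⟨v', hv', rfl⟩ := hv
      obtain ⟨w₀, hw₀, h₀⟩ := e2 v' g₀
      obtain ⟨w₁, hw₁, h₁⟩ := e2 v' g₁
      obtain ⟨w₂, hw₂, h₂⟩ := e2 v' g₂
      obtain ⟨w₃, hw₃, h₃⟩ := e2 v' g₃
      show (c : G' → G' → G' → G' → A) _ _ _ _ = _
      rw [h₀, h₁, h₂, h₃, hs _ _ _ _ _ hw₀ _ hw₁ _ hw₂ _ hw₃, he v' hv']
      rfl
    · intro g₀ g₁ g₂ g₃ u₀ hu₀ u₁ hu₁ u₂ hu₂ u₃ hu₃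
      obtain ⟨w₀, hw₀, h₀⟩ := e3 g₀ u₀ hu₀
      obtain ⟨w₁, hw₁, h₁⟩ := e3 g₁ u₁ hu₁
      obtain ⟨w₂, hw₂, h₂⟩ := e3 g₂ u₂ hu₂
      obtain ⟨w₃, hw₃, h₃⟩ := e3 g₃ u₃ hu₃
      show (c : G' → G' → G' → G' → A) _ _ _ _ = _
      rw [h₀, h₁, h₂, h₃, hs _ _ _ _ _ hw₀ _ hw₁ _ hw₂ _ hw₃]
    · show d3 (k := k) _ = 0
      funext g₀ g₁ g₂ g₃ g₄
      exact (congrFun (congrFun (congrFun (congrFun (congrFun hd (r g₀)) (r g₁)) (r g₂)) (r g₃)) (r g₄))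
  refine ⟨H3.mk L V ρ ⟨_, hf⟩, ?_⟩
  rw [CMap.H3_mk]
  congr 1
  apply Subtype.ext
  funext g₀ g₁ g₂ g₃
  obtain ⟨w₀, hw₀, h₀⟩ := e4 g₀
  obtain ⟨w₁, hw₁, h₁⟩ := e4 g₁
  obtain ⟨w₂, hw₂, h₂⟩ := e4 g₂
  obtain ⟨w₃, hw₃, h₃⟩ := e4 g₃
  simp only [CMap.coe_Z3, pairC, pp3_apply, LinearMap.id_apply]
  rw [h₀, h₁, h₂, h₃, hs _ _ _ _ _ hw₀ _ hw₁ _ hw₂ _ hw₃]

theorem rel_injective_H3 (h : IsPair ι (LinearMap.id : A →ₗ[k] A) L V ρ (L.comap ι) V' (ρ.comp ι))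
    (hV : V'.map ι = V) : Function.Injective (pairC h).H3 := by
  rw [injective_iff_map_eq_zero]
  intro x hx
  obtain ⟨⟨f, hf⟩, rfl⟩ := H3.mk_surjective L V ρ x
  rw [CMap.H3_mk, H3.mk_eq_zero_iff] at hx
  rw [H3.mk_eq_zero_iff]
  obtain ⟨e, ⟨hee, _, ⟨Ue, hUe, rfl⟩, hes⟩, hde⟩ := hx
  obtain ⟨⟨hfe, Uf, hUf, hfs⟩, hfd⟩ := mem_Z3.mp hf
  obtain ⟨U, hU, hUUf, hUUe⟩ := L.directed' Uf hUf Ue hUe
  obtain ⟨r, R2, R3, R4⟩ := Rel_exists_retraction ι (L.normal' U hU)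
  have hle : U.comap ι ≤ Ue.comap ι := Subgroup.comap_mono hUUe
  -- the cochain `e ∘ r`
  have hE : (fun x₀ x₁ x₂ => e (r x₀) (r x₁) (r x₂)) ∈ X2 L V ρ := by
    refine ⟨?_, U, hU, ?_⟩
    · subst hV
      rintro _ ⟨v', hv', rfl⟩ x₀ x₁ x₂
      obtain ⟨w₀, hw₀, e0⟩ := R2 v' x₀
      obtain ⟨w₁, hw₁, e1⟩ := R2 v' x₁
      obtain ⟨w₂, hw₂, e2⟩ := R2 v' x₂
      simp only [e0, e1, e2, hes _ _ _ _ (hle hw₀) _ (hle hw₁) _ (hle hw₂), hee v' hv']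
      rfl
    · intro x₀ x₁ x₂ u₀ h₀ u₁ h₁ u₂ h₂
      obtain ⟨w₀, hw₀, e0⟩ := R3 x₀ u₀ h₀
      obtain ⟨w₁, hw₁, e1⟩ := R3 x₁ u₁ h₁
      obtain ⟨w₂, hw₂, e2⟩ := R3 x₂ u₂ h₂
      simp only [e0, e1, e2, hes _ _ _ _ (hle hw₀) _ (hle hw₁) _ (hle hw₂)]
  have hEι : ∀ d₀ d₁ d₂, e (r (ι d₀)) (r (ι d₁)) (r (ι d₂)) = e d₀ d₁ d₂ := by
    intro d₀ d₁ d₂
    obtain ⟨w₀, hw₀, e0⟩ := R4 d₀
    obtain ⟨w₁, hw₁, e1⟩ := R4 d₁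
    obtain ⟨w₂, hw₂, e2⟩ := R4 d₂
    rw [e0, e1, e2, hes _ _ _ _ (hle hw₀) _ (hle hw₁) _ (hle hw₂)]
  have hdE : d2 (k := k) (fun x₀ x₁ x₂ => e (r x₀) (r x₁) (r x₂)) ∈ B3 L V ρ := ⟨_, hE, rfl⟩
  have hf' : f - d2 (k := k) (fun x₀ x₁ x₂ => e (r x₀) (r x₁) (r x₂)) ∈ B3 L V ρ := by
    apply Rel_prism3 hU (sub_mem hf (B3_le_Z3 hdE)) _ (fun x => ι (r x)) (Rel_S1 hV R2) (Rel_S2 R3)
    · intro x₀ x₁ x₂ x₃
      have h1 := congrFun (congrFun (congrFun (congrFun hde (r x₀)) (r x₁)) (r x₂)) (r x₃)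
      simp only [d2_apply, CMap.coe_Z3] at h1
      simp only [Pi.sub_apply, d2_apply, hEι]
      rw [h1]
      exact sub_self _
    · intro g₀ g₁ g₂ g₃ u₀ h₀ u₁ h₁ u₂ h₂ u₃ h₃
      obtain ⟨w₀, hw₀, e0⟩ := R3 g₀ u₀ h₀
      obtain ⟨w₁, hw₁, e1⟩ := R3 g₁ u₁ h₁
      obtain ⟨w₂, hw₂, e2⟩ := R3 g₂ u₂ h₂
      obtain ⟨w₃, hw₃, e3⟩ := R3 g₃ u₃ h₃
      simp only [Pi.sub_apply, d2_apply,
        hfs _ _ _ _ _ (hUUf h₀) _ (hUUf h₁) _ (hUUf h₂) _ (hUUf h₃), e0, e1, e2, e3,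
        hes _ _ _ _ (hle hw₀) _ (hle hw₁) _ (hle hw₂), hes _ _ _ _ (hle hw₀) _ (hle hw₁) _ (hle hw₃),
        hes _ _ _ _ (hle hw₀) _ (hle hw₂) _ (hle hw₃), hes _ _ _ _ (hle hw₁) _ (hle hw₂) _ (hle hw₃)]
  have := add_mem hf' hdE
  rwa [sub_add_cancel] at this

/-- The special case of a subgroup `D ≤ G` with the induced levels: restriction of functions from
`G` to `D`. -/
lemma isPair_relSub (L : LevelSystem G) (ρ : Representation k G A) (D : Subgroup G) :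
    IsPair D.subtype (LinearMap.id : A →ₗ[k] A) L D ρ (L.induced D) ⊤ (ρ.comp D.subtype) where
  cont U hU := ⟨U.comap D.subtype, ⟨U, hU, rfl⟩, le_rfl⟩
  map_mem v _ := v.2
  equiv _ _ _ := rfl

lemma map_subtype_top (D : Subgroup G) : (⊤ : Subgroup D).map D.subtype = D := by
  rw [← MonoidHom.range_eq_map, Subgroup.range_subtype]

/-- Restriction of functions from `G` to `D`. -/
def relSubC (L : LevelSystem G) (ρ : Representation k G A) (D : Subgroup G) :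
    CMap L D ρ (L.induced D) ⊤ (ρ.comp D.subtype) := pairC (isPair_relSub L ρ D)

theorem relSub_bijective_H1 (L : LevelSystem G) (ρ : Representation k G A) (D : Subgroup G) :
    Function.Bijective (relSubC L ρ D).H1 :=
  ⟨rel_injective_H1 _ (map_subtype_top D), rel_surjective_H1 _ (map_subtype_top D)⟩

theorem relSub_bijective_H2 (L : LevelSystem G) (ρ : Representation k G A) (D : Subgroup G) :
    Function.Bijective (relSubC L ρ D).H2 :=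
  ⟨rel_injective_H2 _ (map_subtype_top D), rel_surjective_H2 _ (map_subtype_top D)⟩

theorem relSub_bijective_H3 (L : LevelSystem G) (ρ : Representation k G A) (D : Subgroup G) :
    Function.Bijective (relSubC L ρ D).H3 :=
  ⟨rel_injective_H3 _ (map_subtype_top D), rel_surjective_H3 _ (map_subtype_top D)⟩

end Fermat.Agent.PT
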