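import Fermat.Agent.PT.Coh.Cores
import Fermat.Agent.PT.Coh.IsoCrit

/-!
# S55, block F1: prime-to-`p` descent and the tower principle (Sylow + index-`p` chains)
-/

set_option autoImplicit false

namespace Fermat.Agent.PT

variable {k : Type*} [CommRing k] {G : Type*} [Group G] {A : Type*} [AddCommGroup A] [Module k A]
variable {L : LevelSystem G} {V : Subgroup G} {ρ : Representation k G A}

/-! ### prime-to-`p` descent: `cores ∘ res = index` -/

lemma Tower_mem_of_coprime {M : Type*} [AddCommGroup M] [Module k M] {B : Submodule k M} {z : M}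
    {n p : ℕ} (hnp : Nat.Coprime n p) (hn : n • z ∈ B) (hp : p • z = 0) : z ∈ B := by
  have h1 : (1 : ℤ) = n * Nat.gcdA n p + p * Nat.gcdB n p := by
    have := Nat.gcd_eq_gcd_ab n p
    rw [hnp.gcd_eq_one] at this
    exact_mod_cast this
  have h2 : z = Nat.gcdA n p • (n • z) + Nat.gcdB n p • (p • z) := by
    rw [← natCast_zsmul z n, ← natCast_zsmul z p, smul_smul, smul_smul, ← add_smul,
      mul_comm _ (n : ℤ), mul_comm _ (p : ℤ), ← h1, one_smul]
  rw [h2, hp, smul_zero, add_zero]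
  exact B.toAddSubgroup.zsmul_mem hn _

lemma Tower_B1_anti {W W' : Subgroup G} (h : W' ≤ W) {z : G → G → A} (hz : z ∈ B1 L W ρ) :
    z ∈ B1 L W' ρ := by
  obtain ⟨e, he, rfl⟩ := hz
  exact ⟨e, ⟨fun v hv => he.1 v (h hv), he.2⟩, rfl⟩

lemma Tower_B2_anti {W W' : Subgroup G} (h : W' ≤ W) {z : G → G → G → A} (hz : z ∈ B2 L W ρ) :
    z ∈ B2 L W' ρ := by
  obtain ⟨e, he, rfl⟩ := hz
  exact ⟨e, ⟨fun v hv => he.1 v (h hv), he.2⟩, rfl⟩

lemma Tower_B3_anti {W W' : Subgroup G} (h : W' ≤ W) {z : G → G → G → G → A}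
    (hz : z ∈ B3 L W ρ) : z ∈ B3 L W' ρ := by
  obtain ⟨e, he, rfl⟩ := hz
  exact ⟨e, ⟨fun v hv => he.1 v (h hv), he.2⟩, rfl⟩

theorem mem_B1_of_coprime {p : ℕ} [Fact p.Prime] (hp : ∀ a : A, p • a = 0) {V' : Subgroup G}
    (h : V' ≤ V) (hfin : V'.relIndex V ≠ 0) (hidx : ¬ p ∣ V'.relIndex V) {z : G → G → A}
    (hz : z ∈ Z1 L V ρ) (hz' : z ∈ B1 L V' ρ) : z ∈ B1 L V ρ := by
  have hfi : (V'.subgroupOf V).FiniteIndex := ⟨hfin⟩
  have hF : Finite (CosetsIn V V') := Subgroup.finite_quotient_of_finiteIndex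
  obtain ⟨e, he, rfl⟩ := hz'
  refine Tower_mem_of_coprime (n := V'.relIndex V) (p := p) ?_ ?_ ?_
  · exact ((Nat.Prime.coprime_iff_not_dvd Fact.out).mpr hidx).symm
  · rw [← Cores_cor1_of_mem L ρ h hz.1, ← d0_cor0]
    exact ⟨_, cor0_mem he, rfl⟩
  · ext
    exact hp _

theorem mem_B2_of_coprime {p : ℕ} [Fact p.Prime] (hp : ∀ a : A, p • a = 0) {V' : Subgroup G}
    (h : V' ≤ V) (hfin : V'.relIndex V ≠ 0) (hidx : ¬ p ∣ V'.relIndex V) {z : G → G → G → A}
    (hz : z ∈ Z2 L V ρ) (hz' : z ∈ B2 L V' ρ) : z ∈ B2 L V ρ := by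
  have hfi : (V'.subgroupOf V).FiniteIndex := ⟨hfin⟩
  have hF : Finite (CosetsIn V V') := Subgroup.finite_quotient_of_finiteIndex
  obtain ⟨e, he, rfl⟩ := hz'
  refine Tower_mem_of_coprime (n := V'.relIndex V) (p := p) ?_ ?_ ?_
  · exact ((Nat.Prime.coprime_iff_not_dvd Fact.out).mpr hidx).symm
  · rw [← Cores_cor2_of_mem L ρ h hz.1, ← d1_cor1]
    exact ⟨_, cor1_mem he, rfl⟩
  · ext
    exact hp _

theorem mem_B3_of_coprime {p : ℕ} [Fact p.Prime] (hp : ∀ a : A, p • a = 0) {V' : Subgroup G}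
    (h : V' ≤ V) (hfin : V'.relIndex V ≠ 0) (hidx : ¬ p ∣ V'.relIndex V) {z : G → G → G → G → A}
    (hz : z ∈ Z3 L V ρ) (hz' : z ∈ B3 L V' ρ) : z ∈ B3 L V ρ := by
  have hfi : (V'.subgroupOf V).FiniteIndex := ⟨hfin⟩
  have hF : Finite (CosetsIn V V') := Subgroup.finite_quotient_of_finiteIndex
  obtain ⟨e, he, rfl⟩ := hz'
  refine Tower_mem_of_coprime (n := V'.relIndex V) (p := p) ?_ ?_ ?_
  · exact ((Nat.Prime.coprime_iff_not_dvd Fact.out).mpr hidx).symm
  · rw [← Cores_cor3_of_mem L ρ h hz.1, ← d2_cor2]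
    exact ⟨_, cor2_mem he, rfl⟩
  · ext
    exact hp _

/-! ### group theory: a Sylow chain between `V ⊓ U` and `V` -/

/-- chain of subgroups of orders `1, p, .., p ^ i` in a finite group. -/
theorem Tower_exists_chain_aux (p : ℕ) [Fact p.Prime] (Q : Type*) [Group Q] [Finite Q] (i : ℕ)
    (hi : p ^ i ∣ Nat.card Q) :
    ∃ H : ℕ → Subgroup Q, H 0 = ⊥ ∧ (∀ j, H j ≤ H (j + 1)) ∧ ∀ j ≤ i, Nat.card (H j) = p ^ j := by
  induction i with
  | zero =>
    refine ⟨fun _ => ⊥, rfl, fun _ => le_rfl, fun j hj => ?_⟩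
    obtain rfl : j = 0 := by omega
    simp
  | succ i ih =>
    obtain ⟨H, h0, hmono, hcard⟩ := ih (dvd_trans (pow_dvd_pow p (Nat.le_succ i)) hi)
    obtain ⟨K, hK, hHK⟩ := Sylow.exists_subgroup_card_pow_succ hi (hcard i le_rfl)
    refine ⟨fun j => if j ≤ i then H j else K, ?_, ?_, ?_⟩
    · simp [h0]
    · intro j
      by_cases h1 : j + 1 ≤ i
      · have h2 : j ≤ i := by omega
        simp only [h1, h2, if_true]
        exact hmono j
      · by_cases h2 : j ≤ i
        · obtain rfl : j = i := by omega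
          simp only [h1, le_refl, if_true, if_false]
          exact hHK
        · simp only [h1, h2, if_false]
          exact le_rfl
    · intro j hj
      by_cases h2 : j ≤ i
      · simp only [h2, if_true]
        exact hcard j h2
      · obtain rfl : j = i + 1 := by omega
        simp only [h2, if_false]
        exact hK

/-- Sylow chain in a finite group. -/
theorem Tower_exists_chain (p : ℕ) [Fact p.Prime] (Q : Type*) [Group Q] [Finite Q] :
    ∃ (m : ℕ) (H : ℕ → Subgroup Q), H 0 = ⊥ ∧ (∀ j, H j ≤ H (j + 1)) ∧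
      (∀ i < m, ((H i).subgroupOf (H (i + 1))).Normal ∧ (H i).relIndex (H (i + 1)) = p) ∧
      (H m).index ≠ 0 ∧ ¬ p ∣ (H m).index := by
  have hp : p.Prime := Fact.out
  have hQ : Nat.card Q ≠ 0 := Nat.card_pos.ne'
  obtain ⟨H, h0, hmono, hcard⟩ := Tower_exists_chain_aux p Q ((Nat.card Q).factorization p)
    (Nat.ordProj_dvd _ _)
  refine ⟨(Nat.card Q).factorization p, H, h0, hmono, ?_, ?_, ?_⟩
  · intro i hi
    have hrel : (H i).relIndex (H (i + 1)) = p := by
      have h1 := Subgroup.relIndex_mul_relIndex ⊥ (H i) (H (i + 1)) bot_le (hmono i)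
      rw [Subgroup.relIndex_bot_left, Subgroup.relIndex_bot_left, hcard i hi.le,
        hcard (i + 1) hi, pow_succ] at h1
      exact Nat.eq_of_mul_eq_mul_left (pow_pos hp.pos i) h1
    refine ⟨?_, hrel⟩
    apply Subgroup.normal_of_index_eq_minFac_card
    rw [hcard (i + 1) hi, hp.pow_minFac (Nat.succ_ne_zero i)]
    exact hrel
  · exact Subgroup.index_ne_zero_of_finite
  · intro hdvd
    have h1 := Subgroup.card_mul_index (H ((Nat.card Q).factorization p))
    rw [hcard _ le_rfl] at h1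
    have h2 : p ^ ((Nat.card Q).factorization p + 1) ∣ Nat.card Q := by
      rw [pow_succ]
      exact (Nat.mul_dvd_mul_left _ hdvd).trans (dvd_of_eq h1)
    exact Nat.pow_succ_factorization_not_dvd hQ hp h2

/-- For a level `U` (normal, of finite index) there is a chain
`V ⊓ U = P 0 ≤ P 1 ≤ .. ≤ P m ≤ V`, each `P i` normal of index `p` in `P (i+1)`, with
`[V : P m]` finite and prime to `p`. -/
theorem exists_sylow_chain (p : ℕ) [Fact p.Prime] {U : Subgroup G} (hU : U ∈ L) (V : Subgroup G) :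
    ∃ (m : ℕ) (P : ℕ → Subgroup G), P 0 = V ⊓ U ∧ (∀ i, P i ≤ P (i + 1)) ∧ (∀ i, P i ≤ V) ∧
      (∀ i < m, ((P i).subgroupOf (P (i + 1))).Normal ∧ (P i).relIndex (P (i + 1)) = p) ∧
      (P m).relIndex V ≠ 0 ∧ ¬ p ∣ (P m).relIndex V := by
  have hUn : U.Normal := L.normal' U hU
  have hUf : U.FiniteIndex := L.finiteIndex' U hU
  let N : Subgroup V := U.subgroupOf V
  have hNn : N.Normal := inferInstance
  have hNf : N.FiniteIndex := inferInstance
  have hfin : Finite (V ⧸ N) := inferInstance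
  obtain ⟨m, H, h0, hmono, hstep, hidx0, hidx⟩ := Tower_exists_chain p (V ⧸ N)
  have hsurj : Function.Surjective (QuotientGroup.mk' N) := QuotientGroup.mk'_surjective N
  have hinj : Function.Injective V.subtype := V.subtype_injective
  have hrel : ∀ A B : Subgroup (V ⧸ N),
      ((A.comap (QuotientGroup.mk' N)).map V.subtype).relIndex
        ((B.comap (QuotientGroup.mk' N)).map V.subtype) = A.relIndex B := by
    intro A B
    rw [Subgroup.relIndex_map_map_of_injective _ _ hinj, Subgroup.relIndex_comap,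
      Subgroup.map_comap_eq_self_of_surjective hsurj]
  refine ⟨m, fun i => ((H i).comap (QuotientGroup.mk' N)).map V.subtype, ?_, ?_, ?_, ?_, ?_⟩
  · simp only [h0]
    have hker : (⊥ : Subgroup (V ⧸ N)).comap (QuotientGroup.mk' N) = N := QuotientGroup.ker_mk' N
    rw [hker, Subgroup.subgroupOf_map_subtype, inf_comm]
  · intro i
    exact Subgroup.map_mono (Subgroup.comap_mono (hmono i))
  · intro i
    exact Subgroup.map_subtype_le _
  · intro i hi
    obtain ⟨hn, hr⟩ := hstep i hi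
    refine ⟨?_, by rw [hrel]; exact hr⟩
    rw [Subgroup.normal_subgroupOf_iff (Subgroup.map_mono (Subgroup.comap_mono (hmono i)))]
    rw [Subgroup.normal_subgroupOf_iff (hmono i)] at hn
    rintro _ _ ⟨h, hh, rfl⟩ ⟨k, hk, rfl⟩
    refine ⟨k * h * k⁻¹, ?_, by simp⟩
    rw [SetLike.mem_coe, Subgroup.mem_comap] at hh hk ⊢
    rw [map_mul, map_mul, map_inv]
    exact hn _ _ hh hk
  · have hV : V = ((⊤ : Subgroup (V ⧸ N)).comap (QuotientGroup.mk' N)).map V.subtype := by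
      rw [Subgroup.comap_top, ← MonoidHom.range_eq_map, Subgroup.range_subtype]
    have h1 : (((H m).comap (QuotientGroup.mk' N)).map V.subtype).relIndex V = (H m).index := by
      have h2 := hrel (H m) ⊤
      rw [← hV, Subgroup.relIndex_top_right] at h2
      exact h2
    rw [h1]
    exact ⟨hidx0, hidx⟩

/-- A subgroup `P ≤ V` such that `[P : V ⊓ U]` is a power of `p` lies in every normal subgroup `G1`
containing `U` whose index is prime to `p`. -/
theorem le_of_relIndex_pow {p : ℕ} [Fact p.Prime] {U G1 P : Subgroup G} [G1.Normal]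
    (hUG1 : U ≤ G1) (hfin : G1.index ≠ 0) (hidx : ¬ p ∣ G1.index) {n : ℕ}
    (hP : (P ⊓ U).relIndex P = p ^ n) : P ≤ G1 := by
  have hp : p.Prime := Fact.out
  rw [← Subgroup.relIndex_eq_one]
  have h1 : G1.relIndex P ∣ p ^ n := by
    rw [← hP, Subgroup.inf_relIndex_left]
    exact Subgroup.relIndex_dvd_of_le_left P hUG1
  have h2 : G1.relIndex P ∣ G1.index := Subgroup.relIndex_dvd_index_of_normal G1 P
  have hcop : Nat.Coprime (p ^ n) G1.index :=
    Nat.Coprime.pow_left n ((Nat.Prime.coprime_iff_not_dvd hp).mpr hidx)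
  exact Nat.eq_one_of_dvd_coprimes hcop h1 h2

/-! ### the tower principle -/

/-- The tower principle for an abstract antitone predicate on subgroups. -/
theorem Tower_principle {p : ℕ} [Fact p.Prime]
    (G1 : Subgroup G) [G1.Normal] (hG1 : L.IsOpen G1) (hidx : ¬ p ∣ G1.index)
    (Q : Subgroup G → Prop) (anti : ∀ W W' : Subgroup G, W' ≤ W → Q W → Q W')
    (die : ∃ U ∈ L, Q (V ⊓ U))
    (cop : ∀ V' : Subgroup G, V' ≤ V → V'.relIndex V ≠ 0 → ¬ p ∣ V'.relIndex V → Q V' → Q V)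
    (step : ∀ V1 V2 : Subgroup G, V2 ≤ V1 → V1 ≤ V ⊓ G1 → (∃ U ∈ L, V ⊓ U ≤ V2) →
      (V2.subgroupOf V1).Normal → V2.relIndex V1 = p → Q V2 → Q V1) : Q V := by
  obtain ⟨U0, hU0, hQ0⟩ := die
  obtain ⟨U1, hU1, hU1G⟩ := hG1
  obtain ⟨U, hU, hUU0, hUU1⟩ := L.directed' U0 hU0 U1 hU1
  have hQU : Q (V ⊓ U) := anti _ _ (inf_le_inf_left V hUU0) hQ0
  have hUG1 : U ≤ G1 := hUU1.trans hU1G
  have hfinG1 : G1.index ≠ 0 := by
    have := L.finiteIndex' U hU
    exact (Subgroup.finiteIndex_of_le hUG1).index_ne_zero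
  obtain ⟨m, P, h0, hmono, hleV, hst, hfin, hcop⟩ := exists_sylow_chain (L := L) p hU V
  have hmono' : Monotone P := monotone_nat_of_le_succ hmono
  have hinf : ∀ i, P i ⊓ U = P 0 := by
    intro i
    apply le_antisymm
    · rw [h0]
      exact inf_le_inf_right U (hleV i)
    · refine le_inf (hmono' (Nat.zero_le i)) ?_
      rw [h0]
      exact inf_le_right
  have key : ∀ i, i ≤ m → (P 0).relIndex (P i) = p ^ i ∧ Q (P i) := by
    intro i
    induction i with
    | zero =>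
      intro _
      refine ⟨by rw [Subgroup.relIndex_self, pow_zero], ?_⟩
      rw [h0]
      exact hQU
    | succ i ih =>
      intro hi
      obtain ⟨hr, hQ⟩ := ih (by omega)
      obtain ⟨hn, hp⟩ := hst i (by omega)
      have hr' : (P 0).relIndex (P (i + 1)) = p ^ (i + 1) := by
        rw [← Subgroup.relIndex_mul_relIndex _ _ _ (hmono' (Nat.zero_le i)) (hmono i), hr, hp,
          pow_succ]
      refine ⟨hr', ?_⟩
      have hG : P (i + 1) ≤ G1 :=
        le_of_relIndex_pow (n := i + 1) hUG1 hfinG1 hidx (by rw [hinf, hr'])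
      refine step (P (i + 1)) (P i) (hmono i) (le_inf (hleV _) hG) ⟨U, hU, ?_⟩ hn hp hQ
      rw [← h0]
      exact hmono' (Nat.zero_le i)
  exact cop (P m) (hleV m) hfin hcop (key m le_rfl).2

/-- (B4) To prove that a `2`-cocycle `z` of `V` with `p`-torsion coefficients is a coboundary it
suffices to prove the index-`p` step inside `V ⊓ G1`. -/
theorem tower_principle2 {p : ℕ} [Fact p.Prime] (hp : ∀ a : A, p • a = 0)
    (G1 : Subgroup G) [G1.Normal] (hG1 : L.IsOpen G1) (hidx : ¬ p ∣ G1.index)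
    {z : G → G → G → A} (hz : z ∈ Z2 L V ρ)
    (step : ∀ V1 V2 : Subgroup G, V2 ≤ V1 → V1 ≤ V ⊓ G1 → (∃ U ∈ L, V ⊓ U ≤ V2) →
      (V2.subgroupOf V1).Normal → V2.relIndex V1 = p → z ∈ B2 L V2 ρ → z ∈ B2 L V1 ρ) :
    z ∈ B2 L V ρ := by
  exact Tower_principle (L := L) (V := V) G1 hG1 hidx (fun W => z ∈ B2 L W ρ)
    (fun _ _ h hW => Tower_B2_anti h hW) (die2 hz)
    (fun _ h hfin hi hW => mem_B2_of_coprime hp h hfin hi hz hW) step

theorem tower_principle1 {p : ℕ} [Fact p.Prime] (hp : ∀ a : A, p • a = 0)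
    (G1 : Subgroup G) [G1.Normal] (hG1 : L.IsOpen G1) (hidx : ¬ p ∣ G1.index)
    {z : G → G → A} (hz : z ∈ Z1 L V ρ)
    (step : ∀ V1 V2 : Subgroup G, V2 ≤ V1 → V1 ≤ V ⊓ G1 → (∃ U ∈ L, V ⊓ U ≤ V2) →
      (V2.subgroupOf V1).Normal → V2.relIndex V1 = p → z ∈ B1 L V2 ρ → z ∈ B1 L V1 ρ) :
    z ∈ B1 L V ρ := by
  exact Tower_principle (L := L) (V := V) G1 hG1 hidx (fun W => z ∈ B1 L W ρ)
    (fun _ _ h hW => Tower_B1_anti h hW) (die1 hz)
    (fun _ h hfin hi hW => mem_B1_of_coprime hp h hfin hi hz hW) step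

theorem tower_principle3 {p : ℕ} [Fact p.Prime] (hp : ∀ a : A, p • a = 0)
    (G1 : Subgroup G) [G1.Normal] (hG1 : L.IsOpen G1) (hidx : ¬ p ∣ G1.index)
    {z : G → G → G → G → A} (hz : z ∈ Z3 L V ρ)
    (step : ∀ V1 V2 : Subgroup G, V2 ≤ V1 → V1 ≤ V ⊓ G1 → (∃ U ∈ L, V ⊓ U ≤ V2) →
      (V2.subgroupOf V1).Normal → V2.relIndex V1 = p → z ∈ B3 L V2 ρ → z ∈ B3 L V1 ρ) :
    z ∈ B3 L V ρ := by
  exact Tower_principle (L := L) (V := V) G1 hG1 hidx (fun W => z ∈ B3 L W ρ)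
    (fun _ _ h hW => Tower_B3_anti h hW) (die3 hz)
    (fun _ h hfin hi hW => mem_B3_of_coprime hp h hfin hi hz hW) step

end Fermat.Agent.PT
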